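import Fermat.Agent.Corollaries.Ambi.Final

/-!
# Hilbert's theorem 94

`L / K` Galois of prime degree `p`, unramified at all places. The number of ideal classes of `K`
which become principal in `L` is `p · [E_K : N E_L]`. In particular there is a non-principal ideal
of `K` which becomes principal in `L`; its `p`-th power is principal.
-/

set_option autoImplicit false
set_option linter.unusedSectionVars false

namespace Fermat.Agent.Cor.Ambi

open IsDedekindDomain NumberField
open Fermat.Agent.CFT.SUnits Fermat.Agent.CFT.ChevMul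
open scoped nonZeroDivisors

variable (K L : Type*) [Field K] [NumberField K] [Field L] [NumberField L] [Algebra K L]

/-- the ideal classes of `K` which become principal in `L` -/
noncomputable def capit : Subgroup (ClassGroup (𝓞 K)) :=
  ((classOf (K := L)).comp (extM (K := K) L)).ker.map classOf

variable {K L}

/-- the extension of a non-zero ideal -/
noncomputable def extI (L : Type*) [Field L] [NumberField L] [Algebra K L] (I : (Ideal (𝓞 K))⁰) :
    (Ideal (𝓞 L))⁰ :=
  ⟨(I : Ideal (𝓞 K)).map (algebraMap (𝓞 K) (𝓞 L)), mem_nonZeroDivisors_of_ne_zero (by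
    rw [Ideal.zero_eq_bot, ne_eq, Ideal.map_eq_bot_iff_of_injective
      (FaithfulSMul.algebraMap_injective (𝓞 K) (𝓞 L))]
    exact nonZeroDivisors.coe_ne_zero I)⟩

lemma coe_extI (I : (Ideal (𝓞 K))⁰) :
    (extI L I : Ideal (𝓞 L)) = (I : Ideal (𝓞 K)).map (algebraMap (𝓞 K) (𝓞 L)) := rfl

lemma exists_idealOf (I : (Ideal (𝓞 K))⁰) : ∃ D : HeightOneSpectrum (𝓞 K) →₀ ℤ,
    idealOf K D = FractionalIdeal.mk0 K I ∧ classOf (Multiplicative.ofAdd D) = ClassGroup.mk0 I := by
  obtain ⟨D, hD⟩ := idealOf_surjective (R := 𝓞 K) (K := K) (FractionalIdeal.mk0 K I)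
  refine ⟨D, hD, ?_⟩
  change ClassGroup.mk K (idealOf K D) = _
  rw [hD, ClassGroup.mk_mk0]

/-- the divisor of a principal ideal -/
lemma idealOf_span {a : 𝓞 K} (x : Kˣ) (hx : (x : K) = a) (J : (Ideal (𝓞 K))⁰)
    (hJ : (J : Ideal (𝓞 K)) = Ideal.span {a}) :
    idealOf K (div x : HeightOneSpectrum (𝓞 K) →₀ ℤ) = FractionalIdeal.mk0 K J := by
  rw [idealOf_div]
  ext1
  rw [coe_toPrincipalIdeal, FractionalIdeal.coe_mk0, hJ, FractionalIdeal.coeIdeal_span_singleton,
    hx]

lemma idealOf_pow (n : ℕ) (F : HeightOneSpectrum (𝓞 K) →₀ ℤ) :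
    idealOf K F ^ n = idealOf K (n • F) := by
  rw [← natCast_zsmul, idealOf_zsmul, zpow_natCast]

/-- the divisor of the extended ideal -/
theorem classOf_extD (I : (Ideal (𝓞 K))⁰) {D : HeightOneSpectrum (𝓞 K) →₀ ℤ}
    (hD : idealOf K D = FractionalIdeal.mk0 K I) :
    classOf (Multiplicative.ofAdd (extD L D)) = ClassGroup.mk0 (extI L I) := by
  obtain ⟨E, hE, hE'⟩ := exists_idealOf (extI L I)
  rw [← hE']
  congr 2
  set h := classNumber K with hh
  have hh0 : h ≠ 0 := classNumber_ne_zero K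
  -- `I ^ h = (a)`
  have h1 : (ClassGroup.mk0 I) ^ h = 1 := by
    rw [hh, classNumber]
    exact pow_card_eq_one
  rw [← map_pow, ClassGroup.mk0_eq_one_iff] at h1
  obtain ⟨a, ha⟩ := h1
  rw [Ideal.submodule_span_eq] at ha
  have ha0 : a ≠ 0 := by
    rintro rfl
    rw [Ideal.span_singleton_eq_bot.mpr rfl] at ha
    exact nonZeroDivisors.coe_ne_zero (I ^ h) ha
  have haK : (a : K) ≠ 0 := (map_ne_zero_iff _ (RingOfIntegers.coe_injective (K := K))).mpr ha0
  set x : Kˣ := Units.mk0 (a : K) haK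
  have h2 := idealOf_span x rfl (I ^ h) ha
  rw [map_pow, ← hD] at h2
  rw [idealOf_pow] at h2
  have h4 := idealOf_injective K h2
  have hup : ((up L x : Lˣ) : L) = ((algebraMap (𝓞 K) (𝓞 L) a : 𝓞 L) : L) := by
    change algebraMap K L (a : K) = _
    rw [← IsScalarTower.algebraMap_apply (𝓞 K) K L]
    rfl
  have h5 : ((extI L I ^ h : (Ideal (𝓞 L))⁰) : Ideal (𝓞 L)) =
      Ideal.span {algebraMap (𝓞 K) (𝓞 L) a} := by
    rw [SubmonoidClass.coe_pow, coe_extI, ← Ideal.map_pow, ← SubmonoidClass.coe_pow, ha,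
      Ideal.map_span, Set.image_singleton]
  have h6 := idealOf_span (up L x) hup (extI L I ^ h) h5
  rw [map_pow, ← hE, idealOf_pow] at h6
  have h7 := idealOf_injective L h6
  rw [← extD_div, h4, map_nsmul] at h7
  exact smul_right_injective _ hh0 h7

/-- **capitulation** in terms of ideals -/
theorem mem_capit (I : (Ideal (𝓞 K))⁰) : ClassGroup.mk0 I ∈ capit K L ↔
    ((I : Ideal (𝓞 K)).map (algebraMap (𝓞 K) (𝓞 L))).IsPrincipal := by
  obtain ⟨D, hD, hD'⟩ := exists_idealOf I
  have h1 := classOf_extD (L := L) I hD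
  have h2 : ClassGroup.mk0 (extI L I) = 1 ↔
      ((I : Ideal (𝓞 K)).map (algebraMap (𝓞 K) (𝓞 L))).IsPrincipal :=
    ClassGroup.mk0_eq_one_iff (extI L I).2
  rw [← h2, ← h1]
  constructor
  · rintro ⟨D', hD₁, hD₂⟩
    rw [← hD', eq_comm, ← div_eq_one, ← map_div, classOf_eq_one_iff] at hD₂
    obtain ⟨x, hx⟩ := hD₂
    have h3 : dvm K x = Multiplicative.ofAdd D / D' := Multiplicative.toAdd.injective hx
    have h4 : classOf (extM L (Multiplicative.ofAdd D / D')) = 1 := by
      rw [← h3, extM_dvm, ← MonoidHom.mem_ker, ker_classOf]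
      exact ⟨_, rfl⟩
    have h5 : classOf (extM L D') = 1 := hD₁
    rw [map_div, map_div, h5, _root_.div_one] at h4
    exact h4
  · intro h
    exact ⟨Multiplicative.ofAdd D, h, hD'⟩

/-- the norms of units -/
noncomputable def normE (K L : Type*) [Field K] [NumberField K] [Field L] [NumberField L]
    [Algebra K L] : Subgroup (𝓞 K)ˣ :=
  (Units.map (RingOfIntegers.norm K : 𝓞 L →* 𝓞 K)).range

theorem card_capit_eq [IsGalois K L] {p : ℕ} (hp : p.Prime) (hd : Module.finrank K L = p)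
    (h1 : ram K L = ∅) {σ : Gal(L/K)} (hσ : ∀ τ, τ ∈ Subgroup.zpowers σ) (hord : orderOf σ = p) :
    Nat.card (capit K L) =
      ((unitsL L).map (del (sgU σ))).relIndex (unitsL L ⊓ (nrm p (sgU σ)).ker) := by
  have h2 : (extM (K := K) L).range = (del (actM σ)).ker := by
    refine le_antisymm (range_extM_le hσ) ?_
    rw [← Subgroup.relIndex_eq_one, relIndex_eq_pow hσ (divStmt hp hd), h1, Set.ncard_empty,
      pow_zero]
  rw [capit, ← Subgroup.relIndex_ker, ker_classOf,
    ← Subgroup.relIndex_map_map_of_injective _ _ (extM_injective (K := K) (L := L)),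
    ← map_ker_eq hσ]
  have h3 : ((classOf (K := L)).comp (extM (K := K) L)).ker.map (extM L) =
      (dvm L).range ⊓ (del (actM σ)).ker := by
    rw [← MonoidHom.comap_ker, Subgroup.map_comap_eq, ker_classOf, h2, inf_comm]
  rw [h3, relIndex_map_ker (dvm_sgU σ), ker_nrm_eq hp.pos hord, ker_dvm]

lemma map_nrm_eq [IsGalois K L] {p : ℕ} {σ : Gal(L/K)} (hσ : ∀ τ, τ ∈ Subgroup.zpowers σ)
    (hord : orderOf σ = p) :
    (unitsL L).map (nrm p (sgU σ)) = (normE K L).map (upO L) := by
  ext x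
  constructor
  · rintro ⟨y, hy, rfl⟩
    rw [SetLike.mem_coe, mem_unitsL, CFT.SUnits.div_eq_zero_iff] at hy
    obtain ⟨u, rfl⟩ := hy
    refine ⟨_, ⟨u, rfl⟩, ?_⟩
    rw [nrm_eq_up hσ hord]
    rfl
  · rintro ⟨_, ⟨u, rfl⟩, rfl⟩
    refine ⟨Units.map (algebraMap (𝓞 L) L : 𝓞 L →* L) u, ?_, ?_⟩
    · rw [SetLike.mem_coe, mem_unitsL, CFT.SUnits.div_eq_zero_iff]
      exact ⟨u, rfl⟩
    · rw [nrm_eq_up hσ hord]
      rfl

/-- **Hilbert's theorem 94**, exact form: `L / K` Galois of prime degree `p`, unramified at all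
places. The number of ideal classes of `K` which become principal in `L` is `p · [E_K : N E_L]`. -/
theorem card_capit [IsGalois K L] {p : ℕ} (hp : p.Prime) (hd : Module.finrank K L = p)
    (h : ∀ w : HeightOneSpectrum (𝓞 L),
      (w.asIdeal.under (𝓞 K)).ramificationIdx' w.asIdeal = 1)
    [IsUnramifiedAtInfinitePlaces K L] :
    Nat.card (capit K L) = p * (normE K L).index := by
  obtain ⟨σ, hσ1⟩ := exists_ne_one hp hd
  obtain ⟨hord, hσ⟩ := generator hp hd hσ1
  have h1 : ram K L = ∅ := by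
    rw [Set.eq_empty_iff_forall_notMem]
    rintro v ⟨w, -, hw⟩
    exact hw (h w)
  have h2 : ramInf K L = 0 := by
    rw [ramInf, Nat.card_eq_zero]
    exact Or.inl ⟨fun v => v.2 (InfinitePlace.isUnramifiedIn L v.1)⟩
  obtain ⟨-, -, h3⟩ := unitsStmt hp hd σ hσ
  rw [h2, pow_zero, one_mul, map_nrm_eq hσ hord, fixedIn_eq hσ, MonoidHom.range_eq_map (upO L),
    Subgroup.relIndex_map_map_of_injective _ _ upO_injective, Subgroup.relIndex_top_right] at h3
  rw [card_capit_eq hp hd h1 hσ hord, h3]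

/-- **Hilbert's theorem 94** (Zahlbericht 1897): `L / K` Galois of prime degree `p`, unramified at
all places. There is an ideal of `K` which is not principal and becomes principal in `L`, its `p`-th
power is principal. -/
theorem exists_capitulation [IsGalois K L] {p : ℕ} (hp : p.Prime) (hd : Module.finrank K L = p)
    (h : ∀ w : HeightOneSpectrum (𝓞 L),
      (w.asIdeal.under (𝓞 K)).ramificationIdx' w.asIdeal = 1)
    [IsUnramifiedAtInfinitePlaces K L] :
    ∃ I : Ideal (𝓞 K), ¬ I.IsPrincipal ∧ (I ^ p).IsPrincipal ∧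
      (I.map (algebraMap (𝓞 K) (𝓞 L))).IsPrincipal := by
  have hfact : Fact p.Prime := ⟨hp⟩
  have h1 := card_capit hp hd h
  obtain ⟨c, hc⟩ := exists_prime_orderOf_dvd_card' p (h1 ▸ dvd_mul_right p (normE K L).index)
  obtain ⟨I, hI⟩ := ClassGroup.mk0_surjective (c : ClassGroup (𝓞 K))
  refine ⟨I, ?_, ?_, ?_⟩
  · intro h2
    have h3 : ClassGroup.mk0 I = 1 := (ClassGroup.mk0_eq_one_iff I.2).mpr h2
    rw [hI] at h3
    have h4 : c = 1 := Subtype.ext h3
    rw [h4, orderOf_one] at hc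
    exact hp.one_lt.ne hc
  · have h3 : ClassGroup.mk0 (I ^ p) = 1 := by
      rw [map_pow, hI, ← SubmonoidClass.coe_pow, ← hc, pow_orderOf_eq_one]
      rfl
    exact (ClassGroup.mk0_eq_one_iff (I ^ p).2).mp h3
  · rw [← mem_capit, hI]
    exact c.2

end Fermat.Agent.Cor.Ambi
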