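import Fermat.Agent.Corollaries.Ambi.Capit

/-!
# Class numbers in extensions

* `L / K` Galois of prime degree `p`, unramified at all places, `p² ∤ h(K)`: then `p ∤ h(L)`.
* For every extension `L / K` of number fields the ideal classes of `K` which become principal in `L`
  are killed by `[L : K]`; so `v_p(h(K)) ≤ v_p(h(L))` for `p ∤ [L : K]`, and `h(K) ∣ h(L)` if `h(K)`
  is prime to `[L : K]`.
-/

set_option autoImplicit false
set_option linter.unusedSectionVars false

namespace Fermat.Agent.Cor.Ambi

open IsDedekindDomain NumberField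
open Fermat.Agent.CFT.SUnits
open scoped nonZeroDivisors

variable {K L : Type*} [Field K] [NumberField K] [Field L] [NumberField L] [Algebra K L]

/-- **the class field tower stops**: `L / K` Galois of prime degree `p`, unramified at all places;
if `p ^ 2` does not divide the class number of `K` then `p` does not divide the class number of
`L`. -/
theorem not_dvd_classNumber_of_unramified [IsGalois K L] {p : ℕ} (hp : p.Prime)
    (hd : Module.finrank K L = p)
    (h : ∀ w : HeightOneSpectrum (𝓞 L),
      (w.asIdeal.under (𝓞 K)).ramificationIdx' w.asIdeal = 1)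
    [IsUnramifiedAtInfinitePlaces K L] (hK : ¬ p ^ 2 ∣ classNumber K) : ¬ p ∣ classNumber L := by
  obtain ⟨σ, hσ⟩ := exists_ne_one hp hd
  have h1 : ram K L = ∅ := by
    rw [Set.eq_empty_iff_forall_notMem]
    rintro v ⟨w, -, hw⟩
    exact hw (h w)
  have h2 : ramInf K L = 0 := by
    rw [ramInf, Nat.card_eq_zero]
    exact Or.inl ⟨fun v => v.2 (InfinitePlace.isUnramifiedIn L v.1)⟩
  have h3 := chevalley_formula hp hd hσ
  rw [h1, Set.ncard_empty, h2, pow_zero, pow_zero, mul_one, mul_one] at h3
  intro hL
  have h4 : p ∣ Nat.card (ambig σ) :=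
    ((classNumber_modEq hp hd hσ).dvd_iff (dvd_refl p)).mp hL
  apply hK
  rw [← h3, pow_two]
  exact (mul_dvd_mul h4 (dvd_refl p)).mul_right _

/-! ### the extension of ideal classes -/

lemma extI_mul (I J : (Ideal (𝓞 K))⁰) : extI L (I * J) = extI L I * extI L J := by
  apply Subtype.ext
  rw [coe_extI, Submonoid.coe_mul, Submonoid.coe_mul, Ideal.map_mul]
  rfl

/-- the extension map on ideal classes -/
noncomputable def extC (K L : Type*) [Field K] [NumberField K] [Field L] [NumberField L]
    [Algebra K L] : ClassGroup (𝓞 K) →* ClassGroup (𝓞 L) := by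
  refine (QuotientGroup.lift (classOf (K := K)).ker ((classOf (K := L)).comp (extM L)) ?_).comp
    (QuotientGroup.quotientKerEquivOfSurjective _ (classOf_surjective (K := K))).symm.toMonoidHom
  intro D hD
  rw [ker_classOf] at hD
  obtain ⟨x, rfl⟩ := hD
  rw [MonoidHom.mem_ker, MonoidHom.comp_apply, extM_dvm, ← MonoidHom.mem_ker, ker_classOf]
  exact ⟨_, rfl⟩

lemma extC_classOf (D : Multiplicative (HeightOneSpectrum (𝓞 K) →₀ ℤ)) :
    extC K L (classOf D) = classOf (extM L D) := by
  rw [extC, MonoidHom.comp_apply]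
  have h : (QuotientGroup.quotientKerEquivOfSurjective _ (classOf_surjective (K := K))).symm
      (classOf D) = QuotientGroup.mk D := by
    rw [MulEquiv.symm_apply_eq]
    rfl
  change QuotientGroup.lift _ _ _ ((QuotientGroup.quotientKerEquivOfSurjective _
    (classOf_surjective (K := K))).symm (classOf D)) = _
  rw [h]
  rfl

/-- the class of `I` goes to the class of `I 𝓞_L` -/
theorem extC_mk0 (I : (Ideal (𝓞 K))⁰) :
    extC K L (ClassGroup.mk0 I) = ClassGroup.mk0 (extI L I) := by
  obtain ⟨D, hD, hD'⟩ := exists_idealOf I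
  rw [← hD', extC_classOf]
  exact classOf_extD I hD

theorem ker_extC : (extC K L).ker = capit K L := by
  ext c
  obtain ⟨I, rfl⟩ := ClassGroup.mk0_surjective c
  rw [MonoidHom.mem_ker, extC_mk0, mem_capit]
  exact ClassGroup.mk0_eq_one_iff (extI L I).2

lemma finrank_integers : Module.finrank (𝓞 K) (𝓞 L) = Module.finrank K L :=
  (IsFractionRing.finrank_eq (𝓞 K) K (𝓞 L) L).symm

/-- **a class which becomes principal in `L` is killed by `[L : K]`**, for every extension -/
theorem pow_finrank_eq_one {c : ClassGroup (𝓞 K)} (hc : c ∈ capit K L) :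
    c ^ Module.finrank K L = 1 := by
  obtain ⟨I, rfl⟩ := ClassGroup.mk0_surjective c
  rw [mem_capit] at hc
  obtain ⟨a, ha⟩ := hc
  rw [Ideal.submodule_span_eq] at ha
  have h1 := Ideal.relNorm_algebraMap (𝓞 L) (I : Ideal (𝓞 K))
  rw [ha, Ideal.relNorm_singleton, finrank_integers] at h1
  rw [← map_pow, ClassGroup.mk0_eq_one_iff, SubmonoidClass.coe_pow, ← h1]
  exact ⟨⟨_, rfl⟩⟩

lemma card_eq_mul : classNumber K = Nat.card (capit K L) * Nat.card (extC K L).range := by
  have h1 := Subgroup.card_mul_index (capit K L)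
  have h2 : (capit K L).index = Nat.card (extC K L).range := by
    rw [← ker_extC, Subgroup.index_ker]
  rw [← h2, h1, Nat.card_eq_fintype_card]
  rfl

lemma card_range_dvd : Nat.card (extC K L).range ∣ classNumber L := by
  have h := Subgroup.card_subgroup_dvd_card (extC K L).range
  rwa [Nat.card_eq_fintype_card (α := ClassGroup (𝓞 L))] at h

/-- the primes dividing the number of classes which become principal divide the degree -/
theorem coprime_card_capit {n : ℕ} (hn : n.Coprime (Module.finrank K L)) :
    n.Coprime (Nat.card (capit K L)) := by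
  rw [Nat.coprime_iff_gcd_eq_one, Nat.eq_one_iff_not_exists_prime_dvd]
  intro p hp hdvd
  have hfact : Fact p.Prime := ⟨hp⟩
  obtain ⟨c, hc⟩ := exists_prime_orderOf_dvd_card' p (hdvd.trans (Nat.gcd_dvd_right _ _))
  have h1 : c ^ Module.finrank K L = 1 := Subtype.ext (pow_finrank_eq_one c.2)
  have h2 : p ∣ Module.finrank K L := by
    rw [← hc]
    exact orderOf_dvd_of_pow_eq_one h1
  have h3 := Nat.dvd_gcd (hdvd.trans (Nat.gcd_dvd_left _ _)) h2
  rw [hn] at h3
  exact hp.one_lt.ne' (Nat.dvd_one.mp h3)

/-- **`L / K` any extension: `h(K) ∣ h(L)` if `h(K)` is prime to `[L : K]`.** -/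
theorem classNumber_dvd (h : (classNumber K).Coprime (Module.finrank K L)) :
    classNumber K ∣ classNumber L := by
  have h1 := coprime_card_capit (K := K) (L := L) h
  have h2 : Nat.card (capit K L) = 1 :=
    Nat.eq_one_of_dvd_coprimes h1.symm (dvd_refl _) ⟨_, card_eq_mul (L := L)⟩
  have h3 := card_eq_mul (K := K) (L := L)
  rw [h2, one_mul] at h3
  rw [h3]
  exact card_range_dvd

/-- **`L / K` any extension, `p ∤ [L : K]`: the `p`-part of `h(K)` divides `h(L)`.** -/
theorem pow_dvd_classNumber_of_coprime {p : ℕ} (hp : p.Prime) (h : ¬ p ∣ Module.finrank K L) {n : ℕ}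
    (hK : p ^ n ∣ classNumber K) : p ^ n ∣ classNumber L := by
  have h1 := coprime_card_capit (K := K) (L := L) (n := p ^ n)
    (((Nat.Prime.coprime_iff_not_dvd hp).mpr h).pow_left n)
  rw [card_eq_mul (L := L)] at hK
  exact (h1.dvd_of_dvd_mul_left hK).trans card_range_dvd

end Fermat.Agent.Cor.Ambi
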