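import Fermat.Agent.Corollaries.Ambi.Cyclic
import Fermat.Agent.Corollaries.Ambi.Capit
import Fermat.Agent.Corollaries.Ambi.Stop

/-!
# Hilbert's theorem 94 for cyclic extensions of any degree
-/

set_option autoImplicit false
set_option linter.unusedSectionVars false

namespace Fermat.Agent.Cor.Ambi

open IsDedekindDomain NumberField
open Fermat.Agent.CFT.SUnits Fermat.Agent.CFT.ChevMul
open scoped Pointwise nonZeroDivisors

variable {K L : Type*} [Field K] [NumberField K] [Field L] [NumberField L] [Algebra K L]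
  [IsGalois K L]

theorem card_capit_eq_cyclic {n : ℕ} (hn : 0 < n)
    (h1 : (∏ᶠ v : HeightOneSpectrum (𝓞 K), v.asIdeal.ramificationIdxIn (𝓞 L)) = 1)
    {σ : Gal(L/K)} (hσ : ∀ τ, τ ∈ Subgroup.zpowers σ) (hord : orderOf σ = n) :
    Nat.card (capit K L) =
      ((unitsL L).map (del (sgU σ))).relIndex (unitsL L ⊓ (nrm n (sgU σ)).ker) := by
  have h2 : (extM (K := K) L).range = (del (actM σ)).ker := by
    refine le_antisymm (range_extM_le hσ) ?_
    rw [← Subgroup.relIndex_eq_one, relIndex_extM hσ, h1]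
  rw [capit, ← Subgroup.relIndex_ker, ker_classOf,
    ← Subgroup.relIndex_map_map_of_injective _ _ (extM_injective (K := K) (L := L)),
    ← map_ker_eq hσ]
  have h3 : ((classOf (K := L)).comp (extM (K := K) L)).ker.map (extM L) =
      (dvm L).range ⊓ (del (actM σ)).ker := by
    rw [← MonoidHom.comap_ker, Subgroup.map_comap_eq, ker_classOf, h2, inf_comm]
  rw [h3, relIndex_map_ker (dvm_sgU σ), ker_nrm_eq hn hord, ker_dvm]

/-- **Hilbert's theorem 94** for cyclic extensions `L / K` of any degree, unramified at all places: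
the number of ideal classes of `K` which become principal in `L` is `[L : K] · [E_K : N E_L]`. -/
theorem card_capit_cyclic [IsCyclic Gal(L/K)]
    (h : ∀ w : HeightOneSpectrum (𝓞 L), (w.asIdeal.under (𝓞 K)).ramificationIdx' w.asIdeal = 1)
    [IsUnramifiedAtInfinitePlaces K L] :
    Nat.card (capit K L) = Module.finrank K L * (normE K L).index := by
  obtain ⟨σ, hσ⟩ := IsCyclic.exists_generator (α := Gal(L/K))
  have hord : orderOf σ = Module.finrank K L := by
    rw [orderOf_eq_card_of_forall_mem_zpowers hσ, IsGalois.card_aut_eq_finrank]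
  have h1 : (∏ᶠ v : HeightOneSpectrum (𝓞 K), v.asIdeal.ramificationIdxIn (𝓞 L)) = 1 := by
    refine finprod_eq_one_of_forall_eq_one fun v => ?_
    rw [← ramIdx_sec]
    exact h (sec v)
  have h2 : ramInf K L = 0 := by
    rw [ramInf, Nat.card_eq_zero]
    exact Or.inl ⟨fun v => v.2 (InfinitePlace.isUnramifiedIn L v.1)⟩
  have h3 := herbrand_units hσ hord
  rw [h2, pow_zero, one_mul, map_nrm_eq hσ hord, fixedIn_eq hσ, MonoidHom.range_eq_map (upO L),
    Subgroup.relIndex_map_map_of_injective _ _ upO_injective, Subgroup.relIndex_top_right] at h3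
  rw [card_capit_eq_cyclic Module.finrank_pos h1 hσ hord, h3]

/-- **Hilbert's theorem 94**, divisibility: `[L : K]` divides the order of the kernel of
`Cl(K) → Cl(L)`. -/
theorem finrank_dvd_card_ker [IsCyclic Gal(L/K)]
    (h : ∀ w : HeightOneSpectrum (𝓞 L), (w.asIdeal.under (𝓞 K)).ramificationIdx' w.asIdeal = 1)
    [IsUnramifiedAtInfinitePlaces K L] (f : ClassGroup (𝓞 K) →* ClassGroup (𝓞 L))
    (hf : ∀ I : (Ideal (𝓞 K))⁰, f (ClassGroup.mk0 I) = 1 ↔
      ((I : Ideal (𝓞 K)).map (algebraMap (𝓞 K) (𝓞 L))).IsPrincipal) :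
    Module.finrank K L ∣ Nat.card f.ker := by
  have h1 : f.ker = capit K L := by
    ext c
    obtain ⟨I, rfl⟩ := ClassGroup.mk0_surjective c
    rw [MonoidHom.mem_ker, hf, mem_capit]
  rw [h1, card_capit_cyclic h]
  exact dvd_mul_right _ _

end Fermat.Agent.Cor.Ambi
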