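import Fermat.Agent.Corollaries.Ambi.Minus
import Fermat.Agent.CFT.Global.KummerExt
import Fermat.Prelude.Def_ClassGroup_GaloisAction

/-!
# Chevalley's ambiguous class number formula: the class group side
-/

set_option autoImplicit false
set_option linter.unusedSectionVars false

namespace Fermat.Agent.Cor.Ambi

open IsDedekindDomain NumberField
open Fermat.Agent.CFT.SUnits Fermat.Agent.CFT.ChevMul
open scoped Pointwise nonZeroDivisors

/-! ### class groups as cokernels of the divisor map -/

section Cl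

variable {L : Type*} [Field L] [NumberField L]

lemma ker_classOf : (classOf (K := L)).ker = (dvm L).range := by
  ext D
  rw [MonoidHom.mem_ker, classOf_eq_one_iff]
  constructor
  · rintro ⟨x, hx⟩
    exact ⟨x, Multiplicative.toAdd.injective hx⟩
  · rintro ⟨x, hx⟩
    exact ⟨x, congrArg Multiplicative.toAdd hx⟩

lemma index_range_dvm : (dvm L).range.index = classNumber L := by
  rw [← ker_classOf, Subgroup.index_ker, MonoidHom.range_eq_top.mpr classOf_surjective,
    Subgroup.card_top, Nat.card_eq_fintype_card]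
  rfl

lemma classOf_single (w : HeightOneSpectrum (𝓞 L)) :
    classOf (Multiplicative.ofAdd (Finsupp.single w (1 : ℤ))) =
      ClassGroup.mk0 ⟨w.asIdeal, mem_nonZeroDivisors_of_ne_zero w.ne_bot⟩ := by
  change ClassGroup.mk L (idealOf L (Finsupp.single w 1)) = _
  rw [← ClassGroup.mk_mk0 L]
  congr 1
  ext1
  rw [coe_idealOf, Finsupp.prod_single_index (zpow_zero _), zpow_one, FractionalIdeal.coe_mk0]

end Cl

variable {K L : Type*} [Field K] [NumberField K] [Field L] [NumberField L] [Algebra K L]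

/-- the action of the Galois group on ideal classes -/
noncomputable def actC (σ : Gal(L/K)) : ClassGroup (𝓞 L) ≃* ClassGroup (𝓞 L) :=
  ClassGroup.mulEquiv (MulSemiringAction.toRingEquiv Gal(L/K) (𝓞 L) σ)

lemma classOf_actM (σ : Gal(L/K)) (D : Multiplicative (HeightOneSpectrum (𝓞 L) →₀ ℤ)) :
    classOf (actM σ D) = actC σ (classOf D) := by
  have h : (classOf (K := L)).comp (actM σ : _ →* _) =
      (actC σ : ClassGroup (𝓞 L) →* ClassGroup (𝓞 L)).comp classOf := by
    apply MonoidHom.toAdditiveRight.injective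
    refine Finsupp.addHom_ext' fun w => ?_
    refine AddMonoidHom.ext_int ?_
    change Additive.ofMul (classOf (Multiplicative.ofAdd (actD σ (Finsupp.single w 1)))) =
      Additive.ofMul (actC σ (classOf (Multiplicative.ofAdd (Finsupp.single w 1))))
    rw [actD_single, classOf_single, classOf_single, actC, ClassGroup.mulEquiv_mk0]
    rfl
  exact DFunLike.congr_fun h D

/-- **ambiguous classes** -/
noncomputable def ambig (σ : Gal(L/K)) : Subgroup (ClassGroup (𝓞 L)) where
  carrier := {c | actC σ c = c}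
  one_mem' := map_one _
  mul_mem' hx hy := by
    rw [Set.mem_ofPred_eq, map_mul, hx, hy]
  inv_mem' hx := by
    rw [Set.mem_ofPred_eq, map_inv, hx]

lemma mem_ambig {σ : Gal(L/K)} {c : ClassGroup (𝓞 L)} : c ∈ ambig σ ↔ actC σ c = c := Iff.rfl

theorem relIndex_eq_card_ambig (σ : Gal(L/K)) :
    (dvm L).range.relIndex ((dvm L).range.comap (del (actM σ))) = Nat.card (ambig σ) := by
  have h1 : (dvm L).range.comap (del (actM σ)) = (ambig σ).comap classOf := by
    ext D
    rw [← ker_classOf, Subgroup.mem_comap, Subgroup.mem_comap, MonoidHom.mem_ker, del_apply,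
      map_div, div_eq_one, classOf_actM, mem_ambig]
    exact eq_comm
  have h2 : (dvm L).range = (⊥ : Subgroup (ClassGroup (𝓞 L))).comap classOf := by
    rw [← ker_classOf]
    rfl
  rw [h1]
  conv_lhs => rw [h2]
  rw [Subgroup.relIndex_comap, Subgroup.relIndex_bot_left,
    Subgroup.map_comap_eq_self_of_surjective classOf_surjective]

/-! ### the divisors of `K` -/

/-- `extD` multiplicatively -/
noncomputable def extM (L : Type*) [Field L] [NumberField L] [Algebra K L] :
    Multiplicative (HeightOneSpectrum (𝓞 K) →₀ ℤ) →*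
      Multiplicative (HeightOneSpectrum (𝓞 L) →₀ ℤ) :=
  AddMonoidHom.toMultiplicative (extD L)

lemma extM_injective : Function.Injective (extM (K := K) L) := by
  intro D E h
  apply Multiplicative.toAdd.injective
  ext v
  obtain ⟨w, rfl⟩ := under_surjective L v
  have h1 : extD L D.toAdd = extD L E.toAdd := congrArg Multiplicative.toAdd h
  have h2 := DFunLike.congr_fun h1 w
  rw [extD_apply, extD_apply] at h2
  exact mul_left_cancel₀ (by exact_mod_cast ramIdx_ne_zero K w) h2

/-- the inclusion `Kˣ → Lˣ` -/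
noncomputable abbrev up (L : Type*) [Field L] [NumberField L] [Algebra K L] : Kˣ →* Lˣ :=
  Units.map (algebraMap K L : K →* L)

lemma extM_dvm (x : Kˣ) : extM L (dvm K x) = dvm L (up L x) := by
  apply Multiplicative.toAdd.injective
  exact extD_div x

lemma ker_del_sgU [IsGalois K L] {σ : Gal(L/K)} (hσ : ∀ τ, τ ∈ Subgroup.zpowers σ) :
    (del (sgU σ)).ker = (up (K := K) L).range := by
  ext x
  rw [MonoidHom.mem_ker, del_apply, div_eq_one, MonoidHom.mem_range]
  constructor
  · intro h
    have h0 : galU σ x = x := h.symm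
    refine exists_of_fixed fun τ => ?_
    obtain ⟨k, rfl⟩ := mem_powers_iff_mem_zpowers.mpr (hσ τ)
    change galU (σ ^ k) x = x
    induction k with
    | zero => rfl
    | succ k ih =>
      have h1 : galU (σ ^ (k + 1)) x = galU (σ ^ k) (galU σ x) := by
        rw [pow_succ]
        rfl
      rw [h1, h0, ih]
  · rintro ⟨y, rfl⟩
    ext1
    exact (AlgEquiv.commutes σ (y : K)).symm

lemma map_ker_eq [IsGalois K L] {σ : Gal(L/K)} (hσ : ∀ τ, τ ∈ Subgroup.zpowers σ) :
    (del (sgU σ)).ker.map (dvm L) = (dvm K).range.map (extM L) := by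
  rw [ker_del_sgU hσ]
  ext D
  constructor
  · rintro ⟨_, ⟨y, rfl⟩, rfl⟩
    exact ⟨_, ⟨y, rfl⟩, extM_dvm y⟩
  · rintro ⟨_, ⟨y, rfl⟩, rfl⟩
    exact ⟨_, ⟨y, rfl⟩, (extM_dvm y).symm⟩

theorem relIndex_eq_classNumber [IsGalois K L] {σ : Gal(L/K)}
    (hσ : ∀ τ, τ ∈ Subgroup.zpowers σ) :
    ((del (sgU σ)).ker.map (dvm L)).relIndex (extM (K := K) L).range = classNumber K := by
  rw [map_ker_eq hσ, MonoidHom.range_eq_map (extM L),
    Subgroup.relIndex_map_map_of_injective _ _ extM_injective, Subgroup.relIndex_top_right,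
    index_range_dvm]

lemma mem_ker_del_actM [IsGalois K L] {σ : Gal(L/K)} (hσ : ∀ τ, τ ∈ Subgroup.zpowers σ)
    (D : Multiplicative (HeightOneSpectrum (𝓞 L) →₀ ℤ)) :
    D ∈ (del (actM σ)).ker ↔ D.toAdd ∈ fixD K L := by
  rw [MonoidHom.mem_ker, del_apply, div_eq_one]
  constructor
  · intro h
    have h1 : ∀ w : HeightOneSpectrum (𝓞 L), D.toAdd (σ • w) = D.toAdd w := by
      intro w
      have h2 : D.toAdd = actD σ D.toAdd := congrArg Multiplicative.toAdd h
      rw [h2, actD_apply, inv_smul_smul, ← h2]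
    intro τ w
    obtain ⟨k, rfl⟩ := mem_powers_iff_mem_zpowers.mpr (hσ τ)
    change D.toAdd (σ ^ k • w) = D.toAdd w
    induction k with
    | zero => rw [pow_zero, one_smul]
    | succ k ih => rw [pow_succ', mul_smul, h1, ih]
  · intro h
    apply Multiplicative.toAdd.injective
    ext w
    rw [toAdd_actM, actD_apply]
    exact (h σ⁻¹ w).symm

theorem relIndex_eq_pow [IsGalois K L] {σ : Gal(L/K)} (hσ : ∀ τ, τ ∈ Subgroup.zpowers σ)
    {p : ℕ} (h : DivStmt K L p) :
    (extM (K := K) L).range.relIndex (del (actM σ)).ker = p ^ (ram K L).ncard := by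
  rw [← h.2]
  have h1 : (del (actM σ)).ker = AddSubgroup.toSubgroup' (fixD K L) := by
    ext D
    rw [mem_ker_del_actM hσ]
    exact Iff.rfl
  rw [h1]
  rfl

lemma ramIdx_smul (τ : Gal(L/K)) (w : HeightOneSpectrum (𝓞 L)) :
    ramIdx K (τ • w) = ramIdx K w := by
  obtain ⟨x, hx⟩ : ∃ x : Kˣ, ord (under K w) x ≠ 0 := by
    obtain ⟨x, hx⟩ := exists_div_eq_single K (under K w)
    refine ⟨x, ?_⟩
    rw [← div_apply, hx, Finsupp.single_eq_same]
    exact_mod_cast classNumber_ne_zero K
  have h1 := ord_smul τ w (up L x)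
  have h2 : galU τ (up L x) = up L x := by
    ext1
    exact AlgEquiv.commutes τ (x : K)
  rw [h2, ord_algebraMap, ord_algebraMap, under_smul] at h1
  exact_mod_cast mul_right_cancel₀ hx h1

lemma range_extM_le [IsGalois K L] {σ : Gal(L/K)} (hσ : ∀ τ, τ ∈ Subgroup.zpowers σ) :
    (extM (K := K) L).range ≤ (del (actM σ)).ker := by
  rintro _ ⟨D, rfl⟩
  rw [mem_ker_del_actM hσ]
  intro τ w
  change extD L D.toAdd (τ • w) = extD L D.toAdd w
  rw [extD_apply, extD_apply, under_smul, ramIdx_smul]

end Fermat.Agent.Cor.Ambi
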