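import Fermat.Agent.Corollaries.Ambi.NormSurj

/-!
# Fields contained in a field of class number one

`L` totally complex of class number one, `K ⊆ L`: every Galois extension of `K` with solvable group
which is unramified at all finite places embeds in `L`.
-/

set_option autoImplicit false
set_option linter.unusedSectionVars false

namespace Fermat.Agent.Cor.Ambi

open IsDedekindDomain NumberField
open Fermat.Agent.CFT.SUnits Fermat.Agent.CFT.ChevMul
open scoped Pointwise nonZeroDivisors

section Tower

variable {K L M N : Type*} [Field K] [NumberField K] [Field L] [NumberField L] [Algebra K L]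
  [Field M] [NumberField M] [Algebra K M] [IsGalois K M]
  [Field N] [NumberField N] [Algebra K N] [IsGalois K N] [Algebra L N] [IsScalarTower K L N]
  [Algebra M N] [IsScalarTower K M N]

variable (K L M N) in
/-- the restriction `Gal(N/L) → Gal(M/K)` -/
noncomputable def resLM : Gal(N/L) →* Gal(M/K) :=
  (AlgEquiv.restrictNormalHom M).comp
    { toFun := fun h => AlgEquiv.restrictScalars K h
      map_one' := rfl
      map_mul' := fun _ _ => rfl }

lemma resLM_commutes (h : Gal(N/L)) (x : M) :
    algebraMap M N (resLM K L M N h x) = h (algebraMap M N x) :=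
  (AlgEquiv.restrictScalars K h).restrictNormal_commutes M x

lemma mem_ker_resLM {h : Gal(N/L)} :
    h ∈ (resLM K L M N).ker ↔ ∀ x : M, h (algebraMap M N x) = algebraMap M N x := by
  rw [MonoidHom.mem_ker]
  constructor
  · intro h1 x
    rw [← resLM_commutes (K := K), h1]
    rfl
  · intro h1
    ext x
    apply (algebraMap M N).injective
    rw [resLM_commutes, h1]
    rfl

variable (hunr : ∀ w : HeightOneSpectrum (𝓞 M),
  (w.asIdeal.under (𝓞 K)).ramificationIdx' w.asIdeal = 1)

include hunr in
/-- the inertia group of `N / L` fixes `M` -/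
theorem inertia_le_ker (u : HeightOneSpectrum (𝓞 N)) :
    u.asIdeal.inertia Gal(N/L) ≤ (resLM K L M N).ker := by
  intro τ hτ
  rw [MonoidHom.mem_ker]
  refine eq_of_congr (w := u.under (𝓞 M)) (hunr _) fun x => ?_
  have h1 := hτ (algebraMap (𝓞 M) (𝓞 N) x)
  rw [_root_.one_smul]
  change algebraMap (𝓞 M) (𝓞 N) _ ∈ u.asIdeal
  rw [map_sub]
  have h2 : τ • algebraMap (𝓞 M) (𝓞 N) x = algebraMap (𝓞 M) (𝓞 N) (resLM K L M N τ • x) :=
    RingOfIntegers.ext (resLM_commutes (K := K) (L := L) (M := M) (N := N) τ (x : M)).symm
  rw [← h2]
  exact h1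

variable (K L M N) in
/-- the compositum `M L` as an extension of `L` -/
noncomputable def comp : IntermediateField L N := IntermediateField.fixedField (resLM K L M N).ker

include hunr in
/-- `M L / L` is unramified -/
theorem ramIdx_comp (w : HeightOneSpectrum (𝓞 (comp K L M N))) : ramIdx L w = 1 := by
  have hLN : IsGalois L N := IsGalois.tower_top_of_isGalois K L N
  obtain ⟨u, rfl⟩ := under_surjective N w
  have hEN : IsGalois (comp K L M N) N := inferInstance
  have h1 := (ramIdx_tower (K := L) (F := comp K L M N) u).2
  have h2 : ramIdx L u ≤ ramIdx (comp K L M N) u := by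
    rw [ramIdx_eq_card_inertia, ramIdx_eq_card_inertia]
    have h3 : ∀ τ : u.asIdeal.inertia Gal(N/L), τ.1 ∈ (comp K L M N).fixingSubgroup := by
      intro τ
      rw [comp, IntermediateField.fixingSubgroup_fixedField]
      exact inertia_le_ker hunr u τ.2
    refine Nat.card_le_card_of_injective (fun τ : u.asIdeal.inertia Gal(N/L) =>
      (⟨IntermediateField.fixingSubgroupEquiv (comp K L M N) ⟨τ.1, h3 τ⟩, fun x => τ.2 x⟩ :
        u.asIdeal.inertia Gal(N/(comp K L M N)))) ?_
    intro τ τ' h
    have h4 := (IntermediateField.fixingSubgroupEquiv (comp K L M N)).injective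
      (congrArg Subtype.val h)
    exact Subtype.ext (Subtype.mk.inj h4)
  rw [h1] at h2
  have h3 : ramIdx (comp K L M N) u ≠ 0 := ramIdx_ne_zero _ _
  have h4 : 0 < ramIdx (comp K L M N) u := Nat.pos_of_ne_zero h3
  have h5 : ramIdx L (under (comp K L M N) u) ≤ 1 :=
    Nat.le_of_mul_le_mul_right (by rwa [one_mul]) h4
  have h6 : ramIdx L (under (comp K L M N) u) ≠ 0 := ramIdx_ne_zero _ _
  omega

end Tower

/-- **subfields of a field of class number one**: `L ⊇ K` totally complex with `h(L) = 1`: every
Galois extension `M / K` with solvable group, unramified at all finite places, embeds in `L`. -/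
theorem nonempty_algHom_of_classNumber_eq_one {K L M : Type*} [Field K] [NumberField K] [Field L]
    [NumberField L] [Algebra K L] [IsTotallyComplex L] (hL : classNumber L = 1) [Field M]
    [NumberField M] [Algebra K M] [IsGalois K M] (hs : Group.IsSolvable Gal(M/K))
    (hunr : ∀ w : HeightOneSpectrum (𝓞 M),
      (w.asIdeal.under (𝓞 K)).ramificationIdx' w.asIdeal = 1) : Nonempty (M →ₐ[K] L) := by
  obtain ⟨N, hN, hG, ⟨i⟩, ⟨j⟩⟩ := ChebK.exists_galois K L M
  have : NumberField N := NumberField.of_module_finite K N
  let _ : Algebra L N := i.toRingHom.toAlgebra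
  let _ : Algebra M N := j.toRingHom.toAlgebra
  have : IsScalarTower K L N := IsScalarTower.of_algebraMap_eq fun x => (i.commutes x).symm
  have : IsScalarTower K M N := IsScalarTower.of_algebraMap_eq fun x => (j.commutes x).symm
  have hLN : IsGalois L N := IsGalois.tower_top_of_isGalois K L N
  have hE : IsGalois L (comp K L M N) := by
    unfold comp
    infer_instance
  have hsE : Group.IsSolvable Gal((comp K L M N)/L) := by
    have h1 : Group.IsSolvable (Gal(N/L) ⧸ (resLM K L M N).ker) :=
      Group.isSolvable_of_isSolvable_injective (QuotientGroup.kerLift_injective (resLM K L M N))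
    exact Group.isSolvable_of_surjective
      (IsGalois.normalAutEquivQuotient (resLM K L M N).ker).surjective
  have hinf : IsUnramifiedAtInfinitePlaces L (comp K L M N) := unramifiedAtInfinite
  have h1 := finrank_eq_one (K := L) (L := comp K L M N) hsE hL fun w => ramIdx_comp hunr w
  have h2 : comp K L M N = ⊥ := IntermediateField.finrank_eq_one_iff.mp h1
  have h3 : (resLM K L M N).ker = ⊤ := by
    have h4 := congrArg IntermediateField.fixingSubgroup h2
    rw [comp, IntermediateField.fixingSubgroup_fixedField, IntermediateField.fixingSubgroup_bot] at h4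
    exact h4
  refine ChebK.nonempty_algHom_of_fixSet (K := K) (L := M) (M := L) (N := N) fun σ hσ x => ?_
  let h : Gal(N/L) := { σ with commutes' := hσ }
  have h5 : h ∈ (resLM K L M N).ker := by
    rw [h3]
    trivial
  exact mem_ker_resLM.mp h5 x

end Fermat.Agent.Cor.Ambi
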