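import Fermat.Agent.Corollaries.Ambi.ClassOne

/-!
# Fields contained in a field of class number prime to `p`

`L ⊇ K` totally complex, `p ∤ h(L)`: every Galois extension of `K` of degree a power of `p` which is
unramified at all finite places embeds in `L`.
-/

set_option autoImplicit false
set_option linter.unusedSectionVars false

namespace Fermat.Agent.Cor.Ambi

open IsDedekindDomain NumberField
open Fermat.Agent.CFT.SUnits Fermat.Agent.CFT.ChevMul
open scoped Pointwise nonZeroDivisors

/-- **solvable unramified extensions and class numbers**: `L ⊇ K` totally complex, `h(L)` prime to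
`[M : K]`: every Galois extension `M / K` with solvable group, unramified at all finite places, embeds
in `L`. -/
theorem nonempty_algHom_of_coprime {K L M : Type*} [Field K] [NumberField K] [Field L]
    [NumberField L] [Algebra K L] [IsTotallyComplex L] [Field M] [NumberField M] [Algebra K M]
    [IsGalois K M] (hL : (classNumber L).Coprime (Module.finrank K M))
    (hs : Group.IsSolvable Gal(M/K))
    (hunr : ∀ w : HeightOneSpectrum (𝓞 M),
      (w.asIdeal.under (𝓞 K)).ramificationIdx' w.asIdeal = 1) : Nonempty (M →ₐ[K] L) := by
  obtain ⟨N, hN, hG, ⟨i⟩, ⟨j⟩⟩ := ChebK.exists_galois K L M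
  have : NumberField N := NumberField.of_module_finite K N
  let _ : Algebra L N := i.toRingHom.toAlgebra
  let _ : Algebra M N := j.toRingHom.toAlgebra
  have : IsScalarTower K L N := IsScalarTower.of_algebraMap_eq fun x => (i.commutes x).symm
  have : IsScalarTower K M N := IsScalarTower.of_algebraMap_eq fun x => (j.commutes x).symm
  have hLN : IsGalois L N := IsGalois.tower_top_of_isGalois K L N
  have hE : IsGalois L (comp K L M N) := by
    unfold comp
    infer_instance
  have hsE : Group.IsSolvable Gal((comp K L M N)/L) := by
    have h1 : Group.IsSolvable (Gal(N/L) ⧸ (resLM K L M N).ker) :=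
      Group.isSolvable_of_isSolvable_injective (QuotientGroup.kerLift_injective (resLM K L M N))
    exact Group.isSolvable_of_surjective
      (IsGalois.normalAutEquivQuotient (resLM K L M N).ker).surjective
  have hinf : IsUnramifiedAtInfinitePlaces L (comp K L M N) := unramifiedAtInfinite
  have hdvd : Module.finrank L (comp K L M N) ∣ Module.finrank K M := by
    have h1 : Nat.card Gal((comp K L M N)/L) = Nat.card (Gal(N/L) ⧸ (resLM K L M N).ker) :=
      (Nat.card_congr (IsGalois.normalAutEquivQuotient (resLM K L M N).ker).toEquiv).symm
    rw [← IsGalois.card_aut_eq_finrank, ← IsGalois.card_aut_eq_finrank, h1]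
    exact Subgroup.card_dvd_of_injective _ (QuotientGroup.kerLift_injective (resLM K L M N))
  have h1 : Module.finrank L (comp K L M N) = 1 := by
    by_contra h1
    obtain ⟨p, hp, h2, h3⟩ := exists_prime_dvd_classNumber (K := L) (L := comp K L M N) hsE h1
      fun w => ramIdx_comp hunr w
    have h4 := Nat.dvd_gcd h3 (h2.trans hdvd)
    rw [hL] at h4
    exact hp.one_lt.ne' (Nat.dvd_one.mp h4)
  have h2 : comp K L M N = ⊥ := IntermediateField.finrank_eq_one_iff.mp h1
  have h3 : (resLM K L M N).ker = ⊤ := by
    have h4 := congrArg IntermediateField.fixingSubgroup h2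
    rw [comp, IntermediateField.fixingSubgroup_fixedField, IntermediateField.fixingSubgroup_bot] at h4
    exact h4
  refine ChebK.nonempty_algHom_of_fixSet (K := K) (L := M) (M := L) (N := N) fun σ hσ x => ?_
  let h : Gal(N/L) := { σ with commutes' := hσ }
  have h5 : h ∈ (resLM K L M N).ker := by
    rw [h3]
    trivial
  exact mem_ker_resLM.mp h5 x

/-- `L ⊇ K` totally complex, `p ∤ h(L)`: every Galois extension of `K` of degree a power of `p`,
unramified at all finite places, embeds in `L` (the `p`-class field tower of `K` is finite). -/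
theorem nonempty_algHom_of_not_dvd {K L M : Type*} [Field K] [NumberField K] [Field L]
    [NumberField L] [Algebra K L] [IsTotallyComplex L] [Field M] [NumberField M] [Algebra K M]
    [IsGalois K M] {p n : ℕ} (hp : p.Prime) (hL : ¬ p ∣ classNumber L)
    (hn : Module.finrank K M = p ^ n)
    (hunr : ∀ w : HeightOneSpectrum (𝓞 M),
      (w.asIdeal.under (𝓞 K)).ramificationIdx' w.asIdeal = 1) : Nonempty (M →ₐ[K] L) := by
  have hfact : Fact p.Prime := ⟨hp⟩
  have hG : IsPGroup p Gal(M/K) := IsPGroup.of_card (n := n) (by
    rw [IsGalois.card_aut_eq_finrank, hn])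
  have hnil : Group.IsNilpotent Gal(M/K) := hG.isNilpotent
  refine nonempty_algHom_of_coprime ?_ inferInstance hunr
  rw [hn]
  exact ((Nat.Prime.coprime_iff_not_dvd hp).mpr hL).symm.pow_right n

end Fermat.Agent.Cor.Ambi
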