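import Fermat.Agent.Corollaries.Ambi.Div

/-!
# The index of the divisors of `K` in the fixed divisors of `L`, any Galois extension

`[Div(L)^G : Div(K)] = ∏ e_v`, the product of the ramification indices of the finite places of `K`.
-/

set_option autoImplicit false

noncomputable section

namespace Fermat.Agent.Cor.Ambi

open IsDedekindDomain NumberField
open Fermat.Agent.CFT.SUnits
open scoped Pointwise

variable {K L : Type*} [Field K] [NumberField K] [Field L] [NumberField L] [Algebra K L]
  [IsGalois K L]

variable (K L) in
/-- the residues of the coefficients of a fixed divisor at the ramified places modulo the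
ramification indices -/
def resE : fixD K L →+ ((v : ram K L) → ZMod (ramIdx K (sec (L := L) v.1))) where
  toFun D v := ((D.1 (sec (L := L) v.1) : ℤ) : ZMod (ramIdx K (sec (L := L) v.1)))
  map_zero' := by
    ext v
    exact (Int.cast_zero : ((0 : ℤ) : ZMod (ramIdx K (sec (L := L) v.1))) = 0)
  map_add' D E := by
    ext v
    exact (Int.cast_add (D.1 (sec (L := L) v.1)) (E.1 (sec (L := L) v.1)) :
      ((D.1 (sec (L := L) v.1) + E.1 (sec (L := L) v.1) : ℤ) :
        ZMod (ramIdx K (sec (L := L) v.1))) = _)

theorem resE_surjective : Function.Surjective (resE K L) := by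
  classical
  intro f
  have hfin := finite_ram K L
  let F : HeightOneSpectrum (𝓞 K) → ℤ := fun v => if h : v ∈ ram K L then ((f ⟨v, h⟩).val : ℤ) else 0
  have hs : (Function.support fun w : HeightOneSpectrum (𝓞 L) => F (under K w)).Finite := by
    refine Set.Finite.subset (aboveS L hfin.toFinset).finite_toSet fun w hw => ?_
    rw [Finset.mem_coe, mem_aboveS, Set.Finite.mem_toFinset]
    by_contra h
    exact hw (dif_neg h)
  refine ⟨⟨Finsupp.ofSupportFinite _ hs, fun τ w => ?_⟩, ?_⟩
  · change F (under K (τ • w)) = F (under K w)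
    rw [under_smul]
  · ext v
    have : NeZero (ramIdx K (sec (L := L) v.1)) := ⟨ramIdx_ne_zero _ _⟩
    change ((F (under K (sec (L := L) v.1)) : ℤ) : ZMod (ramIdx K (sec (L := L) v.1))) = f v
    rw [under_sec]
    have h1 : F v.1 = ((f v).val : ℤ) := dif_pos v.2
    rw [h1]
    simp

theorem ker_resE :
    (resE K L).ker = (extD (K := K) L).range.addSubgroupOf (fixD K L) := by
  classical
  ext D
  rw [AddMonoidHom.mem_ker, AddSubgroup.mem_addSubgroupOf]
  constructor
  · intro h
    have hdvd : ∀ v : HeightOneSpectrum (𝓞 K),
        (ramIdx K (sec (L := L) v) : ℤ) ∣ D.1 (sec (L := L) v) := by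
      intro v
      by_cases hv : v ∈ ram K L
      · have h2 : ((D.1 (sec (L := L) v) : ℤ) : ZMod (ramIdx K (sec (L := L) v))) = 0 :=
          congrFun h ⟨v, hv⟩
        rwa [ZMod.intCast_zmod_eq_zero_iff_dvd] at h2
      · have h1 : ramIdx K (sec (L := L) v) = 1 := by
          by_contra h2
          exact hv ⟨sec (L := L) v, under_sec v, h2⟩
        rw [h1, Nat.cast_one]
        exact one_dvd _
    let F : HeightOneSpectrum (𝓞 K) → ℤ := fun v =>
      D.1 (sec (L := L) v) / ramIdx K (sec (L := L) v)
    have hs : (Function.support F).Finite := by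
      refine (D.1.support.finite_toSet.image (under K)).subset fun v hv => ?_
      refine ⟨sec (L := L) v, ?_, under_sec v⟩
      rw [Finset.mem_coe, Finsupp.mem_support_iff]
      intro h1
      apply hv
      change D.1 (sec (L := L) v) / _ = 0
      rw [h1, Int.zero_ediv]
    refine ⟨Finsupp.ofSupportFinite F hs, ?_⟩
    ext w
    rw [extD_apply]
    change (ramIdx K w : ℤ) * (D.1 (sec (L := L) (under K w)) /
      ramIdx K (sec (L := L) (under K w))) = D.1 w
    have h1 := ramIdx_eq_of_under (under_sec (L := L) (under K w))
    have h2 := hdvd (under K w)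
    rw [apply_eq_of_under D.2 (under_sec (L := L) (under K w)), h1] at h2
    rw [apply_eq_of_under D.2 (under_sec (L := L) (under K w)), h1]
    exact Int.mul_ediv_cancel' h2
  · rintro ⟨E, hE⟩
    ext v
    change ((D.1 (sec (L := L) v.1) : ℤ) : ZMod (ramIdx K (sec (L := L) v.1))) = 0
    have h1 : D.1 (sec (L := L) v.1) =
        ramIdx K (sec (L := L) v.1) * E (under K (sec (L := L) v.1)) := by
      rw [← extD_apply]
      exact (DFunLike.congr_fun hE _).symm
    rw [h1, ZMod.intCast_zmod_eq_zero_iff_dvd]
    exact dvd_mul_right _ _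

/-- **The index of the divisors of `K` in the Galois invariant divisors of `L`** is the product of
the ramification indices. -/
theorem relIndex_extD :
    (extD (K := K) L).range.relIndex (fixD K L) =
      ∏ v ∈ (finite_ram K L).toFinset, ramIdx K (sec (L := L) v) := by
  classical
  have hfin : Finite (ram K L) := finite_ram K L
  let _ : Fintype (ram K L) := Fintype.ofFinite _
  rw [AddSubgroup.relIndex, ← ker_resE, AddSubgroup.index_ker,
    AddMonoidHom.range_eq_top.mpr resE_surjective, AddSubgroup.card_top, Nat.card_pi]
  simp_rw [Nat.card_zmod]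
  refine (Finset.prod_subtype (F := inferInstance) _ (fun v => ?_)
    (fun v : HeightOneSpectrum (𝓞 K) => ramIdx K (sec (L := L) v))).symm
  rw [Set.Finite.mem_toFinset]

end Fermat.Agent.Cor.Ambi
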