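import Fermat.Agent.Corollaries.Ambi.Class

/-!
# Chevalley's ambiguous class number formula: assembly
-/

set_option autoImplicit false
set_option linter.unusedSectionVars false

namespace Fermat.Agent.Cor.Ambi

open IsDedekindDomain NumberField
open Fermat.Agent.CFT.SUnits Fermat.Agent.CFT.ChevMul
open scoped Pointwise nonZeroDivisors

variable (K L : Type*) [Field K] [NumberField K] [Field L] [NumberField L] [Algebra K L]

/-- the units of `K` which are norms of elements of `L` -/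
noncomputable def normUnits : Subgroup (𝓞 K)ˣ :=
  (Units.map (Algebra.norm K : L →* K)).range.comap (Units.map (algebraMap (𝓞 K) K : 𝓞 K →* K))

variable {K L}

lemma mem_normUnits {u : (𝓞 K)ˣ} :
    u ∈ normUnits K L ↔ ∃ x : L, Algebra.norm K x = ((u : 𝓞 K) : K) := by
  rw [normUnits, Subgroup.mem_comap]
  constructor
  · rintro ⟨x, hx⟩
    exact ⟨x, congrArg Units.val hx⟩
  · rintro ⟨x, hx⟩
    have hx0 : x ≠ 0 := by
      rintro rfl
      rw [Algebra.norm_zero] at hx
      have h1 : ((u : 𝓞 K) : K) ≠ 0 :=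
        (map_ne_zero_iff _ (RingOfIntegers.coe_injective (K := K))).mpr u.ne_zero
      exact h1 hx.symm
    exact ⟨Units.mk0 x hx0, Units.ext hx⟩

variable [IsGalois K L] {p : ℕ} {σ : Gal(L/K)}

lemma sgU_pow_apply (σ : Gal(L/K)) (i : ℕ) (x : Lˣ) :
    (((sgU σ ^ i) x : Lˣ) : L) = (σ ^ i) (x : L) := by
  induction i generalizing x with
  | zero => rfl
  | succ i ih =>
    rw [pow_succ, pow_succ]
    exact ih (sgU σ x)

lemma coe_nrm (x : Lˣ) :
    ((nrm p (sgU σ) x : Lˣ) : L) = ∏ i ∈ Finset.range p, (σ ^ i) (x : L) := by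
  rw [nrm_apply, Units.coe_prod]
  exact Finset.prod_congr rfl fun i _ => sgU_pow_apply σ i x

lemma nrm_eq_up (hσ : ∀ τ, τ ∈ Subgroup.zpowers σ) (hord : orderOf σ = p) (x : Lˣ) :
    nrm p (sgU σ) x = up L (Units.map (Algebra.norm K : L →* K) x) := by
  ext1
  rw [coe_nrm, ← CFT.KummerExt.norm_eq_prod_pow hσ hord]
  rfl

/-- Hilbert 90 -/
theorem ker_nrm_eq (hp : 0 < p) (hord : orderOf σ = p) :
    (nrm p (sgU σ)).ker = (del (sgU σ)).range := by
  ext x
  rw [MonoidHom.mem_ker]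
  constructor
  · intro h
    have h1 : ∏ i ∈ Finset.range p, (σ ^ i) (x : L) = 1 := by
      rw [← coe_nrm, h]
      rfl
    obtain ⟨y, hy⟩ := CFT.KummerExt.hilbert90 hord hp h1
    refine ⟨y, ?_⟩
    ext1
    rw [← hy, del_apply, Units.val_div_eq_div_val]
    rfl
  · rintro ⟨y, rfl⟩
    have h2 : (sgU σ ^ p) y = y := by
      ext1
      rw [sgU_pow_apply, ← hord, pow_orderOf_eq_one]
      rfl
    rw [del_apply, map_div, div_eq_one, nrm_apply, nrm_apply]
    have h3 : ∀ i, (sgU σ ^ i) (sgU σ y) = (sgU σ ^ (i + 1)) y := fun i => by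
      rw [pow_succ]
      rfl
    simp_rw [h3]
    obtain ⟨q, rfl⟩ : ∃ q, p = q + 1 := ⟨p - 1, by omega⟩
    rw [Finset.prod_range_succ (fun i => (sgU σ ^ (i + 1)) y), h2, Finset.prod_range_succ']
    rfl

/-- the inclusion of the units -/
noncomputable def upO (L : Type*) [Field L] [NumberField L] [Algebra K L] : (𝓞 K)ˣ →* Lˣ :=
  (up L).comp (Units.map (algebraMap (𝓞 K) K : 𝓞 K →* K))

lemma upO_injective : Function.Injective (upO (K := K) L) := by
  intro u v h
  have h1 : algebraMap K L ((u : 𝓞 K) : K) = algebraMap K L ((v : 𝓞 K) : K) :=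
    congrArg Units.val h
  exact Units.ext (RingOfIntegers.coe_injective ((algebraMap K L).injective h1))

lemma up_mem_unitsL (y : Kˣ) : up L y ∈ unitsL L ↔
    ∃ u : (𝓞 K)ˣ, Units.map (algebraMap (𝓞 K) K : 𝓞 K →* K) u = y := by
  rw [mem_unitsL, ← extD_div]
  have h1 : extD L (div y : HeightOneSpectrum (𝓞 K) →₀ ℤ) = 0 ↔
      (div y : HeightOneSpectrum (𝓞 K) →₀ ℤ) = 0 := by
    constructor
    · intro h
      have h2 : extM L (Multiplicative.ofAdd (div y : HeightOneSpectrum (𝓞 K) →₀ ℤ)) =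
        extM (K := K) L 1 := by
        rw [map_one]
        exact h
      exact extM_injective h2
    · intro h
      rw [h, map_zero]
  rw [h1, CFT.SUnits.div_eq_zero_iff]

lemma fixedIn_eq (hσ : ∀ τ, τ ∈ Subgroup.zpowers σ) :
    fixedIn (unitsL L) (sgU σ) = (upO (K := K) L).range := by
  ext x
  rw [mem_fixedIn]
  constructor
  · rintro ⟨hx, hx'⟩
    have h1 : x ∈ (del (sgU σ)).ker := by
      rw [MonoidHom.mem_ker, del_apply, hx', div_self']
    rw [ker_del_sgU hσ] at h1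
    obtain ⟨y, rfl⟩ := h1
    obtain ⟨u, rfl⟩ := (up_mem_unitsL y).mp hx
    exact ⟨u, rfl⟩
  · rintro ⟨u, rfl⟩
    refine ⟨(up_mem_unitsL _).mpr ⟨u, rfl⟩, ?_⟩
    ext1
    exact AlgEquiv.commutes σ _

lemma inf_range_eq (hσ : ∀ τ, τ ∈ Subgroup.zpowers σ) (hord : orderOf σ = p) :
    unitsL L ⊓ (nrm p (sgU σ)).range = (normUnits K L).map (upO L) := by
  ext x
  rw [Subgroup.mem_inf]
  constructor
  · rintro ⟨hx, z, rfl⟩
    rw [nrm_eq_up hσ hord, up_mem_unitsL] at hx
    obtain ⟨u, hu⟩ := hx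
    refine ⟨u, ?_, ?_⟩
    · rw [SetLike.mem_coe, normUnits, Subgroup.mem_comap, hu]
      exact ⟨z, rfl⟩
    · change up L _ = _
      rw [hu, nrm_eq_up hσ hord]
  · rintro ⟨u, ⟨z, hz⟩, rfl⟩
    refine ⟨(up_mem_unitsL _).mpr ⟨u, rfl⟩, z, ?_⟩
    rw [nrm_eq_up hσ hord, hz]
    rfl

theorem relIndex_eq_index (hσ : ∀ τ, τ ∈ Subgroup.zpowers σ) (hord : orderOf σ = p) :
    (unitsL L ⊓ (nrm p (sgU σ)).range).relIndex (fixedIn (unitsL L) (sgU σ)) =
      (normUnits K L).index := by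
  rw [inf_range_eq hσ hord, fixedIn_eq hσ, MonoidHom.range_eq_map (upO L),
    Subgroup.relIndex_map_map_of_injective _ _ upO_injective, Subgroup.relIndex_top_right]

/-- **Chevalley's ambiguous class number formula**, from the pieces (U) and (D) -/
theorem formula_of (hp : p.Prime) (hU : UnitsStmt K L p) (hD : DivStmt K L p)
    (hσ : ∀ τ, τ ∈ Subgroup.zpowers σ) (hord : orderOf σ = p) :
    Nat.card (ambig σ) * p * (normUnits K L).index =
      classNumber K * p ^ (ram K L).ncard * 2 ^ ramInf K L := by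
  obtain ⟨h0, -, h01⟩ := hU σ hσ
  have h90 := ker_nrm_eq (L := L) hp.pos hord
  have hI := comap_range_eq (L := L) hp.ne_zero (by rw [← hord, pow_orderOf_eq_one]) hσ
  have hP : (del (sgU σ)).ker.map (dvm L) ≤ (extM (K := K) L).range := by
    rw [map_ker_eq hσ]
    rintro _ ⟨x, -, rfl⟩
    exact ⟨x, rfl⟩
  have h1 := index_formula (f := dvm L) (N := nrm p (sgU σ)) (dvm_sgU σ) h90 hI
    (range_extM_le hσ) hP
  rw [relIndex_eq_card_ambig, relIndex_eq_classNumber hσ, relIndex_eq_pow hσ hD, ker_dvm] at h1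
  have h2 : (unitsL L).map (nrm p (sgU σ)) ≤ unitsL L ⊓ (nrm p (sgU σ)).range := by
    rintro _ ⟨x, hx, rfl⟩
    refine Subgroup.mem_inf.mpr ⟨?_, x, rfl⟩
    rw [SetLike.mem_coe] at hx
    rw [mem_unitsL] at hx ⊢
    have h3 := toAdd_dvm_nrm σ p x
    rw [hx] at h3
    exact h3.trans (Finset.sum_eq_zero fun i _ => Function.iterate_fixed (map_zero (actD σ)) i)
  have h3 : unitsL L ⊓ (nrm p (sgU σ)).range ≤ fixedIn (unitsL L) (sgU σ) := by
    rw [inf_range_eq hσ hord, fixedIn_eq hσ]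
    rintro _ ⟨x, -, rfl⟩
    exact ⟨x, rfl⟩
  have h4 := Subgroup.relIndex_mul_relIndex _ _ _ h2 h3
  rw [relIndex_eq_index hσ hord] at h4
  refine Nat.eq_of_mul_eq_mul_right (Nat.pos_of_ne_zero h0) ?_
  calc Nat.card (ambig σ) * p * (normUnits K L).index *
        ((unitsL L).map (nrm p (sgU σ))).relIndex (fixedIn (unitsL L) (sgU σ))
      = Nat.card (ambig σ) * (normUnits K L).index *
        (p * ((unitsL L).map (nrm p (sgU σ))).relIndex (fixedIn (unitsL L) (sgU σ))) := by ring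
    _ = 2 ^ ramInf K L * (normUnits K L).index * (Nat.card (ambig σ) *
        ((unitsL L).map (del (sgU σ))).relIndex (unitsL L ⊓ (nrm p (sgU σ)).ker)) := by
      rw [h01]
      ring
    _ = classNumber K * p ^ (ram K L).ncard * 2 ^ ramInf K L *
        (((unitsL L).map (nrm p (sgU σ))).relIndex (unitsL L ⊓ (nrm p (sgU σ)).range) *
          (normUnits K L).index) := by
      rw [h1]
      ring
    _ = _ := by rw [h4]

end Fermat.Agent.Cor.Ambi
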