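import Mathlib

/-!
# The cohomology of a permutation module of a cyclic group

For a permutation `σ` with `σ ^ n = 1` of a finite set `X` with set of orbits `Y`, the orbit of
`y` having `n / m y` elements, the index of the norms in the invariants of `ℤ[X]` is
`∏ y, m y`, and the elements of norm zero are of the form `f - σ f`.
-/

set_option autoImplicit false

open Finset

namespace Fermat.Agent.Cor.Ambi

namespace Perm

variable {X Y : Type*}

/-- the action of `σ` on `ℤ[X]` -/
noncomputable abbrev act (σ : Equiv.Perm X) : AddMonoid.End (X →₀ ℤ) :=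
  Finsupp.mapDomain.addMonoidHom σ

theorem act_apply (σ : Equiv.Perm X) (f : X →₀ ℤ) (x : X) : act σ f x = f (σ.symm x) :=
  Finsupp.mapDomain_equiv_apply ..

theorem act_pow_apply (σ : Equiv.Perm X) (i : ℕ) (f : X →₀ ℤ) (x : X) :
    (act σ ^ i) f x = f ((σ ^ i).symm x) := by
  induction i generalizing f x with
  | zero => rfl
  | succ i ih =>
    rw [pow_succ]
    change (act σ ^ i) (act σ f) x = _
    rw [ih, act_apply, pow_succ]
    rfl

theorem act_pow_single (σ : Equiv.Perm X) (i : ℕ) (x : X) (c : ℤ) :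
    (act σ ^ i) (Finsupp.single x c) = Finsupp.single ((σ ^ i) x) c := by
  classical
  ext y
  rw [act_pow_apply, Finsupp.single_apply, Finsupp.single_apply]
  simp only [Equiv.eq_symm_apply]

theorem act_pow_eq_one {σ : Equiv.Perm X} {n : ℕ} (hσ : σ ^ n = 1) : act σ ^ n = 1 := by
  ext x y
  rw [act_pow_apply, hσ]
  rfl

/-- the norm -/
noncomputable abbrev nrm (σ : Equiv.Perm X) (n : ℕ) : AddMonoid.End (X →₀ ℤ) :=
  ∑ i ∈ range n, act σ ^ i

theorem nrm_eq_sum (σ : Equiv.Perm X) (n : ℕ) (f : X →₀ ℤ) :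
    nrm σ n f = ∑ i ∈ range n, (act σ ^ i) f := by
  induction n with
  | zero => rfl
  | succ n ih =>
    rw [sum_range_succ (fun i => (act σ ^ i) f), ← ih]
    have h : nrm σ (n + 1) = nrm σ n + act σ ^ n := sum_range_succ _ _
    rw [h]
    rfl

theorem one_sub_mul_nrm {σ : Equiv.Perm X} {n : ℕ} (hσ : σ ^ n = 1) :
    (1 - act σ) * nrm σ n = 0 := by
  rw [mul_neg_geom_sum, act_pow_eq_one hσ, sub_self]

theorem nrm_mul_one_sub {σ : Equiv.Perm X} {n : ℕ} (hσ : σ ^ n = 1) :
    nrm σ n * (1 - act σ) = 0 := by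
  rw [geom_sum_mul_neg, act_pow_eq_one hσ, sub_self]

theorem mem_ker_iff (σ : Equiv.Perm X) (f : X →₀ ℤ) :
    (1 - act σ) f = 0 ↔ ∀ x, f (σ x) = f x := by
  have h : (1 - act σ) f = f - act σ f := rfl
  rw [h, sub_eq_zero]
  constructor
  · intro h x
    have h1 := DFunLike.congr_fun h (σ x)
    rw [act_apply, Equiv.symm_apply_apply] at h1
    exact h1
  · intro h
    ext x
    rw [act_apply, ← h (σ.symm x), Equiv.apply_symm_apply]

theorem apply_pow {σ : Equiv.Perm X} {f : X →₀ ℤ} (h : ∀ x, f (σ x) = f x) (k : ℕ) (x : X) :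
    f ((σ ^ k) x) = f x := by
  induction k with
  | zero => rfl
  | succ k ih => rw [pow_succ', Equiv.Perm.mul_apply, h, ih]

/-- the sums over the orbits -/
noncomputable abbrev tot (π : X → Y) : (X →₀ ℤ) →+ (Y →₀ ℤ) := Finsupp.mapDomain.addMonoidHom π

theorem tot_act {σ : Equiv.Perm X} {π : X → Y} (h : ∀ x, π (σ x) = π x) (f : X →₀ ℤ) :
    tot π (act σ f) = tot π f := by
  change Finsupp.mapDomain π (Finsupp.mapDomain σ f) = Finsupp.mapDomain π f
  rw [← Finsupp.mapDomain_comp]
  congr 1
  exact funext h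

theorem tot_act_pow {σ : Equiv.Perm X} {π : X → Y} (h : ∀ x, π (σ x) = π x) (i : ℕ)
    (f : X →₀ ℤ) : tot π ((act σ ^ i) f) = tot π f := by
  induction i with
  | zero => rfl
  | succ i ih =>
    rw [pow_succ']
    change tot π (act σ ((act σ ^ i) f)) = _
    rw [tot_act h, ih]

theorem tot_nrm {σ : Equiv.Perm X} {π : X → Y} (h : ∀ x, π (σ x) = π x) (n : ℕ) (f : X →₀ ℤ) :
    tot π (nrm σ n f) = n • tot π f := by
  rw [nrm_eq_sum, map_sum, sum_congr rfl fun i _ => tot_act_pow h i f, sum_const, card_range]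

theorem tot_apply [Fintype X] [DecidableEq Y] (π : X → Y) (f : X →₀ ℤ) (y : Y) :
    tot π f y = ∑ x with π x = y, f x := by
  change Finsupp.mapDomain π f y = _
  rw [Finsupp.mapDomain, Finsupp.sum_fintype _ _ (fun _ => Finsupp.single_zero _),
    Finsupp.finsetSum_apply, sum_filter]
  exact sum_congr rfl fun x _ => Finsupp.single_apply

theorem nrm_apply [Fintype X] {σ : Equiv.Perm X} {n : ℕ} (hσ : σ ^ n = 1) {π : X → Y}
    (horb : ∀ x y, π x = π y ↔ ∃ k : ℕ, (σ ^ k) x = y) {m : Y → ℕ}
    (hm : ∀ y, m y * Nat.card {x // π x = y} = n) (f : X →₀ ℤ) (x : X) :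
    nrm σ n f x = m (π x) * tot π f (π x) := by
  classical
  have hπσ : ∀ x, π (σ x) = π x := fun x => ((horb x (σ x)).2 ⟨1, by simp⟩).symm
  have hinv : ∀ x, nrm σ n f (σ x) = nrm σ n f x :=
    (mem_ker_iff σ _).1 (DFunLike.congr_fun (one_sub_mul_nrm hσ) f)
  have h1 := DFunLike.congr_fun (tot_nrm hπσ n f) (π x)
  rw [tot_apply, sum_congr rfl (g := fun _ => nrm σ n f x) (by
    intro z hz
    obtain ⟨k, hk⟩ := (horb x z).1 (mem_filter.1 hz).2.symm
    rw [← hk]
    exact apply_pow hinv k x), sum_const, Finsupp.smul_apply, nsmul_eq_mul, nsmul_eq_mul] at h1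
  have h2 : #{z | π z = π x} = Nat.card {z // π z = π x} := by
    rw [Nat.card_eq_fintype_card, Fintype.card_subtype]
  rw [h2] at h1
  have h3 : (Nat.card {z // π z = π x} : ℤ) ≠ 0 := by
    have : Nonempty {z // π z = π x} := ⟨⟨x, rfl⟩⟩
    exact_mod_cast Nat.card_pos.ne'
  refine mul_left_cancel₀ h3 ?_
  rw [h1, show (n : ℤ) = m (π x) * (Nat.card {z // π z = π x} : ℤ) by exact_mod_cast (hm (π x)).symm]
  ring

theorem single_sub_mem (σ : Equiv.Perm X) (k : ℕ) (x : X) (c : ℤ) :
    Finsupp.single x c - Finsupp.single ((σ ^ k) x) c ∈ (1 - act σ).range := by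
  refine ⟨(∑ i ∈ range k, act σ ^ i) (Finsupp.single x c), ?_⟩
  change ((1 - act σ) * ∑ i ∈ range k, act σ ^ i) (Finsupp.single x c) = _
  rw [mul_neg_geom_sum]
  change Finsupp.single x c - (act σ ^ k) (Finsupp.single x c) = _
  rw [act_pow_single]

theorem mem_range_of_tot_eq_zero [Fintype X] {σ : Equiv.Perm X} {π : X → Y}
    (hπ : Function.Surjective π) (horb : ∀ x y, π x = π y ↔ ∃ k : ℕ, (σ ^ k) x = y) {f : X →₀ ℤ}
    (hf : tot π f = 0) : f ∈ (1 - act σ).range := by
  classical
  have h0 : Finsupp.mapDomain (Function.surjInv hπ) (tot π f) = 0 := by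
    rw [hf, Finsupp.mapDomain_zero]
  have h1 : f = ∑ x, (Finsupp.single x (f x) - Finsupp.single (Function.surjInv hπ (π x)) (f x)) := by
    rw [sum_sub_distrib]
    have h2 : ∑ x, Finsupp.single x (f x) = f := Finsupp.univ_sum_single f
    have h3 : ∑ x, Finsupp.single (Function.surjInv hπ (π x)) (f x) =
        Finsupp.mapDomain (Function.surjInv hπ) (tot π f) := by
      change _ = Finsupp.mapDomain _ (Finsupp.mapDomain π f)
      rw [← Finsupp.mapDomain_comp, Finsupp.mapDomain,
        Finsupp.sum_fintype _ _ (fun _ => Finsupp.single_zero _)]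
      rfl
    rw [h2, h3, h0, sub_zero]
  rw [h1]
  refine AddSubgroup.sum_mem _ fun x _ => ?_
  obtain ⟨k, hk⟩ := (horb x (Function.surjInv hπ (π x))).1 (Function.surjInv_eq hπ (π x)).symm
  rw [← hk]
  exact single_sub_mem σ k x (f x)

end Perm

open Perm in
/-- The index of the norms in the invariants of a permutation module of a cyclic group, and the
vanishing of `H⁻¹`. -/
theorem relIndex_norm {X Y : Type*} [Finite X] [Fintype Y] (σ : Equiv.Perm X) {n : ℕ} (hn : 0 < n)
    (hσ : σ ^ n = 1) (π : X → Y) (hπ : Function.Surjective π)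
    (horb : ∀ x y, π x = π y ↔ ∃ k : ℕ, (σ ^ k) x = y) (m : Y → ℕ)
    (hm : ∀ y, m y * Nat.card {x // π x = y} = n) :
    let s : AddMonoid.End (X →₀ ℤ) := Finsupp.mapDomain.addMonoidHom σ
    (∑ i ∈ Finset.range n, s ^ i).range.relIndex (1 - s).ker = ∏ y, m y ∧
      (1 - s).range = (∑ i ∈ Finset.range n, s ^ i).ker := by
  classical
  intro s
  have := Fintype.ofFinite X
  have hπσ : ∀ x, π (σ x) = π x := fun x => ((horb x (σ x)).2 ⟨1, by simp⟩).symm
  have hm0 : ∀ y, m y ≠ 0 := fun y h => by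
    have := hm y
    rw [h, zero_mul] at this
    omega
  have hN : ∀ f x, nrm σ n f x = m (π x) * tot π f (π x) := nrm_apply hσ horb hm
  constructor
  · set r : Y → X := Function.surjInv hπ with hr
    have hπr : ∀ y, π (r y) = y := Function.surjInv_eq hπ
    let φ : (1 - s).ker →+ ((y : Y) → ZMod (m y)) :=
      { toFun f y := ((f.1 (r y) : ℤ) : ZMod (m y))
        map_zero' := by ext y; simp
        map_add' f g := by ext y; simp }
    have hsurj : Function.Surjective φ := by
      intro c
      choose l hl using fun y => ZMod.intCast_surjective (c y)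
      refine ⟨⟨Finsupp.equivFunOnFinite.symm fun x => l (π x), (mem_ker_iff σ _).2 fun x => ?_⟩, ?_⟩
      · simp [hπσ]
      · ext y
        change ((l (π (r y)) : ℤ) : ZMod (m y)) = c y
        rw [hπr, hl]
    have hker : (nrm σ n).range.addSubgroupOf (1 - s).ker = φ.ker := by
      ext f
      rw [AddSubgroup.mem_addSubgroupOf, AddMonoidHom.mem_ker]
      constructor
      · rintro ⟨g, hg⟩
        ext y
        have e : f.1 (r y) = m (π (r y)) * tot π g (π (r y)) :=
          (DFunLike.congr_fun hg (r y)).symm.trans (hN g (r y))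
        change ((f.1 (r y) : ℤ) : ZMod (m y)) = 0
        rw [e, hπr, Int.cast_mul, Int.cast_natCast, ZMod.natCast_self, zero_mul]
      · intro hf
        have hd : ∀ y, (m y : ℤ) ∣ f.1 (r y) := fun y =>
          (ZMod.intCast_zmod_eq_zero_iff_dvd _ _).1 (congrFun hf y)
        choose q hq using hd
        refine ⟨∑ y, Finsupp.single (r y) (q y), ?_⟩
        ext x
        have h1 : tot π (∑ y, Finsupp.single (r y) (q y)) = ∑ y, Finsupp.single y (q y) := by
          rw [map_sum]
          refine sum_congr rfl fun y _ => ?_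
          change Finsupp.mapDomain π _ = _
          rw [Finsupp.mapDomain_single, hπr]
        refine (hN _ x).trans ?_
        rw [h1, Finsupp.finsetSum_apply]
        simp only [Finsupp.single_apply, sum_ite_eq', mem_univ, if_true]
        rw [← hq (π x)]
        obtain ⟨k, hk⟩ := (horb x (r (π x))).1 (hπr (π x)).symm
        rw [← hk]
        exact apply_pow ((mem_ker_iff σ f.1).1 f.2) k x
    change (nrm σ n).range.relIndex (1 - s).ker = _
    rw [AddSubgroup.relIndex, hker, AddSubgroup.index_ker, AddMonoidHom.range_eq_top.2 hsurj,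
      AddSubgroup.card_top, Nat.card_pi]
    exact prod_congr rfl fun y _ => Nat.card_zmod _
  · apply le_antisymm
    · rintro _ ⟨f, rfl⟩
      exact DFunLike.congr_fun (nrm_mul_one_sub hσ) f
    · intro f hf
      refine mem_range_of_tot_eq_zero hπ horb ?_
      ext y
      obtain ⟨x, rfl⟩ := hπ y
      have h1 : nrm σ n f x = 0 := DFunLike.congr_fun hf x
      rw [hN] at h1
      exact (mul_eq_zero.1 h1).resolve_left (by exact_mod_cast hm0 _)

end Fermat.Agent.Cor.Ambi
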