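import Fermat.Agent.Corollaries.Ambi.UnitsCyc
import Fermat.Agent.Corollaries.Ambi.DivCyc
import Fermat.Agent.Corollaries.Ambi.Perm
import Fermat.Agent.Corollaries.Ambi.Formula

/-!
# Chevalley's ambiguous class number formula for every cyclic extension
-/

set_option autoImplicit false
set_option linter.unusedSectionVars false

namespace Fermat.Agent.Cor.Ambi

open IsDedekindDomain NumberField Fermat.Agent.CFT.Chevalley
open Fermat.Agent.CFT.SUnits Fermat.Agent.CFT.ChevMul Fermat.Agent.CFT.EqUnits Herb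
open scoped Pointwise nonZeroDivisors

section Perm

variable {X : Type*}

/-- the permutation module -/
noncomputable def pm (g : X → X) : AddMonoid.End (X →₀ ℤ) := Finsupp.mapDomain.addMonoidHom g

theorem relIndex_pm {Y : Type*} [Finite X] [Fintype Y] (σ : Equiv.Perm X) {n : ℕ} (hn : 0 < n)
    (hσ : σ ^ n = 1) (π : X → Y) (hπ : Function.Surjective π)
    (horb : ∀ x y, π x = π y ↔ ∃ k : ℕ, (σ ^ k) x = y) (m : Y → ℕ)
    (hm : ∀ y, m y * Nat.card {x // π x = y} = n) :
    q (norm n (pm σ)) (1 - pm σ : AddMonoid.End (X →₀ ℤ)) ⊤ = ∏ y, m y ∧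
      q (1 - pm σ : AddMonoid.End (X →₀ ℤ)) (norm n (pm σ)) ⊤ = 1 := by
  obtain ⟨h1, h2⟩ := relIndex_norm σ hn hσ π hπ horb m hm
  have e : ∀ D N : (X →₀ ℤ) →+ (X →₀ ℤ), q D N ⊤ = D.range.relIndex N.ker := fun D N => by
    rw [q, top_inf_eq, ← AddMonoidHom.range_eq_map]
  exact ⟨(e _ _).trans h1, (e _ _).trans
    ((congrArg (fun H => AddSubgroup.relIndex H _) h2).trans (AddSubgroup.relIndex_self _))⟩

end Perm

/-- transport along an injective equivariant map -/
theorem q_range {A F : Type*} [AddCommGroup A] [AddCommGroup F] (Y : F →+ A)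
    (hY : Function.Injective Y) (D N : A →+ A) (D' N' : F →+ F) (hD : ∀ x, D (Y x) = Y (D' x))
    (hN : ∀ x, N (Y x) = Y (N' x)) : q D N Y.range = q D' N' ⊤ := by
  rw [q, q, top_inf_eq, ← AddSubgroup.relIndex_map_map_of_injective _ _ hY]
  congr 1
  · ext x
    constructor
    · rintro ⟨_, ⟨y, rfl⟩, rfl⟩
      exact ⟨D' y, ⟨y, trivial, rfl⟩, (hD y).symm⟩
    · rintro ⟨_, ⟨y, -, rfl⟩, rfl⟩
      exact ⟨Y y, ⟨y, rfl⟩, hD y⟩
  · ext x
    rw [AddSubgroup.mem_inf]
    constructor
    · rintro ⟨⟨y, rfl⟩, hx⟩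
      rw [AddMonoidHom.mem_ker, hN] at hx
      refine ⟨y, ?_, rfl⟩
      rw [SetLike.mem_coe, AddMonoidHom.mem_ker]
      exact hY (hx.trans (map_zero Y).symm)
    · rintro ⟨y, hy, rfl⟩
      refine ⟨⟨y, rfl⟩, ?_⟩
      rw [SetLike.mem_coe, AddMonoidHom.mem_ker] at hy
      rw [AddMonoidHom.mem_ker, hN, hy, map_zero]

variable {K L : Type*} [Field K] [NumberField K] [Field L] [NumberField L] [Algebra K L]
  [IsGalois K L]

/-- `1` or `2` -/
noncomputable def mInf (K L : Type*) [Field K] [Field L] [Algebra K L] (v : InfinitePlace K) : ℕ :=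
  open Classical in if v.IsUnramifiedIn L then 1 else 2

lemma prod_mInf : ∏ v : InfinitePlace K, mInf K L v = 2 ^ ramInf K L := by
  classical
  unfold mInf ramInf
  rw [Finset.prod_ite, Finset.prod_const_one, one_mul, Finset.prod_const, Nat.card_eq_fintype_card,
    Fintype.card_subtype]

lemma mInf_mul (v : InfinitePlace K) :
    mInf K L v * Nat.card {w : InfinitePlace L // w.comap (algebraMap K L) = v} =
      Nat.card Gal(L/K) := by
  classical
  obtain ⟨w, rfl⟩ := InfinitePlace.comap_surjective (K := L) v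
  have h1 : mInf K L (w.comap (algebraMap K L)) = Nat.card (MulAction.stabilizer Gal(L/K) w) := by
    rw [InfinitePlace.card_stabilizer, mInf]
    simp only [InfinitePlace.isUnramifiedIn_comap]
  have h2 : Nat.card {w' : InfinitePlace L // w'.comap (algebraMap K L) =
      w.comap (algebraMap K L)} = (MulAction.stabilizer Gal(L/K) w).index := by
    rw [MulAction.index_stabilizer, ← Nat.card_coe_set_eq]
    refine Nat.card_congr (Equiv.subtypeEquivRight fun w' => ?_)
    rw [InfinitePlace.mem_orbit_iff, eq_comm]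
  rw [h1, h2, Subgroup.card_mul_index]

/-- **the Herbrand quotient of the units in a cyclic extension** -/
theorem herbrand_units {n : ℕ} {σ : Gal(L/K)} (hσ : ∀ τ, τ ∈ Subgroup.zpowers σ)
    (hord : orderOf σ = n) :
    n * ((unitsL L).map (nrm n (sgU σ))).relIndex (fixedIn (unitsL L) (sgU σ)) =
      2 ^ ramInf K L *
        ((unitsL L).map (del (sgU σ))).relIndex (unitsL L ⊓ (nrm n (sgU σ)).ker) := by
  classical
  have hn : 0 < n := hord ▸ orderOf_pos σ
  have hσn : σ ^ n = 1 := hord ▸ pow_orderOf_eq_one σ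
  obtain ⟨Y, hY, hidx, heq⟩ := exists_family (K := K) (L := L)
  set P : Equiv.Perm (InfinitePlace L) := MulAction.toPerm σ with hP
  have hPn : P ^ n = 1 := by
    rw [hP, ← MulAction.toPermHom_apply, ← map_pow, hσn, map_one]
  have horb : ∀ x y : InfinitePlace L, x.comap (algebraMap K L) = y.comap (algebraMap K L) ↔
      ∃ k : ℕ, (P ^ k) x = y := by
    intro x y
    rw [← InfinitePlace.mem_orbit_iff]
    constructor
    · rintro ⟨τ, rfl⟩
      obtain ⟨k, rfl⟩ := (mem_powers_iff_mem_zpowers.mpr (hσ τ))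
      refine ⟨k, ?_⟩
      rw [hP, ← MulAction.toPermHom_apply, ← map_pow]
      rfl
    · rintro ⟨k, rfl⟩
      refine ⟨σ ^ k, ?_⟩
      rw [hP, ← MulAction.toPermHom_apply, ← map_pow]
      rfl
  obtain ⟨hq0, hq1⟩ := relIndex_pm P hn hPn (fun w : InfinitePlace L => w.comap (algebraMap K L))
    InfinitePlace.comap_surjective horb (mInf K L) (fun v => by
      rw [mInf_mul, ← orderOf_eq_card_of_forall_mem_zpowers hσ, hord])
  have hD : ∀ x, dz (dE σ) (Y x) = Y ((1 - pm P : AddMonoid.End (InfinitePlace L →₀ ℤ)) x) := by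
    intro x
    rw [dz_eq]
    refine Eq.trans ?_ (map_sub Y x (pm P x)).symm
    exact congrArg (fun z => Y x - z) (heq σ x).symm
  have hN : ∀ x, nz (nE n σ) n (Y x) = Y (norm n (pm P) x) := by
    intro x
    rw [nz_eq]
    have hpow : ∀ (i : ℕ) (x : InfinitePlace L →₀ ℤ), Y ((pm P ^ i) x) = (sA σ ^ i) (Y x) := by
      intro i
      induction i with
      | zero => intro x; rfl
      | succ i ih =>
        intro x
        rw [pow_succ, pow_succ]
        exact (ih (pm P x)).trans (congrArg (sA σ ^ i) (heq σ x))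
    have e1 : norm n (sA σ) (Y x) = ∑ i ∈ Finset.range n, (sA σ ^ i) (Y x) :=
      AddMonoidHom.finsetSum_apply _ _ _
    have e2 : norm n (pm P) x = ∑ i ∈ Finset.range n, (pm P ^ i) x :=
      AddMonoidHom.finsetSum_apply _ _ _
    refine e1.trans (Eq.trans ?_ (congrArg Y e2).symm)
    rw [map_sum]
    exact Finset.sum_congr rfl fun i _ => (hpow i x).symm
  have hB0 := q_range Y hY (nz (nE n σ) n) (dz (dE σ)) _ _ hN hD
  have hB1 := q_range Y hY (dz (dE σ)) (nz (nE n σ) n) _ _ hD hN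
  have hmain := q_mul_q (D := dz (dE σ)) (N := nz (nE n σ) n) (B := Y.range)
    (fun x => Prod.ext (nE_dE hσn x.1) (smul_zero n)) (fun x => Prod.ext (dE_nE hσn x.1) rfl)
    (by
      rintro _ ⟨y, rfl⟩
      rw [hD]
      exact ⟨_, rfl⟩)
    (by
      rintro _ ⟨y, rfl⟩
      rw [hN]
      exact ⟨_, rfl⟩) hidx
  have e3 := q_dz (dE σ) (nE n σ) hn.ne' (nE_dE hσn)
  have e4 := q_nz (dE σ) (nE n σ) (n := n) (dE_nE hσn)
  rw [hB0, hB1, hq0, hq1, e3, e4, one_mul, q_dE, q_nE, prod_mInf] at hmain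
  rw [mul_comm, ← hmain, mul_comm]

/-- `e_v` in Mathlib's notation -/
theorem ramIdx_sec (v : HeightOneSpectrum (𝓞 K)) :
    ramIdx K (sec (L := L) v) = v.asIdeal.ramificationIdxIn (𝓞 L) := by
  have h := Ideal.ramificationIdxIn_eq_ramificationIdx (under K (sec (L := L) v)).asIdeal
    (sec (L := L) v).asIdeal Gal(L/K)
  rw [ramIdx, Ideal.ramificationIdx'_eq_ramificationIdx (under K (sec (L := L) v)).asIdeal
    (sec (L := L) v).asIdeal (under K (sec (L := L) v)).ne_bot, ← h, under_sec]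

/-- `[Div(L)^G : Div(K)] = ∏ e_v` -/
theorem relIndex_extD_finprod : (extD (K := K) L).range.relIndex (fixD K L) =
    ∏ᶠ v : HeightOneSpectrum (𝓞 K), v.asIdeal.ramificationIdxIn (𝓞 L) := by
  rw [relIndex_extD, finprod_eq_prod_of_mulSupport_subset (s := (finite_ram K L).toFinset)]
  · exact Finset.prod_congr rfl fun v _ => ramIdx_sec v
  · intro v hv
    rw [Function.mem_mulSupport, ← ramIdx_sec] at hv
    rw [Finset.mem_coe, Set.Finite.mem_toFinset]
    exact ⟨sec (L := L) v, under_sec v, hv⟩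

/-- the index of `Div(K)` in the fixed divisors, multiplicatively -/
theorem relIndex_extM {σ : Gal(L/K)} (hσ : ∀ τ, τ ∈ Subgroup.zpowers σ) :
    (extM (K := K) L).range.relIndex (del (actM σ)).ker =
      ∏ᶠ v : HeightOneSpectrum (𝓞 K), v.asIdeal.ramificationIdxIn (𝓞 L) := by
  rw [← relIndex_extD_finprod]
  have h1 : (del (actM σ)).ker = AddSubgroup.toSubgroup' (fixD K L) := by
    ext D
    rw [mem_ker_del_actM hσ]
    exact Iff.rfl
  rw [h1]
  rfl

/-- the norms of units have finite index in the units of `K` -/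
theorem relIndex_nrm_ne_zero {n : ℕ} (hn : 0 < n) {σ : Gal(L/K)}
    (hσ : ∀ τ, τ ∈ Subgroup.zpowers σ) (hord : orderOf σ = n) :
    ((unitsL L).map (nrm n (sgU σ))).relIndex (fixedIn (unitsL L) (sgU σ)) ≠ 0 := by
  have h1 : (((unitsL K).map (powMonoidHom n)).map (up L)).relIndex
      (fixedIn (unitsL L) (sgU σ)) ≠ 0 := by
    rw [fixedIn_eq_map hσ, Subgroup.relIndex_map_map_of_injective _ _ up_injective,
      relIndex_pow_unitsL hn.ne']
    exact mul_ne_zero (pow_ne_zero _ hn.ne') (card_rootsOfUnity_ne_zero hn.ne')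
  refine fun h => h1 (Nat.eq_zero_of_zero_dvd (h ▸ Subgroup.relIndex_dvd_of_le_left _ ?_))
  rintro _ ⟨_, ⟨y, hy, rfl⟩, rfl⟩
  refine ⟨up L y, (up_mem_unitsL_iff y).mpr hy, ?_⟩
  rw [nrm_eq_up hσ hord]
  congr 1
  ext1
  change Algebra.norm K (algebraMap K L (y : K)) = ((y ^ n : Kˣ) : K)
  rw [Algebra.norm_algebraMap, Units.val_pow_eq_pow_val, ← hord,
    orderOf_eq_card_of_forall_mem_zpowers hσ, IsGalois.card_aut_eq_finrank]

/-- **Chevalley's ambiguous class number formula** for every cyclic extension of number fields -/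
theorem chevalley_formula_cyclic {σ : Gal(L/K)} (hσ : ∀ τ, τ ∈ Subgroup.zpowers σ) :
    Nat.card (ambig σ) * Module.finrank K L * (normUnits K L).index =
      classNumber K * (∏ᶠ v : HeightOneSpectrum (𝓞 K), v.asIdeal.ramificationIdxIn (𝓞 L)) *
        2 ^ ramInf K L := by
  set n := Module.finrank K L with hn'
  have hord : orderOf σ = n := by
    rw [orderOf_eq_card_of_forall_mem_zpowers hσ, IsGalois.card_aut_eq_finrank]
  have hn : 0 < n := Module.finrank_pos
  have h01 := herbrand_units hσ hord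
  have h90 := ker_nrm_eq (L := L) hn hord
  have hI := comap_range_eq (L := L) hn.ne' (by rw [← hord, pow_orderOf_eq_one]) hσ
  have hP : (del (sgU σ)).ker.map (dvm L) ≤ (extM (K := K) L).range := by
    rw [map_ker_eq hσ]
    rintro _ ⟨x, -, rfl⟩
    exact ⟨x, rfl⟩
  have h1 := index_formula (f := dvm L) (N := nrm n (sgU σ)) (dvm_sgU σ) h90 hI
    (range_extM_le hσ) hP
  rw [relIndex_eq_card_ambig, relIndex_eq_classNumber hσ, relIndex_extM hσ, ker_dvm] at h1
  have h2 : (unitsL L).map (nrm n (sgU σ)) ≤ unitsL L ⊓ (nrm n (sgU σ)).range := by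
    rintro _ ⟨x, hx, rfl⟩
    refine Subgroup.mem_inf.mpr ⟨?_, x, rfl⟩
    rw [SetLike.mem_coe] at hx
    rw [mem_unitsL] at hx ⊢
    have h3 := toAdd_dvm_nrm σ n x
    rw [hx] at h3
    exact h3.trans (Finset.sum_eq_zero fun i _ => Function.iterate_fixed (map_zero (actD σ)) i)
  have h3 : unitsL L ⊓ (nrm n (sgU σ)).range ≤ fixedIn (unitsL L) (sgU σ) := by
    rw [inf_range_eq hσ hord, fixedIn_eq hσ]
    rintro _ ⟨x, -, rfl⟩
    exact ⟨x, rfl⟩
  have h4 := Subgroup.relIndex_mul_relIndex _ _ _ h2 h3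
  rw [relIndex_eq_index hσ hord] at h4
  have h0 := relIndex_nrm_ne_zero (K := K) (L := L) hn hσ hord
  refine Nat.eq_of_mul_eq_mul_right (Nat.pos_of_ne_zero h0) ?_
  calc Nat.card (ambig σ) * n * (normUnits K L).index *
        ((unitsL L).map (nrm n (sgU σ))).relIndex (fixedIn (unitsL L) (sgU σ))
      = Nat.card (ambig σ) * (normUnits K L).index *
        (n * ((unitsL L).map (nrm n (sgU σ))).relIndex (fixedIn (unitsL L) (sgU σ))) := by ring
    _ = 2 ^ ramInf K L * (normUnits K L).index * (Nat.card (ambig σ) *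
        ((unitsL L).map (del (sgU σ))).relIndex (unitsL L ⊓ (nrm n (sgU σ)).ker)) := by
      rw [h01]
      ring
    _ = classNumber K * (∏ᶠ v : HeightOneSpectrum (𝓞 K), v.asIdeal.ramificationIdxIn (𝓞 L)) *
        2 ^ ramInf K L *
        (((unitsL L).map (nrm n (sgU σ))).relIndex (unitsL L ⊓ (nrm n (sgU σ)).range) *
          (normUnits K L).index) := by
      rw [h1]
      ring
    _ = _ := by rw [h4]

/-- **Chevalley's formula** for cyclic extensions, spelled out -/
theorem chevalley_formula_cyclic' {σ : Gal(L/K)} (hσ : ∀ τ, τ ∈ Subgroup.zpowers σ)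
    (N : Subgroup (𝓞 K)ˣ) (hN : ∀ u, u ∈ N ↔ ∃ x : L, Algebra.norm K x = ((u : 𝓞 K) : K)) :
    Nat.card {c : ClassGroup (𝓞 L) //
      ClassGroup.mulEquiv (MulSemiringAction.toRingEquiv Gal(L/K) (𝓞 L) σ) c = c} *
        Module.finrank K L * N.index =
    classNumber K * (∏ᶠ v : HeightOneSpectrum (𝓞 K), v.asIdeal.ramificationIdxIn (𝓞 L)) *
      2 ^ Nat.card {v : InfinitePlace K // ¬ v.IsUnramifiedIn L} := by
  have h1 : N = normUnits K L := by
    ext u
    rw [hN, mem_normUnits]
  rw [h1]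
  exact chevalley_formula_cyclic hσ

/-- **unramified cyclic extensions**: if `L / K` is cyclic and unramified at all places then the
degree of `L / K` divides the class number of `K`. -/
theorem finrank_dvd_classNumber [IsCyclic Gal(L/K)]
    (h : ∀ w : HeightOneSpectrum (𝓞 L), (w.asIdeal.under (𝓞 K)).ramificationIdx' w.asIdeal = 1)
    [IsUnramifiedAtInfinitePlaces K L] : Module.finrank K L ∣ classNumber K := by
  obtain ⟨σ, hσ⟩ := IsCyclic.exists_generator (α := Gal(L/K))
  have h1 : (∏ᶠ v : HeightOneSpectrum (𝓞 K), v.asIdeal.ramificationIdxIn (𝓞 L)) = 1 := by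
    refine finprod_eq_one_of_forall_eq_one fun v => ?_
    rw [← ramIdx_sec]
    exact h (sec v)
  have h2 : ramInf K L = 0 := by
    rw [ramInf, Nat.card_eq_zero]
    exact Or.inl ⟨fun v => v.2 (InfinitePlace.isUnramifiedIn L v.1)⟩
  have h3 := chevalley_formula_cyclic hσ
  rw [h1, h2, mul_one, pow_zero, mul_one] at h3
  exact ⟨Nat.card (ambig σ) * (normUnits K L).index, by rw [← h3]; ring⟩

end Fermat.Agent.Cor.Ambi
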