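import Fermat.Agent.Corollaries.Ambi.Defs
import Mathlib.NumberTheory.NumberField.Cyclotomic.Ideal
import Mathlib.NumberTheory.NumberField.Cyclotomic.Embeddings
import Mathlib.RingTheory.Ideal.Int

/-!
# Ramification in the tower `ℚ(ζ_{p^(n+1)}) / ℚ(ζ_{p^n})`
-/

set_option autoImplicit false
set_option linter.unusedSectionVars false

namespace Fermat.Agent.Cor.Ambi

open IsDedekindDomain NumberField
open Fermat.Agent.CFT.SUnits

section

variable {K L : Type*} [Field K] [NumberField K] [Field L] [NumberField L] [Algebra K L]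

/-- the ramification index in a tower over `ℤ` -/
theorem ramIdx_eq_one_of (w : HeightOneSpectrum (𝓞 L))
    (h : w.asIdeal.ramificationIdx ℤ = 1) : ramIdx K w = 1 := by
  set 𝔮 : Ideal ℤ := w.asIdeal.under ℤ with h𝔮
  have h1 : w.asIdeal.LiesOver 𝔮 := ⟨rfl⟩
  have h2 : (under K w).asIdeal.LiesOver 𝔮 := by
    refine ⟨?_⟩
    rw [h𝔮, under_asIdeal, Ideal.under_under]
  have h3 : 𝔮 ≠ ⊥ := Ideal.under_ne_bot (A := ℤ) w.ne_bot
  have h4 : 𝔮.ramificationIdx' w.asIdeal = 1 := by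
    rw [Ideal.ramificationIdx'_eq_ramificationIdx 𝔮 w.asIdeal h3, h]
  rw [Ideal.ramificationIdx'_algebra_tower' 𝔮 (under K w).asIdeal w.asIdeal] at h4
  exact Nat.eq_one_of_mul_eq_one_left h4

end

section

variable {p n : ℕ} [hp : Fact p.Prime] {K L : Type*} [Field K] [NumberField K] [Field L]
  [NumberField L] [Algebra K L]

/-- a place ramified in the tower lies above `p` -/
theorem liesOver_of_mem_ram [IsCyclotomicExtension {p ^ n} ℚ L] {v : HeightOneSpectrum (𝓞 K)}
    (hv : v ∈ ram K L) : v.asIdeal.LiesOver (Ideal.span {(p : ℤ)}) := by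
  obtain ⟨w, rfl, hr⟩ := hv
  have : NeZero w.asIdeal := ⟨w.ne_bot⟩
  have : NeZero (p ^ n) := ⟨pow_ne_zero n hp.out.ne_zero⟩
  have hℓ := Nat.absNorm_under_prime w.asIdeal
  set ℓ := Ideal.absNorm (w.asIdeal.under ℤ) with hℓdef
  have h1 : w.asIdeal.LiesOver (Ideal.span {(ℓ : ℤ)}) := Int.liesOver_span_absNorm w.asIdeal
  have := Fact.mk hℓ
  by_cases hpl : ℓ ∣ p ^ n
  · have h2 : ℓ = p := (Nat.prime_dvd_prime_iff_eq hℓ hp.out).mp (hℓ.dvd_of_dvd_pow hpl)
    rw [h2] at h1
    refine ⟨?_⟩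
    rw [h1.over, under_asIdeal, Ideal.under_under]
  · exact absurd (ramIdx_eq_one_of w
      (IsCyclotomicExtension.Rat.ramificationIdx_eq_of_not_dvd ℓ L w.asIdeal hpl)) hr

/-- **The cyclotomic tower** `ℚ(ζ_{p^(n+1)}) / ℚ(ζ_{p^n})`: Galois of degree `p`, at most one
finite place is ramified, no infinite place is ramified if `p ^ n > 2`. -/
theorem ram_cyclotomic (hn : n ≠ 0) [IsCyclotomicExtension {p ^ n} ℚ K]
    [IsCyclotomicExtension {p ^ (n + 1)} ℚ L] :
    IsGalois K L ∧ Module.finrank K L = p ∧ (ram K L).ncard ≤ 1 ∧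
      (2 < p ^ n → ramInf K L = 0) := by
  have : NeZero (p ^ n) := ⟨pow_ne_zero n hp.out.ne_zero⟩
  have : NeZero (p ^ (n + 1)) := ⟨pow_ne_zero _ hp.out.ne_zero⟩
  refine ⟨?_, ?_, ?_, ?_⟩
  · have : IsGalois ℚ L := IsCyclotomicExtension.isGalois {p ^ (n + 1)} ℚ L
    exact IsGalois.tower_top_of_isGalois ℚ K L
  · have h1 := Module.finrank_mul_finrank ℚ K L
    rw [IsCyclotomicExtension.Rat.finrank (p ^ n) K,
      IsCyclotomicExtension.Rat.finrank (p ^ (n + 1)) L] at h1
    obtain ⟨m, rfl⟩ := Nat.exists_eq_succ_of_ne_zero hn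
    rw [Nat.succ_eq_add_one, Nat.totient_prime_pow_succ hp.out, Nat.totient_prime_pow_succ hp.out,
      pow_succ, mul_assoc, mul_assoc, mul_comm p (p - 1)] at h1
    have h2 : 0 < p ^ m := pow_pos hp.out.pos m
    have h3 : 0 < p - 1 := by have := hp.out.two_le; omega
    exact Nat.eq_of_mul_eq_mul_left h3 (Nat.eq_of_mul_eq_mul_left h2 h1)
  · have hsub : (ram K L).Subsingleton := by
      intro v hv v' hv'
      obtain ⟨m, rfl⟩ := Nat.exists_eq_succ_of_ne_zero hn
      have h1 := liesOver_of_mem_ram (p := p) (n := m + 1 + 1) hv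
      have h2 := liesOver_of_mem_ram (p := p) (n := m + 1 + 1) hv'
      refine HeightOneSpectrum.ext ?_
      rw [IsCyclotomicExtension.Rat.eq_span_zeta_sub_one_of_liesOver p m K
          (IsCyclotomicExtension.zeta_spec (p ^ (m + 1)) ℚ K) v.asIdeal,
        IsCyclotomicExtension.Rat.eq_span_zeta_sub_one_of_liesOver p m K
          (IsCyclotomicExtension.zeta_spec (p ^ (m + 1)) ℚ K) v'.asIdeal]
    exact (Set.ncard_le_one hsub.finite).mpr fun a ha b hb => hsub ha hb
  · intro h2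
    have := IsCyclotomicExtension.Rat.isTotallyComplex K h2
    rw [ramInf, Nat.card_eq_zero]
    left
    refine ⟨fun v => v.2 fun w hw => ?_⟩
    rw [InfinitePlace.isUnramified_iff]
    right
    rw [hw]
    exact IsTotallyComplex.isComplex _

end

end Fermat.Agent.Cor.Ambi
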