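import Fermat.Agent.Corollaries.Ambi.Class

/-!
# The index of the divisors of `K` in the fixed divisors of `L`

`L / K` Galois of prime degree `p`: `[Div(L)^G : Div(K)] = p ^ t`, where `t` is the number of finite
places of `K` which are ramified in `L`.
-/

set_option autoImplicit false

noncomputable section

namespace Fermat.Agent.Cor.Ambi

open IsDedekindDomain NumberField
open Fermat.Agent.CFT.SUnits
open scoped Pointwise

variable {K L : Type*} [Field K] [NumberField K] [Field L] [NumberField L] [Algebra K L]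
  [IsGalois K L]

/-- The ramification index is the order of the inertia group. -/
theorem ramIdx_eq_card_inertia (w : HeightOneSpectrum (𝓞 L)) :
    ramIdx K w = Nat.card (w.asIdeal.inertia Gal(L/K)) := by
  rw [ramIdx, Ideal.ramificationIdx'_eq_ramificationIdx (under K w).asIdeal w.asIdeal
    (under K w).ne_bot,
    ← Ideal.ramificationIdxIn_eq_ramificationIdx (under K w).asIdeal w.asIdeal Gal(L/K),
    ← Ideal.card_inertia_eq_ramificationIdxIn (G := Gal(L/K)) (under K w).asIdeal w.asIdeal]

theorem ramIdx_dvd_finrank (w : HeightOneSpectrum (𝓞 L)) : ramIdx K w ∣ Module.finrank K L := by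
  rw [ramIdx_eq_card_inertia, ← IsGalois.card_aut_eq_finrank]
  exact Subgroup.card_subgroup_dvd_card _

omit [NumberField K] [IsGalois K L] in
theorem exists_int_smul_ne' {σ : Gal(L/K)} (hσ : σ ≠ 1) : ∃ x : 𝓞 L, σ • x - x ≠ 0 := by
  by_contra hcon
  push Not at hcon
  refine hσ (AlgEquiv.ext fun y => ?_)
  obtain ⟨a, b, hb, rfl⟩ := IsFractionRing.div_surjective (A := 𝓞 L) y
  have h1 : ∀ x : 𝓞 L, σ (algebraMap (𝓞 L) L x) = algebraMap (𝓞 L) L x := fun x => by
    rw [← coe_smul_int, sub_eq_zero.mp (hcon x)]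
  rw [map_div₀, h1, h1]
  rfl

variable (K L) in
/-- Only finitely many places are ramified. -/
theorem finite_ram : (ram K L).Finite := by
  classical
  have hex : ∀ σ : Gal(L/K), σ ≠ 1 → ∃ x : 𝓞 L, σ • x - x ≠ 0 := fun σ hσ =>
    exists_int_smul_ne' hσ
  choose! x hx using hex
  have hfin : (⋃ σ ∈ {σ : Gal(L/K) | σ ≠ 1},
      {w : HeightOneSpectrum (𝓞 L) | σ • x σ - x σ ∈ w.asIdeal}).Finite := by
    refine (Set.toFinite _).biUnion fun σ hσ => ?_
    have h := Ideal.finite_factors (R := 𝓞 L) (I := Ideal.span {σ • x σ - x σ}) (by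
      rw [Ne, Ideal.zero_eq_bot, Ideal.span_singleton_eq_bot]
      exact hx σ hσ)
    refine h.subset fun w hw => ?_
    change w.asIdeal ∣ Ideal.span {σ • x σ - x σ}
    rw [Ideal.dvd_span_singleton]
    exact hw
  refine (hfin.image fun w => under K w).subset ?_
  rintro v ⟨w, hwv, hw⟩
  refine ⟨w, ?_, hwv⟩
  by_contra hcon
  simp only [Set.mem_iUnion, Set.mem_ofPred_eq, not_exists] at hcon
  apply hw
  rw [ramIdx_eq_card_inertia]
  have hin : w.asIdeal.inertia Gal(L/K) = ⊥ := by
    rw [Subgroup.eq_bot_iff_forall]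
    intro σ hσ
    by_contra h1
    exact hcon σ h1 (hσ (x σ))
  rw [hin, Subgroup.card_bot]

variable (K L) in
/-- a place of `L` above `v` -/
def abv (v : HeightOneSpectrum (𝓞 K)) : HeightOneSpectrum (𝓞 L) :=
  (under_surjective (K := K) L v).choose

omit [IsGalois K L] in
theorem under_abv (v : HeightOneSpectrum (𝓞 K)) : under K (abv K L v) = v :=
  (under_surjective (K := K) L v).choose_spec

theorem apply_eq_of_under {D : HeightOneSpectrum (𝓞 L) →₀ ℤ} (hD : D ∈ fixD K L)
    {w w' : HeightOneSpectrum (𝓞 L)} (h : under K w = under K w') : D w = D w' := by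
  obtain ⟨g, rfl⟩ := exists_smul_eq h
  exact (hD g w).symm

theorem ramIdx_eq_of_under {w w' : HeightOneSpectrum (𝓞 L)} (h : under K w = under K w') :
    ramIdx K w = ramIdx K w' := by
  obtain ⟨g, rfl⟩ := exists_smul_eq h
  exact (ramIdx_smul g w).symm

variable (K L) in
/-- the residues modulo `p` of the coefficients of a fixed divisor at the ramified places -/
def resD (p : ℕ) : fixD K L →+ (ram K L → ZMod p) where
  toFun D v := ((D.1 (abv K L v.1) : ℤ) : ZMod p)
  map_zero' := by
    ext v
    change (((0 : HeightOneSpectrum (𝓞 L) →₀ ℤ) _ : ℤ) : ZMod p) = 0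
    rw [Finsupp.zero_apply, Int.cast_zero]
  map_add' D E := by
    ext v
    change (((D.1 + E.1) _ : ℤ) : ZMod p) = _
    rw [Finsupp.add_apply, Int.cast_add]
    rfl

theorem resD_surjective {p : ℕ} (hp : p ≠ 0) : Function.Surjective (resD K L p) := by
  classical
  have : NeZero p := ⟨hp⟩
  intro f
  have hfin := finite_ram K L
  let F : HeightOneSpectrum (𝓞 K) → ℤ := fun v => if h : v ∈ ram K L then ((f ⟨v, h⟩).val : ℤ) else 0
  have hs : (Function.support fun w : HeightOneSpectrum (𝓞 L) => F (under K w)).Finite := by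
    refine Set.Finite.subset (aboveS L hfin.toFinset).finite_toSet fun w hw => ?_
    rw [Finset.mem_coe, mem_aboveS, Set.Finite.mem_toFinset]
    by_contra h
    exact hw (dif_neg h)
  refine ⟨⟨Finsupp.ofSupportFinite _ hs, fun τ w => ?_⟩, ?_⟩
  · change F (under K (τ • w)) = F (under K w)
    rw [under_smul]
  · ext v
    change ((F (under K (abv K L v.1)) : ℤ) : ZMod p) = f v
    rw [under_abv]
    have h1 : F v.1 = ((f v).val : ℤ) := dif_pos v.2
    rw [h1]
    simp

theorem ker_resD {p : ℕ} (hp : p.Prime) (hd : Module.finrank K L = p) :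
    (resD K L p).ker = (extD (K := K) L).range.addSubgroupOf (fixD K L) := by
  classical
  ext D
  rw [AddMonoidHom.mem_ker, AddSubgroup.mem_addSubgroupOf]
  have hdich : ∀ w : HeightOneSpectrum (𝓞 L), ramIdx K w = 1 ∨ ramIdx K w = p := fun w =>
    (Nat.dvd_prime hp).mp (hd ▸ ramIdx_dvd_finrank w)
  constructor
  · intro h
    have hdvd : ∀ w : HeightOneSpectrum (𝓞 L), (ramIdx K w : ℤ) ∣ D.1 w := by
      intro w
      rcases hdich w with h1 | h1
      · rw [h1, Nat.cast_one]
        exact one_dvd _
      · rw [h1]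
        have hv : under K w ∈ ram K L := ⟨w, rfl, by rw [h1]; exact hp.ne_one⟩
        have h2 : ((D.1 (abv K L (under K w)) : ℤ) : ZMod p) = 0 := congrFun h ⟨under K w, hv⟩
        rw [ZMod.intCast_zmod_eq_zero_iff_dvd] at h2
        rwa [apply_eq_of_under D.2 (under_abv (under K w))] at h2
    let F : HeightOneSpectrum (𝓞 K) → ℤ := fun v => D.1 (abv K L v) / ramIdx K (abv K L v)
    have hs : (Function.support F).Finite := by
      refine (D.1.support.finite_toSet.image (under K)).subset fun v hv => ?_
      refine ⟨abv K L v, ?_, under_abv v⟩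
      rw [Finset.mem_coe, Finsupp.mem_support_iff]
      intro h1
      apply hv
      change D.1 (abv K L v) / _ = 0
      rw [h1, Int.zero_ediv]
    refine ⟨Finsupp.ofSupportFinite F hs, ?_⟩
    ext w
    rw [extD_apply]
    change (ramIdx K w : ℤ) * (D.1 (abv K L (under K w)) / ramIdx K (abv K L (under K w))) = D.1 w
    rw [apply_eq_of_under D.2 (under_abv (under K w)),
      ramIdx_eq_of_under (under_abv (L := L) (under K w))]
    exact Int.mul_ediv_cancel' (hdvd w)
  · rintro ⟨E, hE⟩
    ext v
    change ((D.1 (abv K L v.1) : ℤ) : ZMod p) = 0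
    have h1 : D.1 (abv K L v.1) = ramIdx K (abv K L v.1) * E (under K (abv K L v.1)) := by
      rw [← extD_apply]
      exact (DFunLike.congr_fun hE _).symm
    obtain ⟨w, hwv, hw⟩ := v.2
    have h2 : ramIdx K (abv K L v.1) = p := by
      rw [ramIdx_eq_of_under ((under_abv (L := L) v.1).trans hwv.symm)]
      exact (hdich w).resolve_left hw
    rw [h1, h2, ZMod.intCast_zmod_eq_zero_iff_dvd]
    exact dvd_mul_right _ _

/-- (D) the index of the divisors of `K` in the fixed divisors of `L` -/
theorem divStmt {p : ℕ} (hp : p.Prime) (hd : Module.finrank K L = p) : DivStmt K L p := by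
  classical
  refine ⟨finite_ram K L, ?_⟩
  have hfin : Finite (ram K L) := finite_ram K L
  have : NeZero p := ⟨hp.ne_zero⟩
  rw [AddSubgroup.relIndex, ← ker_resD hp hd, AddSubgroup.index_ker,
    AddMonoidHom.range_eq_top.mpr (resD_surjective hp.ne_zero), AddSubgroup.card_top,
    Nat.card_fun, Nat.card_zmod, Nat.card_coe_set_eq]

end Fermat.Agent.Cor.Ambi
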