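import Fermat.Agent.Corollaries.Ambi.Main
import Fermat.Agent.Corollaries.Ambi.Div
import Mathlib.NumberTheory.NumberField.Cyclotomic.PID

/-!
# Class numbers in the cyclotomic tower `ℚ(ζ_{p^n})`

If `p` does not divide the class number of `ℚ(ζ_{p^n})` (`p ^ n > 2`) then `p` does not divide the
class number of `ℚ(ζ_{p^m})` for all `m ≥ n`. The class number of `ℚ(ζ_{2^n})` is odd (Weber), the
class number of `ℚ(ζ_{3^n})` is prime to `3`, the class number of `ℚ(ζ_{5^n})` is prime to `5`.
-/

set_option autoImplicit false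
set_option linter.unusedSectionVars false

namespace Fermat.Agent.Cor.Ambi

open IsDedekindDomain NumberField

theorem classNumber_congr {K L : Type*} [Field K] [NumberField K] [Field L] [NumberField L]
    (e : K ≃+* L) : classNumber K = classNumber L := by
  rw [classNumber, classNumber]
  exact Fintype.card_congr (ClassGroup.mulEquiv (RingOfIntegers.mapRingEquiv e)).toEquiv

lemma abs_discr_four {p k : ℕ} (hp : p = 2) (hk : k = 2) (K : Type*) [Field K] [NumberField K]
    [IsCyclotomicExtension {p ^ k} ℚ K] :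
    |discr K| = 4 ∧ Module.finrank ℚ K = 2 ∧ InfinitePlace.nrComplexPlaces K = 1 := by
  have : Fact p.Prime := ⟨hp ▸ Nat.prime_two⟩
  have h0 : NeZero (p ^ k) := ⟨pow_ne_zero _ (Nat.Prime.ne_zero Fact.out)⟩
  have hφ : Nat.totient (p ^ k) = 2 := by
    rw [hp, hk]
    decide
  refine ⟨?_, ?_, ?_⟩
  · rw [IsCyclotomicExtension.Rat.discr_prime_pow p k K, hφ, hp, hk]
    norm_num
  · rw [IsCyclotomicExtension.Rat.finrank (p ^ k) K, hφ]
  · rw [IsCyclotomicExtension.Rat.nrComplexPlaces_eq_totient_div_two (p ^ k), hφ]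

/-- the class number of `ℚ(i)` is one -/
theorem classNumber_four (K : Type*) [Field K] [NumberField K] [IsCyclotomicExtension {2 ^ 2} ℚ K] :
    classNumber K = 1 := by
  rw [classNumber_eq_one_iff]
  obtain ⟨h1, h2, h3⟩ := abs_discr_four (p := 2) (k := 2) rfl rfl K
  apply RingOfIntegers.isPrincipalIdealRing_of_abs_discr_lt
  rw [h1, h2, h3]
  have hpi := Real.pi_gt_three
  simp only [Nat.factorial]
  norm_num
  nlinarith

section

variable {p : ℕ} [Fact p.Prime]

/-- **Iwasawa**: class numbers in the tower `ℚ(ζ_{p^n})` -/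
theorem not_dvd_classNumber_cyclotomic {n : ℕ} (hn : 2 < p ^ n) {K : Type*} [Field K]
    [NumberField K] [IsCyclotomicExtension {p ^ n} ℚ K] (hK : ¬ p ∣ classNumber K) {m : ℕ}
    (hm : n ≤ m) (L : Type*) [Field L] [NumberField L] [IsCyclotomicExtension {p ^ m} ℚ L] :
    ¬ p ∣ classNumber L := by
  have hp : p.Prime := Fact.out
  have hn0 : n ≠ 0 := by
    rintro rfl
    norm_num at hn
  induction m, hm using Nat.le_induction generalizing L with
  | base =>
    rw [← classNumber_congr (IsCyclotomicExtension.algEquiv {p ^ n} ℚ K L).toRingEquiv]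
    exact hK
  | succ m hm ih =>
    have : NeZero (p ^ m) := ⟨pow_ne_zero _ hp.ne_zero⟩
    have : NeZero (p ^ (m + 1)) := ⟨pow_ne_zero _ hp.ne_zero⟩
    have hζ := IsCyclotomicExtension.zeta_spec (p ^ (m + 1)) ℚ L
    have hζ' := hζ.pow (NeZero.pos _) (pow_succ' p m)
    let F := IntermediateField.adjoin ℚ {IsCyclotomicExtension.zeta (p ^ (m + 1)) ℚ L ^ p}
    have hF : IsCyclotomicExtension {p ^ m} ℚ F :=
      hζ'.intermediateField_adjoin_isCyclotomicExtension ℚ
    have hm0 : m ≠ 0 := by omega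
    obtain ⟨hg, hd, h1, h2⟩ := ram_cyclotomic (p := p) (n := m) (K := F) (L := L) hm0
    have h3 : ramInf F L = 0 := h2 (hn.trans_le (pow_le_pow_right₀ hp.one_lt.le hm))
    exact not_dvd_classNumber hp hd (divStmt hp hd) (by rw [h3, add_zero]; exact h1) (ih F)

/-- **Weber**: the class number of `ℚ(ζ_{2^n})` is odd. -/
theorem odd_classNumber (n : ℕ) (L : Type*) [Field L] [NumberField L]
    [IsCyclotomicExtension {2 ^ n} ℚ L] : Odd (classNumber L) := by
  have : Fact (Nat.Prime 2) := ⟨Nat.prime_two⟩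
  rw [← Nat.not_even_iff_odd, even_iff_two_dvd]
  by_cases hn : 2 ≤ n
  · let F := CyclotomicField (2 ^ 2) ℚ
    have hne : NeZero (((2 ^ 2 : ℕ) : ℚ)) := ⟨by norm_num⟩
    have hF : IsCyclotomicExtension {2 ^ 2} ℚ F :=
      CyclotomicField.isCyclotomicExtension (2 ^ 2) ℚ
    refine not_dvd_classNumber_cyclotomic (p := 2) (n := 2) (by norm_num) (K := F) ?_ hn L
    rw [classNumber_four F]
    norm_num
  · have h1 : Module.finrank ℚ L = 1 := by
      have : NeZero (2 ^ n) := ⟨by positivity⟩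
      rw [IsCyclotomicExtension.Rat.finrank (2 ^ n) L]
      interval_cases n <;> decide
    have h2 : (⊥ : Subalgebra ℚ L) = ⊤ := Subalgebra.bot_eq_top_of_finrank_eq_one h1
    have e : ℚ ≃ₐ[ℚ] L := (Algebra.botEquivOfInjective (algebraMap ℚ L).injective).symm.trans
      ((Subalgebra.equivOfEq _ _ h2).trans Subalgebra.topEquiv)
    rw [← classNumber_congr e.toRingEquiv, Rat.classNumber_eq]
    norm_num

/-- the class number of `ℚ(ζ_{3^n})` is prime to `3` -/
theorem not_three_dvd_classNumber {n : ℕ} (L : Type*) [Field L] [NumberField L]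
    [IsCyclotomicExtension {3 ^ (n + 1)} ℚ L] : ¬ 3 ∣ classNumber L := by
  have : Fact (Nat.Prime 3) := ⟨Nat.prime_three⟩
  have hK : ∀ (K : Type) [Field K] [NumberField K] [IsCyclotomicExtension {3} ℚ K],
      classNumber K = 1 := fun K _ _ _ => by
    rw [classNumber_eq_one_iff]
    exact IsCyclotomicExtension.Rat.three_pid K
  have hne : NeZero (((3 : ℕ) : ℚ)) := ⟨by norm_num⟩
  have h2 : IsCyclotomicExtension {3} ℚ (CyclotomicField 3 ℚ) :=
    CyclotomicField.isCyclotomicExtension 3 ℚ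
  have h3 : IsCyclotomicExtension {3 ^ 1} ℚ (CyclotomicField 3 ℚ) := by
    rw [pow_one]
    exact h2
  refine not_dvd_classNumber_cyclotomic (p := 3) (n := 1) (by norm_num)
    (K := CyclotomicField 3 ℚ) ?_ (Nat.le_add_left 1 n) L
  rw [hK (CyclotomicField 3 ℚ)]
  norm_num

/-- the class number of `ℚ(ζ_{5^n})` is prime to `5` -/
theorem not_five_dvd_classNumber {n : ℕ} (L : Type*) [Field L] [NumberField L]
    [IsCyclotomicExtension {5 ^ (n + 1)} ℚ L] : ¬ 5 ∣ classNumber L := by
  have : Fact (Nat.Prime 5) := ⟨Nat.prime_five⟩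
  have hK : ∀ (K : Type) [Field K] [NumberField K] [IsCyclotomicExtension {5} ℚ K],
      classNumber K = 1 := fun K _ _ _ => by
    rw [classNumber_eq_one_iff]
    exact IsCyclotomicExtension.Rat.five_pid K
  have hne : NeZero (((5 : ℕ) : ℚ)) := ⟨by norm_num⟩
  have h2 : IsCyclotomicExtension {5} ℚ (CyclotomicField 5 ℚ) :=
    CyclotomicField.isCyclotomicExtension 5 ℚ
  have h3 : IsCyclotomicExtension {5 ^ 1} ℚ (CyclotomicField 5 ℚ) := by
    rw [pow_one]
    exact h2
  refine not_dvd_classNumber_cyclotomic (p := 5) (n := 1) (by norm_num)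
    (K := CyclotomicField 5 ℚ) ?_ (Nat.le_add_left 1 n) L
  rw [hK (CyclotomicField 5 ℚ)]
  norm_num

end

end Fermat.Agent.Cor.Ambi
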