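import Fermat.Agent.Corollaries.Ambi.NormSurj
import Fermat.Agent.Corollaries.Ambi.Tower

/-!
# Divisibility of the class numbers of cyclotomic fields

`m ∣ n`: the class number of `ℚ(ζ_m)` divides the class number of `ℚ(ζ_n)`.
-/

set_option autoImplicit false
set_option linter.unusedSectionVars false

namespace Fermat.Agent.Cor.Ambi

open IsDedekindDomain NumberField
open Fermat.Agent.CFT.SUnits Fermat.Agent.CFT.ChevMul
open scoped Pointwise nonZeroDivisors

/-- ramification indices over `ℤ` -/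
lemma ramIdx_int_tower {K L : Type*} [Field K] [NumberField K] [Field L] [NumberField L]
    [Algebra K L] (w : HeightOneSpectrum (𝓞 L)) :
    w.asIdeal.ramificationIdx ℤ = (under K w).asIdeal.ramificationIdx ℤ * ramIdx K w := by
  set 𝔮 : Ideal ℤ := w.asIdeal.under ℤ with h𝔮
  have h1 : w.asIdeal.LiesOver 𝔮 := ⟨rfl⟩
  have h2 : (under K w).asIdeal.LiesOver 𝔮 := by
    refine ⟨?_⟩
    rw [h𝔮, under_asIdeal, Ideal.under_under]
  have h3 : 𝔮 ≠ ⊥ := Ideal.under_ne_bot (A := ℤ) w.ne_bot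
  rw [← Ideal.ramificationIdx'_eq_ramificationIdx 𝔮 w.asIdeal h3,
    ← Ideal.ramificationIdx'_eq_ramificationIdx 𝔮 (under K w).asIdeal h3,
    Ideal.ramificationIdx'_algebra_tower' 𝔮 (under K w).asIdeal w.asIdeal]
  rfl

lemma exists_place_above (K : Type*) [Field K] [NumberField K] (p : ℕ) [hp : Fact p.Prime] :
    ∃ w : HeightOneSpectrum (𝓞 K), w.asIdeal.LiesOver (Ideal.span {(p : ℤ)}) := by
  have hmax : (Ideal.span {(p : ℤ)}).IsMaximal := Int.ideal_span_isMaximal_of_prime p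
  obtain ⟨⟨P, h1, h2⟩⟩ := (Ideal.span {(p : ℤ)}).nonempty_primesOver (S := 𝓞 K)
  have h3 : Ideal.span {(p : ℤ)} ≠ ⊥ := by
    rw [Ne, Ideal.span_singleton_eq_bot]
    exact_mod_cast hp.out.ne_zero
  exact ⟨⟨P, h1, Ideal.ne_bot_of_liesOver_of_ne_bot h3 P⟩, h2⟩

/-- one step: `ℚ(ζ_(ℓ n)) / ℚ(ζ_n)` is totally ramified above `ℓ` -/
theorem ramIdx_cyclotomic_step {ℓ n : ℕ} [hℓ : Fact ℓ.Prime] (hn : n ≠ 0) {F L : Type*} [Field F]
    [NumberField F] [Field L] [NumberField L] [Algebra F L] [IsCyclotomicExtension {n} ℚ F]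
    [IsCyclotomicExtension {ℓ * n} ℚ L] (w : HeightOneSpectrum (𝓞 L))
    (hw : w.asIdeal.LiesOver (Ideal.span {(ℓ : ℤ)})) : ramIdx F w = Module.finrank F L := by
  have hl := hℓ.out
  have : NeZero n := ⟨hn⟩
  have : NeZero (ℓ * n) := ⟨mul_ne_zero hl.ne_zero hn⟩
  have hu : (under F w).asIdeal.LiesOver (Ideal.span {(ℓ : ℤ)}) := by
    refine ⟨?_⟩
    rw [hw.over, under_asIdeal, Ideal.under_under]
  have hpr := w.isPrime
  have hpr' := (under F w).isPrime
  have h1 := ramIdx_int_tower (K := F) w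
  have h2 := Module.finrank_mul_finrank ℚ F L
  rw [IsCyclotomicExtension.Rat.finrank n F, IsCyclotomicExtension.Rat.finrank (ℓ * n) L] at h2
  obtain ⟨k, m, hm, hnm⟩ : ∃ k m, ¬ ℓ ∣ m ∧ n = ℓ ^ k * m :=
    ⟨_, _, hl.coprime_iff_not_dvd.mp (Nat.coprime_ordCompl hl hn),
      (Nat.ordProj_mul_ordCompl_eq_self n ℓ).symm⟩
  have h3 : w.asIdeal.ramificationIdx ℤ = ℓ ^ k * (ℓ - 1) :=
    IsCyclotomicExtension.Rat.ramificationIdx_eq (ℓ * n) L w.asIdeal (p := ℓ) (m := m)
      (by rw [hnm]; ring) hm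
  rw [h3] at h1
  have hl1 : 0 < ℓ - 1 := by have := hl.two_le; omega
  have hφ : 0 < Nat.totient n := Nat.totient_pos.mpr (Nat.pos_of_ne_zero hn)
  rcases Nat.eq_zero_or_pos k with rfl | hk
  · have hn' : ¬ ℓ ∣ n := by
      rw [hnm, pow_zero, one_mul]
      exact hm
    rw [IsCyclotomicExtension.Rat.ramificationIdx_eq_of_not_dvd ℓ F (under F w).asIdeal hn',
      pow_zero, one_mul, one_mul] at h1
    rw [Nat.totient_mul (hl.coprime_iff_not_dvd.mpr hn'), Nat.totient_prime hl, mul_comm] at h2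
    rw [← h1]
    exact (Nat.eq_of_mul_eq_mul_right hφ h2).symm
  · obtain ⟨j, rfl⟩ : ∃ j, k = j + 1 := ⟨k - 1, by omega⟩
    have h4 : (under F w).asIdeal.ramificationIdx ℤ = ℓ ^ j * (ℓ - 1) :=
      IsCyclotomicExtension.Rat.ramificationIdx_eq n F (under F w).asIdeal (p := ℓ) (m := m)
        hnm hm
    rw [h4] at h1
    have h5 : 0 < ℓ ^ j * (ℓ - 1) := Nat.mul_pos (pow_pos hl.pos j) hl1
    have h6 : ramIdx F w = ℓ := by
      refine Nat.eq_of_mul_eq_mul_left h5 ?_
      rw [← h1]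
      ring
    have hdvd : ℓ ∣ n := by
      rw [hnm, pow_succ]
      exact ⟨ℓ ^ j * m, by ring⟩
    rw [Nat.totient_mul_of_prime_of_dvd hl hdvd, mul_comm] at h2
    rw [h6]
    exact (Nat.eq_of_mul_eq_mul_right hφ h2).symm

theorem classNumber_dvd_step {ℓ n : ℕ} (hl : ℓ.Prime) (hn : 2 < n) {F L : Type} [Field F]
    [NumberField F] [Field L] [NumberField L] [Algebra F L] [IsCyclotomicExtension {n} ℚ F]
    [IsCyclotomicExtension {ℓ * n} ℚ L] : classNumber F ∣ classNumber L := by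
  have : Fact ℓ.Prime := ⟨hl⟩
  have hn0 : n ≠ 0 := by omega
  have : NeZero n := ⟨hn0⟩
  have : IsTotallyComplex F := IsCyclotomicExtension.Rat.isTotallyComplex F hn
  obtain ⟨w, hw⟩ := exists_place_above L ℓ
  exact classNumber_dvd_of_totallyRamified w (ramIdx_cyclotomic_step hn0 w hw)

theorem classNumber_cyclotomic_dvd_aux {m n : ℕ} (hm : 2 < m) (hn : n ≠ 0) (hmn : m ∣ n)
    (K L : Type) [Field K] [NumberField K] [Field L] [NumberField L]
    [IsCyclotomicExtension {m} ℚ K] [IsCyclotomicExtension {n} ℚ L] :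
    classNumber K ∣ classNumber L := by
  induction n using Nat.strong_induction_on generalizing L with
  | _ n ih =>
    obtain ⟨t, rfl⟩ := hmn
    rcases eq_or_ne t 1 with rfl | ht
    · have h1 : IsCyclotomicExtension {m} ℚ L := by
        rw [← mul_one m]
        infer_instance
      rw [classNumber_congr (IsCyclotomicExtension.algEquiv {m} ℚ K L).toRingEquiv]
    · obtain ⟨ℓ, hl, s, rfl⟩ := Nat.exists_prime_and_dvd ht
      have hms : m * (ℓ * s) = ℓ * (m * s) := by ring
      have hL : IsCyclotomicExtension {ℓ * (m * s)} ℚ L := by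
        rw [← hms]
        infer_instance
      have hs : m * s ≠ 0 := by
        rintro h0
        exact hn (by rw [hms, h0, mul_zero])
      have : NeZero (ℓ * (m * s)) := ⟨mul_ne_zero hl.ne_zero hs⟩
      have : NeZero (m * s) := ⟨hs⟩
      have hζ := IsCyclotomicExtension.zeta_spec (ℓ * (m * s)) ℚ L
      have hζ' := hζ.pow (NeZero.pos _) rfl
      let F := IntermediateField.adjoin ℚ {IsCyclotomicExtension.zeta (ℓ * (m * s)) ℚ L ^ ℓ}
      have hF : IsCyclotomicExtension {m * s} ℚ F :=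
        hζ'.intermediateField_adjoin_isCyclotomicExtension ℚ
      have h2 : 2 < m * s := by
        have : 0 < s := Nat.pos_of_ne_zero fun h0 => hs (by rw [h0, mul_zero])
        exact hm.trans_le (Nat.le_mul_of_pos_right m this)
      have h3 : m * s < m * (ℓ * s) := by
        rw [hms]
        have := hl.two_le
        nlinarith
      exact (ih (m * s) h3 hs ⟨s, rfl⟩ F).trans (classNumber_dvd_step (ℓ := ℓ) (n := m * s) hl h2)

/-- **class numbers of cyclotomic fields**: `h(ℚ(ζ_m))` divides `h(ℚ(ζ_n))` if `m` divides `n`. -/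
theorem classNumber_cyclotomic_dvd {m n : ℕ} (hn : n ≠ 0) (hmn : m ∣ n)
    (K L : Type) [Field K] [NumberField K] [Field L] [NumberField L]
    [IsCyclotomicExtension {m} ℚ K] [IsCyclotomicExtension {n} ℚ L] :
    classNumber K ∣ classNumber L := by
  by_cases hm : 2 < m
  · exact classNumber_cyclotomic_dvd_aux hm hn hmn K L
  · have hm0 : m ≠ 0 := by
      rintro rfl
      exact hn (Nat.eq_zero_of_zero_dvd hmn)
    have : NeZero m := ⟨hm0⟩
    have h1 : Module.finrank ℚ K = 1 := by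
      rw [IsCyclotomicExtension.Rat.finrank m K]
      have h2 : m = 1 ∨ m = 2 := by omega
      rcases h2 with rfl | rfl <;> decide
    have h2 : (⊥ : Subalgebra ℚ K) = ⊤ := Subalgebra.bot_eq_top_of_finrank_eq_one h1
    have e : ℚ ≃ₐ[ℚ] K := (Algebra.botEquivOfInjective (algebraMap ℚ K).injective).symm.trans
      ((Subalgebra.equivOfEq _ _ h2).trans Subalgebra.topEquiv)
    rw [← classNumber_congr e.toRingEquiv, Rat.classNumber_eq]
    exact one_dvd _

end Fermat.Agent.Cor.Ambi
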