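import Fermat.Agent.CFT.SExt
import Fermat.Agent.CFT.Global.ChevMul
import Mathlib.NumberTheory.NumberField.InfinitePlace.Ramification

/-!
# Chevalley's ambiguous class number formula: definitions

`L / K` is a cyclic extension of number fields of prime degree `p`, `σ` a generator of the Galois
group. Divisors are the functions with finite support on the finite places.
-/

set_option autoImplicit false
set_option linter.unusedSectionVars false

namespace Fermat.Agent.Cor.Ambi

open IsDedekindDomain NumberField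
open Fermat.Agent.CFT.SUnits Fermat.Agent.CFT.ChevMul

variable (K L : Type*) [Field K] [NumberField K] [Field L] [NumberField L] [Algebra K L]

/-- the finite places of `K` ramified in `L` -/
def ram : Set (HeightOneSpectrum (𝓞 K)) := {v | ∃ w, under K w = v ∧ ramIdx K (L := L) w ≠ 1}

/-- the number of infinite places of `K` ramified in `L` -/
noncomputable def ramInf : ℕ := Nat.card {v : InfinitePlace K // ¬ v.IsUnramifiedIn L}

variable {K}

lemma finite_extD (D : HeightOneSpectrum (𝓞 K) →₀ ℤ) :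
    (Function.support fun w : HeightOneSpectrum (𝓞 L) => (ramIdx K w : ℤ) * D (under K w)).Finite := by
  classical
  refine Set.Finite.subset (aboveS L D.support).finite_toSet fun w hw => ?_
  rw [Finset.mem_coe, mem_aboveS, Finsupp.mem_support_iff]
  intro h
  rw [Function.mem_support] at hw
  exact hw (by rw [h, mul_zero])

/-- the divisor of `L` of an ideal of `K` -/
noncomputable def extD :
    (HeightOneSpectrum (𝓞 K) →₀ ℤ) →+ (HeightOneSpectrum (𝓞 L) →₀ ℤ) where
  toFun D := Finsupp.ofSupportFinite _ (finite_extD L D)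
  map_zero' := by
    ext w
    change (ramIdx K w : ℤ) * (0 : HeightOneSpectrum (𝓞 K) →₀ ℤ) (under K w) = 0
    rw [Finsupp.zero_apply, mul_zero]
  map_add' D E := by
    ext w
    change (ramIdx K w : ℤ) * (D + E) (under K w) = (ramIdx K w : ℤ) * D (under K w) +
      (ramIdx K w : ℤ) * E (under K w)
    rw [Finsupp.add_apply, mul_add]

variable {L}

lemma extD_apply (D : HeightOneSpectrum (𝓞 K) →₀ ℤ) (w : HeightOneSpectrum (𝓞 L)) :
    extD L D w = ramIdx K w * D (under K w) := rfl

/-- the action of the Galois group on divisors -/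
noncomputable def actD (σ : Gal(L/K)) :
    (HeightOneSpectrum (𝓞 L) →₀ ℤ) →+ (HeightOneSpectrum (𝓞 L) →₀ ℤ) :=
  Finsupp.mapDomain.addMonoidHom (σ • ·)

lemma actD_apply (σ : Gal(L/K)) (D : HeightOneSpectrum (𝓞 L) →₀ ℤ) (w : HeightOneSpectrum (𝓞 L)) :
    actD σ D w = D (σ⁻¹ • w) := by
  have h := Finsupp.mapDomain_apply (MulAction.injective σ) D (σ⁻¹ • w)
  rw [smul_inv_smul] at h
  exact h

lemma actD_div (σ : Gal(L/K)) (x : Lˣ) :
    actD σ (div x : HeightOneSpectrum (𝓞 L) →₀ ℤ) = div (galU σ x) := by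
  ext w
  rw [actD_apply, div_apply, div_apply, ord_galU]

lemma extD_div (x : Kˣ) : extD L (div x : HeightOneSpectrum (𝓞 K) →₀ ℤ) =
    div (Units.map (algebraMap K L : K →* L) x) := by
  ext w
  rw [extD_apply, div_apply, div_apply, ord_algebraMap]

variable (K L)

/-- the divisors fixed by the Galois group -/
def fixD : AddSubgroup (HeightOneSpectrum (𝓞 L) →₀ ℤ) where
  carrier := {D | ∀ (τ : Gal(L/K)) (w : HeightOneSpectrum (𝓞 L)), D (τ • w) = D w}
  zero_mem' _ _ := rfl
  add_mem' hD hE τ w := by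
    rw [Finsupp.add_apply, Finsupp.add_apply, hD, hE]
  neg_mem' hD τ w := by
    rw [Finsupp.neg_apply, Finsupp.neg_apply, hD]

/-- the units of `𝓞 L` as a subgroup of `Lˣ` -/
noncomputable def unitsL : Subgroup Lˣ :=
  ((∅ : Finset (HeightOneSpectrum (𝓞 L))) : Set (HeightOneSpectrum (𝓞 L))).unit L

variable {L}

lemma mem_unitsL (x : Lˣ) : x ∈ unitsL L ↔ (div x : HeightOneSpectrum (𝓞 L) →₀ ℤ) = 0 := by
  rw [unitsL, mem_unit_iff']
  constructor
  · intro h
    ext w
    exact h w (by simp)
  · intro h w _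
    rw [← div_apply, h]
    rfl

/-- `x ↦ x / σ x` -/
noncomputable def del {M : Type*} [CommGroup M] (σ : Monoid.End M) : M →* M where
  toFun x := x / σ x
  map_one' := by rw [map_one, _root_.div_one]
  map_mul' x y := by rw [map_mul, mul_div_mul_comm]

lemma del_apply {M : Type*} [CommGroup M] (σ : Monoid.End M) (x : M) : del σ x = x / σ x := rfl

variable {K}

/-- the generator `σ` as an endomorphism of `Lˣ` -/
noncomputable def sgU (σ : Gal(L/K)) : Monoid.End Lˣ := (galU σ : Lˣ ≃* Lˣ).toMonoidHom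

lemma sgU_apply (σ : Gal(L/K)) (x : Lˣ) : sgU σ x = galU σ x := rfl

variable (K L)

/-- (U) the Herbrand quotient of the units -/
def UnitsStmt (p : ℕ) : Prop := ∀ σ : Gal(L/K), (∀ τ, τ ∈ Subgroup.zpowers σ) →
  ((unitsL L).map (nrm p (sgU σ))).relIndex (fixedIn (unitsL L) (sgU σ)) ≠ 0 ∧
  ((unitsL L).map (del (sgU σ))).relIndex (unitsL L ⊓ (nrm p (sgU σ)).ker) ≠ 0 ∧
  p * ((unitsL L).map (nrm p (sgU σ))).relIndex (fixedIn (unitsL L) (sgU σ)) =
    2 ^ ramInf K L * ((unitsL L).map (del (sgU σ))).relIndex (unitsL L ⊓ (nrm p (sgU σ)).ker)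

/-- (D) the index of the divisors of `K` in the fixed divisors of `L` -/
def DivStmt (p : ℕ) : Prop := (ram K L).Finite ∧
  (extD (K := K) L).range.relIndex (fixD K L) = p ^ (ram K L).ncard

end Fermat.Agent.Cor.Ambi
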