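import Fermat.Agent.Corollaries.Ambi.Main
import Fermat.Agent.Corollaries.Ambi.Div

/-!
# Chevalley's ambiguous class number formula, final statements

`L / K` a Galois extension of number fields of prime degree `p` (every prime `p`, no condition on
`K`), `σ ≠ 1` in the Galois group, `t` the number of finite places and `ρ` the number of infinite
places of `K` ramified in `L`:

`#Cl(L)^σ · p · [E_K : E_K ∩ N Lˣ] = h(K) · p ^ t · 2 ^ ρ`.
-/

set_option autoImplicit false

namespace Fermat.Agent.Cor.Ambi

open IsDedekindDomain NumberField Fermat.Agent.CFT.SUnits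

variable {K L : Type*} [Field K] [NumberField K] [Field L] [NumberField L] [Algebra K L]
  [IsGalois K L] {p : ℕ}

/-- **Chevalley's ambiguous class number formula** (1933) -/
theorem chevalley_formula (hp : p.Prime) (hd : Module.finrank K L = p) {σ : Gal(L/K)}
    (hσ : σ ≠ 1) :
    Nat.card (ambig σ) * p * (normUnits K L).index =
      classNumber K * p ^ (ram K L).ncard * 2 ^ ramInf K L :=
  formula hp hd (divStmt hp hd) hσ

/-- **Chevalley's formula** spelled out -/
theorem chevalley_formula' (hp : p.Prime) (hd : Module.finrank K L = p) {σ : Gal(L/K)}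
    (hσ : σ ≠ 1) (N : Subgroup (𝓞 K)ˣ)
    (hN : ∀ u, u ∈ N ↔ ∃ x : L, Algebra.norm K x = ((u : 𝓞 K) : K)) :
    Nat.card {c : ClassGroup (𝓞 L) //
      ClassGroup.mulEquiv (MulSemiringAction.toRingEquiv Gal(L/K) (𝓞 L) σ) c = c} * p * N.index =
    classNumber K * p ^ {v : HeightOneSpectrum (𝓞 K) | ∃ w : HeightOneSpectrum (𝓞 L),
        w.asIdeal.under (𝓞 K) = v.asIdeal ∧ v.asIdeal.ramificationIdx' w.asIdeal ≠ 1}.ncard *
      2 ^ Nat.card {v : InfinitePlace K // ¬ v.IsUnramifiedIn L} := by
  have h1 : N = normUnits K L := by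
    ext u
    rw [hN, mem_normUnits]
  have h2 : {v : HeightOneSpectrum (𝓞 K) | ∃ w : HeightOneSpectrum (𝓞 L),
      w.asIdeal.under (𝓞 K) = v.asIdeal ∧ v.asIdeal.ramificationIdx' w.asIdeal ≠ 1} =
      ram K L := by
    ext v
    constructor
    · rintro ⟨w, h1, h2⟩
      obtain rfl : under K w = v := HeightOneSpectrum.ext h1
      exact ⟨w, rfl, h2⟩
    · rintro ⟨w, rfl, h2⟩
      exact ⟨w, rfl, h2⟩
  rw [h1, h2]
  exact chevalley_formula hp hd hσ

/-- **Hilbert's theorem 94**, divisibility: if a Galois extension `L / K` of prime degree `p` is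
unramified at all places then `p` divides the class number of `K`. -/
theorem dvd_classNumber_of_unramified (hp : p.Prime) (hd : Module.finrank K L = p)
    (h : ∀ w : HeightOneSpectrum (𝓞 L),
      (w.asIdeal.under (𝓞 K)).ramificationIdx' w.asIdeal = 1)
    [IsUnramifiedAtInfinitePlaces K L] : p ∣ classNumber K := by
  refine dvd_classNumber hp hd (divStmt hp hd) ?_ ?_
  · rw [Set.eq_empty_iff_forall_notMem]
    rintro v ⟨w, -, hw⟩
    exact hw (h w)
  · rw [ramInf, Nat.card_eq_zero]
    exact Or.inl ⟨fun v => v.2 (InfinitePlace.isUnramifiedIn L v.1)⟩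

/-- **Iwasawa**: `L / K` Galois of prime degree `p`, at most one place (finite or infinite) ramified:
if `p` does not divide the class number of `K` then it does not divide the class number of `L`. -/
theorem not_dvd_classNumber_of_le_one (hp : p.Prime) (hd : Module.finrank K L = p)
    (h : (ram K L).ncard + ramInf K L ≤ 1) (hK : ¬ p ∣ classNumber K) : ¬ p ∣ classNumber L :=
  not_dvd_classNumber hp hd (divStmt hp hd) h hK

end Fermat.Agent.Cor.Ambi
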