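import Fermat.Agent.Corollaries.Ambi.Quad
import Fermat.Agent.Corollaries.Siegel.DiscThree

/-!
# Gauss's genus theory for quadratic fields

`L` a quadratic field, `t` the number of primes dividing its discriminant `d`. The number of ideal
classes `c` with `c² = 1` is `2 ^ (t - 1)`, except if `d > 0` and `d` is divisible by a prime
`q ≡ 3 mod 4`: then it is `2 ^ (t - 2)`.
-/

set_option autoImplicit false
set_option linter.unusedSectionVars false

namespace Fermat.Agent.Cor.Ambi

open IsDedekindDomain NumberField Module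
open scoped nonZeroDivisors

/-! ### The infinite place of `ℚ` -/

section Inf

variable {L : Type*} [Field L] [NumberField L]

variable (L) in
/-- the infinite place of `ℚ` is unramified in `L` iff `L` is totally real -/
theorem ramInf_rat :
    ramInf ℚ L = if InfinitePlace.nrComplexPlaces L = 0 then 0 else 1 := by
  classical
  have hreal : ∀ v : InfinitePlace ℚ, v.IsReal := fun v => by
    rw [Subsingleton.elim v Rat.infinitePlace]
    exact Rat.isReal_infinitePlace
  have h1 : ∀ v : InfinitePlace ℚ, v.IsUnramifiedIn L ↔ InfinitePlace.nrComplexPlaces L = 0 := by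
    intro v
    rw [InfinitePlace.nrComplexPlaces, Fintype.card_eq_zero_iff]
    constructor
    · intro h
      refine ⟨fun w => ?_⟩
      have h2 := h w.1 (Subsingleton.elim _ _)
      rw [InfinitePlace.isUnramified_iff] at h2
      rcases h2 with h3 | h3
      · exact InfinitePlace.not_isReal_iff_isComplex.mpr w.2 h3
      · exact InfinitePlace.not_isReal_iff_isComplex.mpr h3 (hreal _)
    · intro h w _
      rw [InfinitePlace.isUnramified_iff]
      left
      by_contra h3
      exact h.false ⟨w, InfinitePlace.not_isReal_iff_isComplex.mp h3⟩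
  rw [ramInf]
  split_ifs with h
  · rw [Nat.card_eq_zero]
    exact Or.inl ⟨fun v => v.2 ((h1 v.1).mpr h)⟩
  · rw [Nat.card_eq_one_iff_unique]
    exact ⟨⟨fun a b => Subtype.ext (Subsingleton.elim _ _)⟩,
      ⟨⟨Rat.infinitePlace, fun h2 => h ((h1 _).mp h2)⟩⟩⟩

variable (L) in
theorem ramInf_rat_of_finrank_two (h2 : Module.finrank ℚ L = 2) :
    ramInf ℚ L = if 0 < discr L then 0 else 1 := by
  classical
  have h1 := InfinitePlace.card_add_two_mul_card_eq_rank L
  have h3 := sign_discr (K := L)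
  rw [h2] at h1
  rw [ramInf_rat]
  rcases Nat.eq_zero_or_pos (InfinitePlace.nrComplexPlaces L) with h0 | h0
  · rw [h0, pow_zero] at h3
    rw [if_pos h0, if_pos (Int.sign_eq_one_iff_pos.mp h3)]
  · have h4 : InfinitePlace.nrComplexPlaces L = 1 := by omega
    rw [h4, pow_one] at h3
    rw [if_neg (by omega), if_neg (not_lt.mpr (Int.sign_eq_neg_one_iff_neg.mp h3).le)]

end Inf

/-! ### Is `-1` a norm? -/

section Norm

variable {L : Type*} [Field L] [NumberField L]

theorem norm_add_mul (h2 : finrank ℚ L = 2) {r : L} {q : ℚ} (hr : r ^ 2 = algebraMap ℚ L q)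
    (hr' : r ∉ Set.range (algebraMap ℚ L)) (x y : ℚ) :
    Algebra.norm ℚ (algebraMap ℚ L x + algebraMap ℚ L y * r) = x ^ 2 - q * y ^ 2 := by
  have h1 := Siegel.sq_eq_of_finrank_two h2 (algebraMap ℚ L x + algebraMap ℚ L y * r)
  have h3 : Algebra.trace ℚ L (algebraMap ℚ L x + algebraMap ℚ L y * r) = 2 * x := by
    rw [map_add, Algebra.trace_algebraMap, ← Algebra.smul_def, map_smul,
      Siegel.trace_eq_zero_of_sq h2 hr hr', h2, smul_zero, add_zero, nsmul_eq_mul, Nat.cast_ofNat]
  rw [h3, map_mul, map_ofNat] at h1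
  apply (algebraMap ℚ L).injective
  rw [map_sub, map_mul, map_pow, map_pow]
  linear_combination h1 - algebraMap ℚ L y ^ 2 * hr

theorem exists_coord (h2 : finrank ℚ L = 2) {r : L} (hr' : r ∉ Set.range (algebraMap ℚ L))
    (z : L) : ∃ x y : ℚ, z = algebraMap ℚ L x + algebraMap ℚ L y * r := by
  let b : Basis (Fin 2) ℚ L := basisOfLinearIndependentOfCardEqFinrank
    (Siegel.linearIndependent_one_of_notMem hr') (by rw [h2, Fintype.card_fin])
  have hb : (b : Fin 2 → L) = ![(1 : L), r] := coe_basisOfLinearIndependentOfCardEqFinrank _ _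
  refine ⟨b.repr z 0, b.repr z 1, ?_⟩
  conv_lhs => rw [← b.sum_repr z]
  rw [Fin.sum_univ_two, hb, Matrix.cons_val_zero, Matrix.cons_val_one, Algebra.smul_def,
    Algebra.smul_def, mul_one]
  rfl

theorem exists_norm_neg_one_iff (h2 : finrank ℚ L = 2) :
    (∃ z : L, Algebra.norm ℚ z = -1) ↔ ∃ x y : ℚ, x ^ 2 - (discr L : ℚ) * y ^ 2 = -1 := by
  obtain ⟨r, hr, hr'⟩ := Siegel.exists_sqrt_discr (K := L) h2
  have hr2 : r ^ 2 = algebraMap ℚ L (discr L : ℚ) := by rw [hr, map_intCast]
  constructor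
  · rintro ⟨z, hz⟩
    obtain ⟨x, y, rfl⟩ := exists_coord h2 hr' z
    exact ⟨x, y, by rw [← hz, norm_add_mul h2 hr2 hr']⟩
  · rintro ⟨x, y, h⟩
    exact ⟨_, (norm_add_mul h2 hr2 hr' x y).trans h⟩

/-- The discriminant of a quadratic field is not divisible by the square of an odd prime. -/
theorem not_sq_dvd_discr (h2 : finrank ℚ L = 2) {q : ℕ} (hq : 2 < q) :
    ¬ ((q : ℤ) ^ 2) ∣ discr L := by
  rintro ⟨m, hm⟩
  obtain ⟨r, hr, hr'⟩ := Siegel.exists_sqrt_discr (K := L) h2
  have hq0 : (q : L) ≠ 0 := by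
    rw [Nat.cast_ne_zero]
    omega
  have h1 : (r / q) ^ 2 = ((m : ℤ) : L) := by
    rw [div_pow, hr, hm, div_eq_iff (pow_ne_zero _ hq0)]
    push_cast
    ring
  have h3 : r / q ∉ Set.range (algebraMap ℚ L) := by
    rintro ⟨c, hc⟩
    apply hr'
    refine ⟨c * q, ?_⟩
    rw [map_mul, hc, map_natCast, div_mul_cancel₀ _ hq0]
  obtain ⟨c, hc, h4⟩ := Siegel.sq_mul_discr h2 h1 h3
  have hm0 : m ≠ 0 := by
    rintro rfl
    rw [mul_zero] at hm
    exact discr_ne_zero L hm
  rw [hm, ← mul_assoc] at h4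
  have h5 : (4 : ℤ) = c ^ 2 * q ^ 2 := mul_right_cancel₀ hm0 h4
  have h6 : 1 ≤ c ^ 2 := by
    have := sq_pos_of_ne_zero hc
    omega
  have h7 : (9 : ℤ) ≤ (q : ℤ) ^ 2 := by
    have : (3 : ℤ) ≤ q := by exact_mod_cast hq
    nlinarith
  nlinarith

end Norm

/-- `x² - D y² = -1` is solvable in rational numbers iff `D > 0` and no prime `q ≡ 3 mod 4` divides
`D` (`D` not divisible by the square of such a prime). -/
theorem exists_rat_neg_pell_iff {D : ℤ} (hD0 : D ≠ 0)
    (hD : ∀ q : ℕ, q.Prime → q % 4 = 3 → ¬ ((q : ℤ) ^ 2) ∣ D) :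
    (∃ x y : ℚ, x ^ 2 - (D : ℚ) * y ^ 2 = -1) ↔
      0 < D ∧ ∀ q : ℕ, q.Prime → q % 4 = 3 → ¬ (q : ℤ) ∣ D := by
  constructor
  · rintro ⟨x, y, h⟩
    refine ⟨?_, ?_⟩
    · by_contra h1
      have h3 : (D : ℚ) ≤ 0 := by exact_mod_cast not_lt.mp h1
      nlinarith [sq_nonneg x, sq_nonneg y, mul_nonneg (neg_nonneg.mpr h3) (sq_nonneg y)]
    · intro q hq h4 hqD
      have hfact : Fact q.Prime := ⟨hq⟩
      have hx : (x.den : ℚ) ≠ 0 := by exact_mod_cast x.den_ne_zero
      have hy : (y.den : ℚ) ≠ 0 := by exact_mod_cast y.den_ne_zero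
      have h5 : (x.num * y.den) ^ 2 + ((x.den : ℤ) * y.den) ^ 2 = D * (y.num * x.den) ^ 2 := by
        have h6 : (((x.num * y.den) ^ 2 + ((x.den : ℤ) * y.den) ^ 2 : ℤ) : ℚ) =
            ((D * (y.num * x.den) ^ 2 : ℤ) : ℚ) := by
          push_cast
          have hx' := Rat.mul_den_eq_num x
          have hy' := Rat.mul_den_eq_num y
          rw [← hx', ← hy']
          linear_combination ((x.den : ℚ) * y.den) ^ 2 * h
        exact_mod_cast h6
      set X := (x.num * y.den).natAbs with hX
      set Z := ((x.den : ℤ) * y.den).natAbs with hZ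
      set Y := (y.num * x.den).natAbs with hY
      have h6 : X ^ 2 + Z ^ 2 = D.natAbs * Y ^ 2 := by
        have h7 := congrArg Int.natAbs h5
        rw [Int.natAbs_mul, Int.natAbs_pow, ← hY] at h7
        rw [← h7]
        zify
        rw [hX, hZ, Int.natCast_natAbs, Int.natCast_natAbs, sq_abs, sq_abs, abs_of_nonneg]
        positivity
      have hZ0 : Z ≠ 0 := by
        rw [hZ, Int.natAbs_ne_zero]
        exact_mod_cast mul_ne_zero x.den_ne_zero y.den_ne_zero
      have hn0 : X ^ 2 + Z ^ 2 ≠ 0 := by positivity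
      have hY0 : Y ≠ 0 := by
        rintro h7
        rw [h7, zero_pow two_ne_zero, mul_zero] at h6
        exact hn0 h6
      have hDn : D.natAbs ≠ 0 := Int.natAbs_ne_zero.mpr hD0
      have h8 := (Nat.eq_sq_add_sq_iff (n := X ^ 2 + Z ^ 2)).mp ⟨X, Z, rfl⟩
      have hqn : q ∣ D.natAbs := Int.natCast_dvd.mp hqD
      have h9 : q ∈ (X ^ 2 + Z ^ 2).primeFactors := by
        rw [Nat.mem_primeFactors]
        exact ⟨hq, by rw [h6]; exact hqn.mul_right _, hn0⟩
      have h10 := h8 q h9 h4
      rw [h6, padicValNat.mul hDn (pow_ne_zero _ hY0), padicValNat.pow] at h10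
      have h11 : padicValNat q D.natAbs = 1 := by
        have h12 : 1 ≤ padicValNat q D.natAbs := one_le_padicValNat_of_dvd hDn hqn
        have h13 : ¬ 2 ≤ padicValNat q D.natAbs := by
          intro h14
          have h15 : q ^ 2 ∣ D.natAbs := (padicValNat_dvd_iff_le hDn).mpr h14
          exact hD q hq h4 (by exact_mod_cast Int.natCast_dvd.mpr h15)
        omega
      rw [h11, Nat.even_add] at h10
      simp at h10
  · rintro ⟨hpos, hq⟩
    have hDn : D.natAbs ≠ 0 := Int.natAbs_ne_zero.mpr hD0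
    have h1 : ∃ a b : ℕ, D.natAbs = a ^ 2 + b ^ 2 := by
      rw [Nat.eq_sq_add_sq_iff]
      intro q hqm h4
      rw [Nat.mem_primeFactors] at hqm
      exact absurd (Int.natCast_dvd.mpr hqm.2.1) (hq q hqm.1 h4)
    have key : ∀ a b : ℕ, D.natAbs = a ^ 2 + b ^ 2 → a ≠ 0 →
        ∃ x y : ℚ, x ^ 2 - (D : ℚ) * y ^ 2 = -1 := by
      intro a b hab ha
      refine ⟨b / a, 1 / a, ?_⟩
      have h3 : (D : ℚ) = a ^ 2 + b ^ 2 := by
        have h4 : D = (a : ℤ) ^ 2 + (b : ℤ) ^ 2 := by
          rw [← abs_of_pos hpos, ← Int.natCast_natAbs, hab]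
          push_cast
          ring
        rw [h4]
        push_cast
        ring
      have ha' : (a : ℚ) ≠ 0 := by exact_mod_cast ha
      rw [h3]
      field_simp
      ring
    obtain ⟨a, b, hab⟩ := h1
    rcases Nat.eq_zero_or_pos a with rfl | ha
    · refine key b 0 (by rw [hab]; ring) ?_
      rintro rfl
      exact hDn (by rw [hab]; rfl)
    · exact key a b hab ha.ne'

/-! ### Gauss's theorem -/

section Gauss

variable {L : Type*} [Field L] [NumberField L]

/-- **`-1` is the norm of an element of a quadratic field `L`** iff `L` is real and its discriminant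
is not divisible by any prime `q ≡ 3 mod 4`. -/
theorem exists_norm_eq_neg_one_iff (h2 : finrank ℚ L = 2) :
    (∃ z : L, Algebra.norm ℚ z = -1) ↔
      0 < discr L ∧ ∀ q : ℕ, q.Prime → q % 4 = 3 → ¬ (q : ℤ) ∣ discr L := by
  rw [exists_norm_neg_one_iff h2]
  refine exists_rat_neg_pell_iff (discr_ne_zero L) fun q hq h4 => not_sq_dvd_discr h2 ?_
  have := hq.two_le
  omega

theorem card_two_torsion_rat (h2 : finrank ℚ L = 2) :
    Nat.card {c : ClassGroup (𝓞 L) // c ^ 2 = 1} * 2 * (normUnits ℚ L).index =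
      2 ^ ((discr L).natAbs.primeFactors.card + if 0 < discr L then 0 else 1) := by
  have : Algebra.IsQuadraticExtension ℚ L := { finrank_eq_two' := h2 }
  rw [card_two_torsion (K := ℚ) (L := L) h2 Rat.classNumber_eq, ncard_ram,
    ramInf_rat_of_finrank_two L h2, pow_add]

/-- **Gauss**: the number of ideal classes of order `≤ 2` of a quadratic field is `2 ^ (t - 1)` if the
discriminant is negative or not divisible by any prime `q ≡ 3 mod 4`. -/
theorem card_sq_eq_one (h2 : finrank ℚ L = 2)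
    (h : discr L < 0 ∨ ∀ q : ℕ, q.Prime → q % 4 = 3 → ¬ (q : ℤ) ∣ discr L) :
    Nat.card {c : ClassGroup (𝓞 L) // c ^ 2 = 1} =
      2 ^ ((discr L).natAbs.primeFactors.card - 1) := by
  have h1 := card_two_torsion_rat h2
  have h0 := discr_ne_zero L
  have h3 : Nat.card {c : ClassGroup (𝓞 L) // c ^ 2 = 1} * 2 =
      2 ^ (discr L).natAbs.primeFactors.card := by
    rcases lt_or_gt_of_ne h0 with hn | hp
    · rw [index_normUnits_eq_two L (fun h3 => absurd ((exists_norm_eq_neg_one_iff h2).mp h3).1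
        (not_lt.mpr hn.le)), if_neg (not_lt.mpr hn.le), pow_succ] at h1
      exact Nat.eq_of_mul_eq_mul_right two_pos h1
    · have h4 := h.resolve_left (not_lt.mpr hp.le)
      rw [index_normUnits_eq_one L ((exists_norm_eq_neg_one_iff h2).mpr ⟨hp, h4⟩), if_pos hp,
        mul_one, add_zero] at h1
      exact h1
  obtain ⟨t, ht⟩ : ∃ t, (discr L).natAbs.primeFactors.card = t + 1 := by
    refine Nat.exists_eq_succ_of_ne_zero fun h4 => ?_
    rw [h4, pow_zero] at h3
    omega
  rw [ht, pow_succ] at h3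
  rw [ht, Nat.add_sub_cancel]
  exact Nat.eq_of_mul_eq_mul_right two_pos h3

/-- **Gauss**: the number of ideal classes of order `≤ 2` of a real quadratic field is `2 ^ (t - 2)` if
a prime `q ≡ 3 mod 4` divides the discriminant. -/
theorem card_sq_eq_one_of_dvd (h2 : finrank ℚ L = 2) (hpos : 0 < discr L) {q : ℕ} (hq : q.Prime)
    (h4 : q % 4 = 3) (hqd : (q : ℤ) ∣ discr L) :
    Nat.card {c : ClassGroup (𝓞 L) // c ^ 2 = 1} =
      2 ^ ((discr L).natAbs.primeFactors.card - 2) := by
  have h1 := card_two_torsion_rat h2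
  rw [index_normUnits_eq_two L (fun h3 => ((exists_norm_eq_neg_one_iff h2).mp h3).2 q hq h4 hqd),
    if_pos hpos, add_zero, mul_assoc] at h1
  obtain ⟨t, ht⟩ : ∃ t, (discr L).natAbs.primeFactors.card = t + 2 := by
    have h3 : 2 ≤ (discr L).natAbs.primeFactors.card := by
      by_contra h3
      have h5 : (discr L).natAbs.primeFactors.card = 0 ∨
        (discr L).natAbs.primeFactors.card = 1 := by omega
      rcases h5 with h5 | h5 <;> rw [h5] at h1 <;> omega
    exact ⟨_, (Nat.sub_add_cancel h3).symm⟩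
  rw [ht, pow_add] at h1
  rw [ht, Nat.add_sub_cancel]
  exact Nat.eq_of_mul_eq_mul_right (show 0 < 2 * 2 by norm_num) h1

/-- In a finite commutative group the index of the squares is the number of `c` with `c² = 1`. -/
theorem index_squares {G : Type*} [CommGroup G] [Finite G] :
    (powMonoidHom 2 : G →* G).range.index = Nat.card {c : G // c ^ 2 = 1} := by
  have h1 := (powMonoidHom 2 : G →* G).range.index_mul_card
  have h2 := (powMonoidHom 2 : G →* G).ker.index_mul_card
  rw [Subgroup.index_ker] at h2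
  have h3 : Nat.card (powMonoidHom 2 : G →* G).ker = Nat.card {c : G // c ^ 2 = 1} := rfl
  have h4 : 0 < Nat.card (powMonoidHom 2 : G →* G).range := Nat.card_pos
  rw [← h3]
  refine Nat.eq_of_mul_eq_mul_right h4 ?_
  rw [h1, ← h2, mul_comm]

/-- A finite commutative group has odd order iff `c² = 1` only for `c = 1`. -/
theorem card_sq_eq_one_iff_odd {G : Type*} [CommGroup G] [Finite G] :
    Nat.card {c : G // c ^ 2 = 1} = 1 ↔ Odd (Nat.card G) := by
  constructor
  · intro h
    by_contra hodd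
    rw [Nat.not_odd_iff_even, even_iff_two_dvd] at hodd
    have hf : Fact (Nat.Prime 2) := ⟨Nat.prime_two⟩
    obtain ⟨c, hc⟩ := exists_prime_orderOf_dvd_card' 2 hodd
    have h1 : c ^ 2 = 1 := by rw [← hc, pow_orderOf_eq_one]
    have h3 : Subsingleton {c : G // c ^ 2 = 1} := (Nat.card_eq_one_iff_unique.mp h).1
    have h4 : (⟨c, h1⟩ : {c : G // c ^ 2 = 1}) = ⟨1, one_pow 2⟩ := Subsingleton.elim _ _
    have h5 : c = 1 := congrArg Subtype.val h4
    rw [h5, orderOf_one] at hc
    omega
  · intro h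
    rw [Nat.card_eq_one_iff_unique]
    refine ⟨⟨fun a b => Subtype.ext ?_⟩, ⟨⟨1, one_pow 2⟩⟩⟩
    have key : ∀ c : G, c ^ 2 = 1 → c = 1 := by
      intro c hc
      have h1 := orderOf_dvd_of_pow_eq_one hc
      have h3 := orderOf_dvd_natCard c
      have h5 : Nat.Coprime 2 (Nat.card G) := (Nat.coprime_two_left).mpr h
      rw [← orderOf_eq_one_iff]
      exact Nat.eq_one_of_dvd_coprimes h5 h1 h3
    rw [key a a.2, key b b.2]

/-- **Gauss**: when is the class number of a quadratic field odd? -/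
theorem odd_classNumber_iff (h2 : finrank ℚ L = 2) :
    Odd (classNumber L) ↔ (discr L).natAbs.primeFactors.card = 1 ∨
      ((discr L).natAbs.primeFactors.card = 2 ∧ 0 < discr L ∧
        ∃ q : ℕ, q.Prime ∧ q % 4 = 3 ∧ (q : ℤ) ∣ discr L) := by
  have hcl : classNumber L = Nat.card (ClassGroup (𝓞 L)) := by
    rw [Nat.card_eq_fintype_card]
    rfl
  rw [hcl, ← card_sq_eq_one_iff_odd]
  have h0 := discr_ne_zero L
  have ht : (discr L).natAbs.primeFactors.card ≠ 0 := by
    have h1 := card_two_torsion_rat h2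
    intro h3
    rw [h3, zero_add] at h1
    rcases lt_or_gt_of_ne h0 with hn | hp
    · rw [index_normUnits_eq_two L (fun h3 => absurd ((exists_norm_eq_neg_one_iff h2).mp h3).1
        (not_lt.mpr hn.le)), if_neg (not_lt.mpr hn.le)] at h1
      omega
    · rw [if_pos hp, pow_zero] at h1
      have h7 : 2 ∣ Nat.card {c : ClassGroup (𝓞 L) // c ^ 2 = 1} * 2 * (normUnits ℚ L).index :=
        (dvd_mul_left 2 _).mul_right _
      rw [h1] at h7
      omega
  by_cases hq : 0 < discr L ∧ ∃ q : ℕ, q.Prime ∧ q % 4 = 3 ∧ (q : ℤ) ∣ discr L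
  · obtain ⟨hpos, q, hq1, hq2, hq3⟩ := hq
    rw [card_sq_eq_one_of_dvd h2 hpos hq1 hq2 hq3, Nat.pow_eq_one]
    have h5 : ¬ 2 = 1 := by norm_num
    constructor
    · rintro (h | h)
      · omega
      · have h6 : (discr L).natAbs.primeFactors.card = 1 ∨
          (discr L).natAbs.primeFactors.card = 2 := by omega
        exact h6.imp id fun h7 => ⟨h7, hpos, q, hq1, hq2, hq3⟩
    · rintro (h | h)
      · right; omega
      · right; omega
  · rw [card_sq_eq_one h2, Nat.pow_eq_one]
    · constructor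
      · rintro (h | h)
        · omega
        · left; omega
      · rintro (h | h)
        · right; omega
        · exact absurd h.2 hq
    · rcases lt_or_gt_of_ne h0 with hn | hp
      · exact Or.inl hn
      · exact Or.inr fun q h1 h3 h5 => hq ⟨hp, q, h1, h3, h5⟩

end Gauss

end Fermat.Agent.Cor.Ambi
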