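import Mathlib.GroupTheory.Index
import Mathlib.Algebra.Group.Subgroup.Finite
import Mathlib.Algebra.Group.Int.Units
import Mathlib.Data.Int.Basic
import Mathlib.Tactic

/-!
# Herbrand quotients: invariance under finite index

`D`, `N` endomorphisms of an abelian group with `D N = N D = 0`, `h₀ = [ker D : im N]`,
`h₁ = [ker N : im D]`. The quotient is the same for a stable subgroup of finite index.
-/

set_option autoImplicit false

namespace Fermat.Agent.Cor.Ambi.Herb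

open AddSubgroup

variable {A : Type*} [AddCommGroup A]

/-- `[ker N ∩ B : D B]` -/
noncomputable def q (D N : A →+ A) (B : AddSubgroup A) : ℕ := (B.map D).relIndex (B ⊓ N.ker)

theorem index_mul_q {D N : A →+ A} (hND : ∀ x, N (D x) = 0) {B : AddSubgroup A}
    (hDB : ∀ x ∈ B, D x ∈ B) :
    B.index * q D N ⊤ = q D N B * (B.relIndex N.ker * B.relIndex D.ker) := by
  have h1 : B.map D ≤ D.range := by
    rintro _ ⟨x, -, rfl⟩
    exact ⟨x, rfl⟩
  have h2 : D.range ≤ N.ker := by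
    rintro _ ⟨x, rfl⟩
    exact hND x
  have h3 : B.map D ≤ B ⊓ N.ker := by
    rintro _ ⟨x, hx, rfl⟩
    exact AddSubgroup.mem_inf.mpr ⟨hDB x hx, hND x⟩
  have h4 := AddSubgroup.relIndex_mul_relIndex _ _ _ h1 h2
  have h5 := AddSubgroup.relIndex_mul_relIndex _ _ _ h3 inf_le_right
  rw [AddSubgroup.inf_relIndex_right] at h5
  have h6 : (B.map D).relIndex D.range = (B ⊔ D.ker).index := by
    rw [AddMonoidHom.range_eq_map, AddSubgroup.relIndex_map_map, top_sup_eq,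
      AddSubgroup.relIndex_top_right]
  have h7 : B.index = B.relIndex D.ker * (B ⊔ D.ker).index := by
    rw [← AddSubgroup.relIndex_mul_index (le_sup_left : B ≤ B ⊔ D.ker),
      AddSubgroup.relIndex_sup_left]
  have h8 : q D N ⊤ = D.range.relIndex N.ker := by
    rw [q, top_inf_eq, ← AddMonoidHom.range_eq_map]
  rw [h8, h7]
  rw [h6, ← h5] at h4
  rw [q]
  calc B.relIndex D.ker * (B ⊔ D.ker).index * D.range.relIndex N.ker
      = B.relIndex D.ker * ((B ⊔ D.ker).index * D.range.relIndex N.ker) := by ring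
    _ = _ := by rw [h4]; ring

/-- **Herbrand quotients and finite index** -/
theorem q_mul_q {D N : A →+ A} (hND : ∀ x, N (D x) = 0) (hDN : ∀ x, D (N x) = 0)
    {B : AddSubgroup A} (hDB : ∀ x ∈ B, D x ∈ B) (hNB : ∀ x ∈ B, N x ∈ B) (hB : B.index ≠ 0) :
    q D N ⊤ * q N D B = q D N B * q N D ⊤ := by
  have h1 := index_mul_q hND hDB
  have h2 := index_mul_q hDN hNB
  have h3 : B.relIndex N.ker ≠ 0 := fun h => hB (AddSubgroup.index_eq_zero_of_relIndex_eq_zero h)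
  have h4 : B.relIndex D.ker ≠ 0 := fun h => hB (AddSubgroup.index_eq_zero_of_relIndex_eq_zero h)
  set a := B.relIndex N.ker
  set b := B.relIndex D.ker
  have hab : 0 < B.index * (a * b) :=
    Nat.pos_of_ne_zero (mul_ne_zero hB (mul_ne_zero h3 h4))
  refine Nat.eq_of_mul_eq_mul_right hab ?_
  calc q D N ⊤ * q N D B * (B.index * (a * b))
      = (B.index * q D N ⊤) * (q N D B * (b * a)) := by ring
    _ = (q D N B * (a * b)) * (B.index * q N D ⊤) := by rw [h1, h2]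
    _ = _ := by ring

/-! ### products with `ℤ` -/

lemma relIndex_prod {B : Type*} [AddCommGroup B] (H H' : AddSubgroup A) (J J' : AddSubgroup B)
    (h1 : H ≤ H') (h2 : J ≤ J') :
    (H.prod J).relIndex (H'.prod J') = H.relIndex H' * J.relIndex J' := by
  have e1 : (H.prod J).relIndex (H'.prod J) = H.relIndex H' := by
    have h3 : H.prod J = (H'.prod J) ⊓ H.comap (AddMonoidHom.fst A B) := by
      ext ⟨x, y⟩
      simp only [AddSubgroup.mem_prod, AddSubgroup.mem_inf, AddSubgroup.mem_comap,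
        AddMonoidHom.coe_fst]
      exact ⟨fun h => ⟨⟨h1 h.1, h.2⟩, h.1⟩, fun h => ⟨h.2, h.1.2⟩⟩
    rw [h3, inf_comm, AddSubgroup.inf_relIndex_right, AddSubgroup.relIndex_comap]
    congr 1
    ext x
    constructor
    · rintro ⟨⟨a, b⟩, h, rfl⟩
      exact (AddSubgroup.mem_prod.mp h).1
    · intro h
      exact ⟨⟨x, 0⟩, AddSubgroup.mem_prod.mpr ⟨h, J.zero_mem⟩, rfl⟩
  have e2 : (H'.prod J).relIndex (H'.prod J') = J.relIndex J' := by
    have h3 : H'.prod J = (H'.prod J') ⊓ J.comap (AddMonoidHom.snd A B) := by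
      ext ⟨x, y⟩
      simp only [AddSubgroup.mem_prod, AddSubgroup.mem_inf, AddSubgroup.mem_comap,
        AddMonoidHom.coe_snd]
      exact ⟨fun h => ⟨⟨h.1, h2 h.2⟩, h.2⟩, fun h => ⟨h.1.1, h.2⟩⟩
    rw [h3, inf_comm, AddSubgroup.inf_relIndex_right, AddSubgroup.relIndex_comap]
    congr 1
    ext x
    constructor
    · rintro ⟨⟨a, b⟩, h, rfl⟩
      exact (AddSubgroup.mem_prod.mp h).2
    · intro h
      exact ⟨⟨0, x⟩, AddSubgroup.mem_prod.mpr ⟨H'.zero_mem, h⟩, rfl⟩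
  rw [← AddSubgroup.relIndex_mul_relIndex (H.prod J) (H'.prod J) (H'.prod J')
    (AddSubgroup.prod_mono h1 le_rfl) (AddSubgroup.prod_mono le_rfl h2), e1, e2]

/-- `D × 0` -/
def dz (D : A →+ A) : A × ℤ →+ A × ℤ := AddMonoidHom.prodMap D 0

/-- `N × n` -/
def nz (N : A →+ A) (n : ℕ) : A × ℤ →+ A × ℤ := AddMonoidHom.prodMap N (nsmulAddMonoidHom n)

theorem q_dz (D N : A →+ A) {n : ℕ} (hn : n ≠ 0) (hND : ∀ x, N (D x) = 0) :
    q (dz D) (nz N n) ⊤ = q D N ⊤ := by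
  rw [q, q, top_inf_eq, top_inf_eq, ← AddMonoidHom.range_eq_map, ← AddMonoidHom.range_eq_map]
  have h1 : (dz D).range = D.range.prod ⊥ := by
    ext ⟨x, y⟩
    rw [AddSubgroup.mem_prod]
    constructor
    · rintro ⟨⟨a, b⟩, h⟩
      have h2 : (D a, (0 : ℤ)) = (x, y) := h
      rw [Prod.mk.injEq] at h2
      exact ⟨⟨a, h2.1⟩, h2.2.symm⟩
    · rintro ⟨⟨a, ha⟩, hy⟩
      refine ⟨(a, 0), ?_⟩
      change (D a, (0 : ℤ)) = (x, y)
      rw [ha, (AddSubgroup.mem_bot.mp hy : y = 0)]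
  have h2 : (nz N n).ker = N.ker.prod ⊥ := by
    ext ⟨x, y⟩
    rw [AddSubgroup.mem_prod, AddMonoidHom.mem_ker]
    change (N x, n • y) = (0, 0) ↔ N x = 0 ∧ y = 0
    rw [Prod.mk.injEq, smul_eq_zero_iff_right hn]
  rw [h1, h2, relIndex_prod _ _ _ _ ?_ le_rfl, AddSubgroup.relIndex_self, mul_one]
  rintro _ ⟨x, rfl⟩
  exact hND x

theorem q_nz (D N : A →+ A) {n : ℕ} (hDN : ∀ x, D (N x) = 0) :
    q (nz N n) (dz D) ⊤ = q N D ⊤ * n := by
  rw [q, q, top_inf_eq, top_inf_eq, ← AddMonoidHom.range_eq_map, ← AddMonoidHom.range_eq_map]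
  have h1 : (nz N n).range = N.range.prod (nsmulAddMonoidHom n : ℤ →+ ℤ).range := by
    ext ⟨x, y⟩
    rw [AddSubgroup.mem_prod]
    constructor
    · rintro ⟨⟨a, b⟩, h⟩
      have h2 : (N a, n • b) = (x, y) := h
      rw [Prod.mk.injEq] at h2
      exact ⟨⟨a, h2.1⟩, ⟨b, h2.2⟩⟩
    · rintro ⟨⟨a, ha⟩, ⟨b, hb⟩⟩
      exact ⟨(a, b), Prod.ext ha hb⟩
  have h2 : (dz D).ker = D.ker.prod ⊤ := by
    ext ⟨x, y⟩
    rw [AddSubgroup.mem_prod, AddMonoidHom.mem_ker]
    change (D x, (0 : ℤ)) = (0, 0) ↔ D x = 0 ∧ y ∈ (⊤ : AddSubgroup ℤ)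
    rw [Prod.mk.injEq]
    exact ⟨fun h => ⟨h.1, trivial⟩, fun h => ⟨h.1, rfl⟩⟩
  have h3 : (nsmulAddMonoidHom n : ℤ →+ ℤ).range = AddSubgroup.zmultiples (n : ℤ) := by
    ext x
    rw [Int.mem_zmultiples_iff]
    constructor
    · rintro ⟨y, rfl⟩
      exact ⟨y, nsmul_eq_mul n y⟩
    · rintro ⟨y, rfl⟩
      exact ⟨y, nsmul_eq_mul n y⟩
  rw [h1, h2, relIndex_prod _ _ _ _ ?_ le_top, AddSubgroup.relIndex_top_right, h3,
    Int.index_zmultiples, Int.natAbs_natCast]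
  rintro _ ⟨x, rfl⟩
  exact hDN x

end Fermat.Agent.Cor.Ambi.Herb
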