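import Fermat.Agent.Corollaries.Ambi.Defs
import Mathlib.GroupTheory.Index

/-!
# Chevalley's ambiguous class number formula: the index calculus

`f : M → I` is the divisor map, `N` the norm, `σ` and `τ` the actions of the generator.
-/

set_option autoImplicit false

namespace Fermat.Agent.Cor.Ambi

variable {M I : Type*} [CommGroup M] [CommGroup I] {f : M →* I}
  {σ : Monoid.End M} {τ : Monoid.End I} {N : M →* M}

lemma map_del (hf : ∀ x, f (σ x) = τ (f x)) (x : M) : f (del σ x) = del τ (f x) := by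
  rw [del_apply, del_apply, map_div, hf]

/-- the ambiguous classes and the fixed divisors -/
theorem relIndex_range_comap (hf : ∀ x, f (σ x) = τ (f x)) (h90 : N.ker = (del σ).range)
    (hI : (del τ).range.comap f = f.ker.comap N) :
    f.range.relIndex (f.range.comap (del τ)) =
      f.range.relIndex (del τ).ker * (f.ker.map N).relIndex (f.ker ⊓ N.range) := by
  set P := f.range with hP
  set D := del τ with hD
  have hFX : D.ker ≤ P.comap D := fun x hx => by
    rw [Subgroup.mem_comap, MonoidHom.mem_ker.mp hx]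
    exact P.one_mem
  have hPX : P ≤ P.comap D := by
    rintro _ ⟨x, rfl⟩
    rw [Subgroup.mem_comap, hD, ← map_del hf]
    exact ⟨_, rfl⟩
  have h1 : P.relIndex (P ⊔ D.ker) = P.relIndex D.ker := Subgroup.relIndex_sup_left _ _
  have h2 : (P ⊔ D.ker).relIndex (P.comap D) = (P.map D).relIndex ((P.comap D).map D) := by
    rw [Subgroup.relIndex_map_map, sup_eq_left.mpr hFX]
  have h3 : (P.comap D).map D = (D.range.comap f).map f := by
    rw [Subgroup.map_comap_eq, Subgroup.map_comap_eq, inf_comm]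
  have h4 : P.map D = (del σ).range.map f := by
    ext y
    constructor
    · rintro ⟨_, ⟨x, rfl⟩, rfl⟩
      exact ⟨_, ⟨x, rfl⟩, map_del hf x⟩
    · rintro ⟨_, ⟨x, rfl⟩, rfl⟩
      exact ⟨_, ⟨x, rfl⟩, (map_del hf x).symm⟩
  have h5 : f.ker ≤ f.ker.comap N := by
    rw [← hI]
    intro x hx
    rw [Subgroup.mem_comap, MonoidHom.mem_ker.mp hx]
    exact Subgroup.one_mem _
  have h6 : N.ker ≤ f.ker.comap N := fun x hx => by
    rw [Subgroup.mem_comap, MonoidHom.mem_ker.mp hx]
    exact Subgroup.one_mem _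
  rw [← Subgroup.relIndex_mul_relIndex P (P ⊔ D.ker) _ le_sup_left (sup_le hPX hFX), h1, h2, h3, h4,
    Subgroup.relIndex_map_map, hI, sup_eq_left.mpr h5]
  congr 1
  have h7 := Subgroup.relIndex_map_map N f.ker (f.ker.comap N)
  rw [sup_eq_left.mpr h6, Subgroup.map_comap_eq, inf_comm N.range] at h7
  rw [h7, h90, sup_comm]

/-- the principal fixed divisors -/
theorem relIndex_map_ker (hf : ∀ x, f (σ x) = τ (f x)) :
    ((del σ).ker.map f).relIndex (f.range ⊓ (del τ).ker) =
      (f.ker.map (del σ)).relIndex (f.ker ⊓ (del σ).range) := by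
  have h1 : f.range ⊓ (del τ).ker = (f.ker.comap (del σ)).map f := by
    ext y
    constructor
    · rintro ⟨⟨x, rfl⟩, hx⟩
      refine ⟨x, ?_, rfl⟩
      change f (del σ x) = 1
      rw [map_del hf]
      exact hx
    · rintro ⟨x, hx, rfl⟩
      refine ⟨⟨x, rfl⟩, ?_⟩
      change del τ (f x) = 1
      rw [← map_del hf]
      exact hx
  have h2 : f.ker ≤ f.ker.comap (del σ) := by
    intro x hx
    change f (del σ x) = 1
    rw [map_del hf, MonoidHom.mem_ker.mp hx, map_one]
  have h3 : (del σ).ker ≤ f.ker.comap (del σ) := fun x hx => by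
    rw [Subgroup.mem_comap, MonoidHom.mem_ker.mp hx]
    exact Subgroup.one_mem _
  have h4 := Subgroup.relIndex_map_map (del σ) f.ker (f.ker.comap (del σ))
  rw [sup_eq_left.mpr h3, Subgroup.map_comap_eq, inf_comm (del σ).range] at h4
  rw [h1, Subgroup.relIndex_map_map, sup_eq_left.mpr h2, h4, sup_comm]

/-- **the index formula** -/
theorem index_formula (hf : ∀ x, f (σ x) = τ (f x)) (h90 : N.ker = (del σ).range)
    (hI : (del τ).range.comap f = f.ker.comap N) {F₀ : Subgroup I} (hF : F₀ ≤ (del τ).ker)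
    (hP : (del σ).ker.map f ≤ F₀) :
    f.range.relIndex (f.range.comap (del τ)) * (f.ker.map (del σ)).relIndex (f.ker ⊓ N.ker) =
      ((del σ).ker.map f).relIndex F₀ * F₀.relIndex (del τ).ker *
        (f.ker.map N).relIndex (f.ker ⊓ N.range) := by
  have h1 := relIndex_map_ker hf
  rw [← h90] at h1
  have h2 : (del σ).ker.map f ≤ f.range ⊓ (del τ).ker := by
    refine le_inf ?_ (hP.trans hF)
    rintro _ ⟨x, -, rfl⟩
    exact ⟨x, rfl⟩
  have h3 := Subgroup.relIndex_mul_relIndex _ _ _ h2 inf_le_right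
  rw [← Subgroup.relIndex_mul_relIndex _ _ _ hP hF, Subgroup.inf_relIndex_right] at h3
  rw [relIndex_range_comap hf h90 hI, ← h1, ← h3]
  ring

end Fermat.Agent.Cor.Ambi
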