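import Fermat.Agent.Corollaries.Ambi.Class

/-!
# Chevalley's ambiguous class number formula: the Herbrand quotient of the units
-/

set_option autoImplicit false
set_option linter.unusedSectionVars false

namespace Fermat.Agent.Cor.Ambi

open IsDedekindDomain NumberField Fermat.Agent.CFT.Chevalley
open Fermat.Agent.CFT.SUnits Fermat.Agent.CFT.ChevMul
open scoped Pointwise nonZeroDivisors

section Mul

variable {M : Type*} [CommGroup M] (p : ℕ) (U : Subgroup M) (σ : Monoid.End M)
  (hU : ∀ x ∈ U, σ x ∈ U)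

include hU in
/-- **Chevalley's lemma**, multiplicatively -/
theorem chevalley_mul (hp : p.Prime) (hσ : ∀ x ∈ U, (σ ^ p) x = x)
    (hker : Nat.card (torsIn p U) ≠ 0) (hidx : (U.map (powMonoidHom p)).relIndex U ≠ 0) :
    ((U.map (nrm p σ)).relIndex (fixedIn U σ)) ^ (p - 1) *
        (Nat.card (torsIn p (fixedIn U σ))) ^ p * (U.map (powMonoidHom p)).relIndex U =
      ((U.map (del σ)).relIndex (U ⊓ (nrm p σ).ker)) ^ (p - 1) *
      (((fixedIn U σ).map (powMonoidHom p)).relIndex (fixedIn U σ)) ^ p *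
        Nat.card (torsIn p U) ∧ (U.map (nrm p σ)).relIndex (fixedIn U σ) ≠ 0 ∧
      (U.map (del σ)).relIndex (U ⊓ (nrm p σ).ker) ≠ 0 := by
  have hσ' := resEnd_pow_eq_one p U σ hU hσ
  have e1 : Nat.card (eker (p : AddMonoid.End (Additive U))) = Nat.card (torsIn p U) := by
    have := card_push U (⊤ ⊓ eker (p : AddMonoid.End (Additive U)))
    rw [push_inf_eker, push_top, top_inf_eq] at this
    exact this.symm
  have e2 : (erange (p : AddMonoid.End (Additive U))).index =
      (U.map (powMonoidHom p)).relIndex U := by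
    rw [← AddSubgroup.relIndex_top_right, erange_natCast_eq, ← relIndex_push, push_map_natCast,
      push_top]
  obtain ⟨h, hh0, hh1, -⟩ := chevalley p hp (resEnd U σ hU) hσ' (by rw [e1]; exact hker)
    (by rw [e2]; exact hidx)
  have e3 : h0 p (resEnd U σ hU) = (U.map (nrm p σ)).relIndex (fixedIn U σ) := by
    rw [h0, ← relIndex_push, push_erange_norm, push_eker]
  have e4 : h1 p (resEnd U σ hU) = (U.map (del σ)).relIndex (U ⊓ (nrm p σ).ker) := by
    rw [h1, ← relIndex_push]
    congr 1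
    · ext x
      rw [mem_push]
      constructor
      · rintro ⟨_, ⟨z, rfl⟩, rfl⟩
        exact ⟨z.toMul, z.toMul.2, rfl⟩
      · rintro ⟨z, hz, rfl⟩
        exact ⟨_, ⟨Additive.ofMul ⟨z, hz⟩, rfl⟩, rfl⟩
    · ext x
      rw [mem_push, Subgroup.mem_inf, MonoidHom.mem_ker]
      constructor
      · rintro ⟨y, hy, rfl⟩
        refine ⟨y.toMul.2, ?_⟩
        rw [← norm_resEnd_apply p U σ hU, mem_eker.mp hy]
        rfl
      · rintro ⟨hx, hx'⟩
        refine ⟨Additive.ofMul ⟨x, hx⟩, ?_, rfl⟩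
        rw [mem_eker]
        apply Additive.toMul.injective
        apply Subtype.ext
        rw [norm_resEnd_apply]
        exact hx'
  have e5 : Nat.card ↥(eker (1 - resEnd U σ hU) ⊓ eker (p : AddMonoid.End (Additive U))) =
      Nat.card (torsIn p (fixedIn U σ)) := by
    rw [← card_push, push_inf_eker, push_eker]
  have e6 : ((eker (1 - resEnd U σ hU)).map (p : AddMonoid.End (Additive U))).relIndex
      (eker (1 - resEnd U σ hU)) =
        ((fixedIn U σ).map (powMonoidHom p)).relIndex (fixedIn U σ) := by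
    rw [← relIndex_push, push_map_natCast, push_eker]
  rw [e1, e2, e3, e4, e5, e6] at h
  rw [e3] at hh0
  rw [e4] at hh1
  exact ⟨h, hh0, hh1⟩

end Mul

section Tors

variable {L : Type*} [Field L] [NumberField L]

lemma torsIn_unitsL {p : ℕ} (hp : p ≠ 0) : torsIn p (unitsL L) = rootsOfUnity p L := by
  ext x
  rw [mem_torsIn, mem_rootsOfUnity]
  exact ⟨fun h => h.2, fun h => ⟨mem_unit_of_pow_eq_one ∅ hp h, h⟩⟩

lemma relIndex_pow_unitsL {p : ℕ} (hp : p ≠ 0) :
    ((unitsL L).map (powMonoidHom p)).relIndex (unitsL L) =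
      p ^ Units.rank L * Nat.card (rootsOfUnity p L) := by
  have h := index_pow_sunits (K := L) ∅ hp
  rw [Finset.card_empty, add_zero] at h
  rw [← h, Subgroup.relIndex]
  congr 1
  ext x
  rw [Subgroup.mem_subgroupOf]
  constructor
  · rintro ⟨y, hy, hxy⟩
    exact ⟨⟨y, hy⟩, Subtype.ext hxy⟩
  · rintro ⟨y, rfl⟩
    exact ⟨y.1, y.2, rfl⟩

lemma card_rootsOfUnity_ne_zero {p : ℕ} (hp : p ≠ 0) : Nat.card (rootsOfUnity p L) ≠ 0 := by
  have : NeZero p := ⟨hp⟩
  exact Nat.card_pos.ne'

end Tors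

variable {K L : Type*} [Field K] [NumberField K] [Field L] [NumberField L] [Algebra K L]

lemma up_injective : Function.Injective (up (K := K) L) := fun _ _ h =>
  Units.ext ((algebraMap K L).injective (congrArg Units.val h))

lemma up_mem_unitsL_iff (y : Kˣ) : up L y ∈ unitsL L ↔ y ∈ unitsL K := by
  rw [mem_unitsL, mem_unitsL, ← extD_div]
  constructor
  · intro h
    have h2 : extM L (Multiplicative.ofAdd (div y : HeightOneSpectrum (𝓞 K) →₀ ℤ)) =
      extM (K := K) L 1 := by
      rw [map_one]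
      exact h
    exact extM_injective h2
  · intro h
    rw [h, map_zero]

lemma fixedIn_eq_map [IsGalois K L] {σ : Gal(L/K)} (hσ : ∀ τ, τ ∈ Subgroup.zpowers σ) :
    fixedIn (unitsL L) (sgU σ) = (unitsL K).map (up L) := by
  ext x
  rw [mem_fixedIn]
  constructor
  · rintro ⟨hx, hx'⟩
    have h1 : x ∈ (del (sgU σ)).ker := by
      rw [MonoidHom.mem_ker, del_apply, hx', div_self']
    rw [ker_del_sgU hσ] at h1
    obtain ⟨y, rfl⟩ := h1
    exact ⟨y, (up_mem_unitsL_iff y).mp hx, rfl⟩
  · rintro ⟨y, hy, rfl⟩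
    refine ⟨(up_mem_unitsL_iff y).mpr hy, ?_⟩
    ext1
    exact AlgEquiv.commutes σ _

open Classical in
lemma ramInf_eq : ramInf K L =
    (Finset.univ.filter fun v : InfinitePlace K => v.IsUnramifiedIn L)ᶜ.card := by
  rw [ramInf, Nat.card_eq_fintype_card, Fintype.card_subtype]
  congr 1
  ext v
  simp

open Classical in
lemma rank_add_one [IsGalois K L] {p : ℕ} (hd : Module.finrank K L = p) :
    ∃ m : ℕ, Units.rank L + 1 = m * p + ramInf K L * (p / 2) ∧
      Units.rank K + 1 = m + ramInf K L := by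
  refine ⟨(Finset.univ.filter fun v : InfinitePlace K => v.IsUnramifiedIn L).card, ?_, ?_⟩
  · rw [rank_add_one_eq, InfinitePlace.card_eq_card_isUnramifiedIn (k := K), hd, ramInf_eq]
  · rw [rank_add_one_eq, ramInf_eq, Finset.card_add_card_compl]

lemma ramInf_eq_zero [IsGalois K L] (h : Odd (Module.finrank K L)) : ramInf K L = 0 := by
  have h1 := IsUnramifiedAtInfinitePlaces_of_odd_finrank (k := K) (K := L) h
  rw [ramInf, Nat.card_eq_zero]
  exact Or.inl ⟨fun v => v.2 (InfinitePlace.isUnramifiedIn L v.1)⟩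

/-- (U) the Herbrand quotient of the units -/
theorem unitsStmt [IsGalois K L] {p : ℕ} (hp : p.Prime) (hd : Module.finrank K L = p) :
    UnitsStmt K L p := by
  intro σ hσ
  have hp0 := hp.ne_zero
  have hσp : σ ^ p = 1 := by
    rw [← hd, ← IsGalois.card_aut_eq_finrank]
    exact pow_card_eq_one'
  have hpow : ∀ (i : ℕ) (x : Lˣ), (((sgU σ ^ i) x : Lˣ) : L) = (σ ^ i) (x : L) := by
    intro i
    induction i with
    | zero => intro x; rfl
    | succ i ih =>
      intro x
      rw [pow_succ, pow_succ]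
      exact ih (sgU σ x)
  have hU : ∀ x ∈ unitsL L, sgU σ x ∈ unitsL L := by
    intro x hx
    rw [mem_unitsL] at hx ⊢
    rw [sgU_apply, ← actD_div, hx, map_zero]
  have hfix : ∀ x ∈ unitsL L, (sgU σ ^ p) x = x := fun x _ => by
    ext1
    rw [hpow, hσp]
    rfl
  have ha := card_rootsOfUnity_ne_zero (L := L) hp0
  have hb := card_rootsOfUnity_ne_zero (L := K) hp0
  obtain ⟨h, h0, h1⟩ := chevalley_mul p (unitsL L) (sgU σ) hU hp hfix
    (by rw [torsIn_unitsL hp0]; exact ha)
    (by rw [relIndex_pow_unitsL hp0]; exact mul_ne_zero (pow_ne_zero _ hp0) ha)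
  refine ⟨h0, h1, ?_⟩
  have e1 : Nat.card (torsIn p (fixedIn (unitsL L) (sgU σ))) = Nat.card (rootsOfUnity p K) := by
    rw [← torsIn_unitsL hp0, fixedIn_eq_map hσ]
    have h2 : torsIn p ((unitsL K).map (up L)) = (torsIn p (unitsL K)).map (up L) := by
      ext x
      rw [mem_torsIn, Subgroup.mem_map, Subgroup.mem_map]
      constructor
      · rintro ⟨⟨y, hy, rfl⟩, hx⟩
        refine ⟨y, (mem_torsIn p).mpr ⟨hy, ?_⟩, rfl⟩
        rw [← map_pow] at hx
        exact up_injective (hx.trans (map_one _).symm)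
      · rintro ⟨y, hy, rfl⟩
        obtain ⟨hy, hy'⟩ := (mem_torsIn p).mp hy
        exact ⟨⟨y, hy, rfl⟩, by rw [← map_pow, hy', map_one]⟩
    rw [h2]
    exact (Nat.card_congr ((torsIn p (unitsL K)).equivMapOfInjective (up L)
      up_injective).toEquiv).symm
  have e2 : ((fixedIn (unitsL L) (sgU σ)).map (powMonoidHom p)).relIndex
      (fixedIn (unitsL L) (sgU σ)) = p ^ Units.rank K * Nat.card (rootsOfUnity p K) := by
    rw [← relIndex_pow_unitsL hp0, fixedIn_eq_map hσ]
    have h2 : ((unitsL K).map (up L)).map (powMonoidHom p) =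
        ((unitsL K).map (powMonoidHom p)).map (up L) := by
      rw [Subgroup.map_map, Subgroup.map_map]
      congr 1
      ext1 x
      exact (map_pow (up L) x p).symm
    rw [h2, Subgroup.relIndex_map_map_of_injective _ _ up_injective]
  rw [e1, e2, torsIn_unitsL hp0, relIndex_pow_unitsL hp0] at h
  set H0 := ((unitsL L).map (nrm p (sgU σ))).relIndex (fixedIn (unitsL L) (sgU σ))
  set H1 := ((unitsL L).map (del (sgU σ))).relIndex (unitsL L ⊓ (nrm p (sgU σ)).ker)
  set a := Nat.card (rootsOfUnity p L)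
  set b := Nat.card (rootsOfUnity p K)
  have key : H0 ^ (p - 1) * p ^ Units.rank L = H1 ^ (p - 1) * p ^ (p * Units.rank K) := by
    refine Nat.eq_of_mul_eq_mul_right (Nat.pos_of_ne_zero (mul_ne_zero (pow_ne_zero p hb) ha)) ?_
    calc H0 ^ (p - 1) * p ^ Units.rank L * (b ^ p * a)
        = H0 ^ (p - 1) * b ^ p * (p ^ Units.rank L * a) := by ring
      _ = H1 ^ (p - 1) * (p ^ Units.rank K * b) ^ p * a := h
      _ = _ := by rw [mul_pow, ← pow_mul, mul_comm (Units.rank K) p]; ring
  obtain ⟨m, hm1, hm2⟩ := rank_add_one (K := K) (L := L) hd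
  rcases hp.eq_two_or_odd' with rfl | hodd
  · -- `p = 2`
    set ρ := ramInf K L
    have h3 : Units.rank L + ρ = 2 * Units.rank K + 1 := by omega
    have h4 : H0 * 2 ^ (Units.rank L + ρ) = H1 * 2 ^ (2 * Units.rank K) * 2 ^ ρ := by
      rw [pow_add, ← mul_assoc]
      congr 1
      simpa using key
    rw [h3, pow_succ] at h4
    refine Nat.eq_of_mul_eq_mul_right (pow_pos (by norm_num : 0 < 2) (2 * Units.rank K)) ?_
    linarith
  · have hρ : ramInf K L = 0 := ramInf_eq_zero (by rw [hd]; exact hodd)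
    rw [hρ] at hm1 hm2 ⊢
    rw [pow_zero, one_mul]
    rw [zero_mul, add_zero] at hm1
    rw [add_zero] at hm2
    have hp1 : p - 1 ≠ 0 := by have := hp.two_le; omega
    have h3 : Units.rank L = (p - 1) + p * Units.rank K := by
      rw [← hm2] at hm1
      have := hp.pos
      obtain ⟨q, rfl⟩ : ∃ q, p = q + 1 := ⟨p - 1, by omega⟩
      have h5 : (Units.rank K + 1) * (q + 1) = (q + 1) * Units.rank K + q + 1 := by ring
      rw [h5] at hm1
      omega
    rw [h3, pow_add, ← mul_assoc, ← mul_pow] at key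
    have h4 := Nat.eq_of_mul_eq_mul_right (pow_pos hp.pos (p * Units.rank K)) key
    rw [mul_comm p H0]
    exact Nat.pow_left_injective hp1 h4

end Fermat.Agent.Cor.Ambi
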