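import Fermat.Agent.Corollaries.Ambi.Formula
import Fermat.Agent.Corollaries.Ambi.Units
import Fermat.Agent.Corollaries.Ambi.Cyclo
import Mathlib.GroupTheory.Perm.Cycle.Type

/-!
# Chevalley's ambiguous class number formula
-/

set_option autoImplicit false
set_option linter.unusedSectionVars false

namespace Fermat.Agent.Cor.Ambi

open IsDedekindDomain NumberField
open Fermat.Agent.CFT.SUnits Fermat.Agent.CFT.ChevMul
open scoped Pointwise nonZeroDivisors

variable {K L : Type*} [Field K] [NumberField K] [Field L] [NumberField L] [Algebra K L]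
  [IsGalois K L] {p : ℕ}

lemma generator (hp : p.Prime) (hd : Module.finrank K L = p) {σ : Gal(L/K)} (hσ : σ ≠ 1) :
    orderOf σ = p ∧ ∀ τ, τ ∈ Subgroup.zpowers σ := by
  have : Fact p.Prime := ⟨hp⟩
  have hcard : Nat.card Gal(L/K) = p := by rw [IsGalois.card_aut_eq_finrank, hd]
  refine ⟨?_, fun τ => mem_zpowers_of_prime_card hcard hσ⟩
  rw [← hcard]
  exact orderOf_eq_card_of_forall_mem_zpowers fun τ => mem_zpowers_of_prime_card hcard hσ

/-- **Chevalley's ambiguous class number formula** -/
theorem formula (hp : p.Prime) (hd : Module.finrank K L = p) (hD : DivStmt K L p) {σ : Gal(L/K)}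
    (hσ : σ ≠ 1) :
    Nat.card (ambig σ) * p * (normUnits K L).index =
      classNumber K * p ^ (ram K L).ncard * 2 ^ ramInf K L := by
  obtain ⟨h1, h2⟩ := generator hp hd hσ
  exact formula_of hp (unitsStmt hp hd) hD h2 h1

lemma exists_ne_one (hp : p.Prime) (hd : Module.finrank K L = p) : ∃ σ : Gal(L/K), σ ≠ 1 := by
  have hcard : Nat.card Gal(L/K) = p := by rw [IsGalois.card_aut_eq_finrank, hd]
  have h1 : Nontrivial Gal(L/K) := by
    rw [← Finite.one_lt_card_iff_nontrivial, hcard]
    exact hp.one_lt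
  exact exists_ne 1

/-- **Hilbert**: if `L / K` is unramified everywhere then `p` divides the class number of `K`. -/
theorem dvd_classNumber (hp : p.Prime) (hd : Module.finrank K L = p) (hD : DivStmt K L p)
    (h1 : ram K L = ∅) (h2 : ramInf K L = 0) : p ∣ classNumber K := by
  obtain ⟨σ, hσ⟩ := exists_ne_one hp hd
  have h := formula hp hd hD hσ
  rw [h1, Set.ncard_empty, h2, pow_zero, pow_zero, mul_one, mul_one] at h
  rw [← h, mul_assoc, mul_left_comm]
  exact dvd_mul_right _ _

lemma actC_iterate (σ : Gal(L/K)) (i : ℕ) (D : Multiplicative (HeightOneSpectrum (𝓞 L) →₀ ℤ)) :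
    (actC σ)^[i] (classOf D) = classOf ((actM σ)^[i] D) := by
  induction i generalizing D with
  | zero => rfl
  | succ i ih => rw [Function.iterate_succ_apply, Function.iterate_succ_apply, ← classOf_actM, ih]

lemma actM_iterate (σ : Gal(L/K)) (i : ℕ) (D : Multiplicative (HeightOneSpectrum (𝓞 L) →₀ ℤ))
    (w : HeightOneSpectrum (𝓞 L)) : ((actM σ)^[i] D).toAdd w = D.toAdd ((σ ^ i)⁻¹ • w) := by
  induction i generalizing D with
  | zero => rw [pow_zero, inv_one, one_smul]; rfl
  | succ i ih =>
    rw [Function.iterate_succ_apply, ih, toAdd_actM, actD_apply, ← mul_smul, pow_succ, mul_inv_rev]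

/-- the class number is congruent to the number of ambiguous classes -/
theorem classNumber_modEq (hp : p.Prime) (hd : Module.finrank K L = p) {σ : Gal(L/K)}
    (hσ : σ ≠ 1) : classNumber L ≡ Nat.card (ambig σ) [MOD p] := by
  classical
  have : Fact p.Prime := ⟨hp⟩
  obtain ⟨hord, -⟩ := generator hp hd hσ
  let f : Function.End (ClassGroup (𝓞 L)) := fun c => actC σ c
  have hpow : ∀ (i : ℕ) (c : ClassGroup (𝓞 L)), (f ^ i) c = (⇑(actC σ))^[i] c := by
    intro i
    induction i with
    | zero => intro c; rfl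
    | succ i ih =>
      intro c
      rw [pow_succ, Function.iterate_succ_apply]
      exact ih (actC σ c)
  have hf : f ^ p ^ 1 = 1 := by
    rw [pow_one]
    refine funext fun c => ?_
    obtain ⟨D, rfl⟩ := classOf_surjective c
    rw [hpow, actC_iterate]
    change _ = classOf D
    congr 1
    apply Multiplicative.toAdd.injective
    ext w
    rw [actM_iterate, ← hord, pow_orderOf_eq_one, inv_one, one_smul]
  have h := Equiv.Perm.card_fixedPoints_modEq hf
  have h2 : Nat.card (ambig σ) = Fintype.card (Function.fixedPoints f) := by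
    rw [← Nat.card_eq_fintype_card]
    rfl
  rw [h2]
  exact h

/-- **Iwasawa**: at most one place ramified, `p ∤ h(K)` implies `p ∤ h(L)`. -/
theorem not_dvd_classNumber (hp : p.Prime) (hd : Module.finrank K L = p) (hD : DivStmt K L p)
    (h1 : (ram K L).ncard + ramInf K L ≤ 1) (hK : ¬ p ∣ classNumber K) : ¬ p ∣ classNumber L := by
  obtain ⟨σ, hσ⟩ := exists_ne_one hp hd
  have h := formula hp hd hD hσ
  intro hL
  have h3 : p ∣ Nat.card (ambig σ) :=
    ((classNumber_modEq hp hd hσ).dvd_iff (dvd_refl p)).mp hL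
  have h4 : p ^ 2 ∣ classNumber K * p ^ (ram K L).ncard * 2 ^ ramInf K L := by
    rw [← h, pow_two]
    exact (mul_dvd_mul h3 (dvd_refl p)).mul_right _
  have h5 : Nat.Coprime (p ^ 2) (classNumber K) :=
    (Nat.Coprime.pow_left 2 ((Nat.Prime.coprime_iff_not_dvd hp).mpr hK))
  rw [mul_assoc] at h4
  have h6 := h5.dvd_of_dvd_mul_left h4
  have h7 : p ^ (ram K L).ncard * 2 ^ ramInf K L ∣ p ∨
      p ^ (ram K L).ncard * 2 ^ ramInf K L ∣ 2 := by
    rcases Nat.eq_zero_or_pos (ramInf K L) with h8 | h8
    · left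
      rw [h8, pow_zero, mul_one]
      calc p ^ (ram K L).ncard ∣ p ^ 1 := pow_dvd_pow p (by omega)
        _ = p := pow_one p
    · right
      have h9 : (ram K L).ncard = 0 := by omega
      have h10 : ramInf K L = 1 := by omega
      rw [h9, h10]
      simp
  rcases h7 with h7 | h7
  · have h8 := Nat.le_of_dvd hp.pos (h6.trans h7)
    have := hp.two_le
    nlinarith
  · have h8 := Nat.le_of_dvd (by norm_num) (h6.trans h7)
    have := hp.two_le
    nlinarith

end Fermat.Agent.Cor.Ambi
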