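import Fermat.Agent.Corollaries.Ambi.Index

/-!
# Chevalley's ambiguous class number formula: `H⁻¹` of the divisors is zero
-/

set_option autoImplicit false
set_option linter.unusedSectionVars false

namespace Fermat.Agent.Cor.Ambi

open IsDedekindDomain NumberField
open Fermat.Agent.CFT.SUnits Fermat.Agent.CFT.ChevMul
open scoped Pointwise

variable {K L : Type*} [Field K] [NumberField K] [Field L] [NumberField L] [Algebra K L]

/-- the divisor map, multiplicatively -/
noncomputable def dvm (L : Type*) [Field L] [NumberField L] :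
    Lˣ →* Multiplicative (HeightOneSpectrum (𝓞 L) →₀ ℤ) where
  toFun x := Multiplicative.ofAdd (div x)
  map_one' := by
    rw [CFT.SUnits.div_one]
    rfl
  map_mul' x y := by
    rw [CFT.SUnits.div_mul]
    rfl

lemma toAdd_dvm (x : Lˣ) : (dvm L x).toAdd = div x := rfl

/-- the action on divisors, multiplicatively -/
noncomputable def actM (σ : Gal(L/K)) : Monoid.End (Multiplicative (HeightOneSpectrum (𝓞 L) →₀ ℤ)) :=
  AddMonoidHom.toMultiplicative (actD σ)

lemma toAdd_actM (σ : Gal(L/K)) (D : Multiplicative (HeightOneSpectrum (𝓞 L) →₀ ℤ)) :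
    (actM σ D).toAdd = actD σ D.toAdd := rfl

lemma dvm_sgU (σ : Gal(L/K)) (x : Lˣ) : dvm L (sgU σ x) = actM σ (dvm L x) := by
  apply Multiplicative.toAdd.injective
  rw [toAdd_dvm, toAdd_actM, toAdd_dvm, actD_div, sgU_apply]

lemma ker_dvm : (dvm L).ker = unitsL L := by
  ext x
  rw [mem_unitsL, MonoidHom.mem_ker]
  exact Iff.rfl

lemma exists_smul_eq [IsGalois K L] {w w' : HeightOneSpectrum (𝓞 L)}
    (h : under K w = under K w') : ∃ g : Gal(L/K), g • w = w' := by
  obtain ⟨g, hg⟩ := Algebra.IsInvariant.exists_smul_of_under_eq (𝓞 K) (𝓞 L) Gal(L/K)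
    w.asIdeal w'.asIdeal (congrArg HeightOneSpectrum.asIdeal h)
  exact ⟨g, HeightOneSpectrum.ext hg.symm⟩

/-- `(1 - σ) D` -/
noncomputable def bdr (σ : Gal(L/K)) : AddSubgroup (HeightOneSpectrum (𝓞 L) →₀ ℤ) :=
  (AddMonoidHom.id _ - actD σ).range

lemma mem_bdr {σ : Gal(L/K)} {D : HeightOneSpectrum (𝓞 L) →₀ ℤ} :
    D ∈ bdr σ ↔ ∃ E, E - actD σ E = D := Iff.rfl

lemma mem_range_del_actM {σ : Gal(L/K)} {D : Multiplicative (HeightOneSpectrum (𝓞 L) →₀ ℤ)} :
    D ∈ (del (actM σ)).range ↔ D.toAdd ∈ bdr σ := Iff.rfl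

lemma actD_single (σ : Gal(L/K)) (w : HeightOneSpectrum (𝓞 L)) (n : ℤ) :
    actD σ (Finsupp.single w n) = Finsupp.single (σ • w) n :=
  Finsupp.mapDomain_single

lemma single_smul_sub_mem {σ : Gal(L/K)} (hσ : ∀ τ, τ ∈ Subgroup.zpowers σ) (g : Gal(L/K))
    (w : HeightOneSpectrum (𝓞 L)) (n : ℤ) :
    Finsupp.single w n - Finsupp.single (g • w) n ∈ bdr σ := by
  obtain ⟨k, rfl⟩ := mem_powers_iff_mem_zpowers.mpr (hσ g)
  induction k with
  | zero =>
    simp only [pow_zero, one_smul, sub_self]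
    exact (bdr σ).zero_mem
  | succ k ih =>
    have h1 : Finsupp.single (σ ^ k • w) n - Finsupp.single (σ ^ (k + 1) • w) n ∈ bdr σ := by
      refine ⟨Finsupp.single (σ ^ k • w) n, ?_⟩
      change _ - actD σ _ = _
      rw [actD_single, ← mul_smul, ← pow_succ']
      rfl
    have h2 := (bdr σ).add_mem ih h1
    simpa using h2

/-- a place above each place -/
noncomputable def sec (v : HeightOneSpectrum (𝓞 K)) : HeightOneSpectrum (𝓞 L) :=
  (under_surjective L v).choose

lemma under_sec (v : HeightOneSpectrum (𝓞 K)) : under K (sec (L := L) v) = v :=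
  (under_surjective L v).choose_spec

lemma sub_sec_mem [IsGalois K L] {σ : Gal(L/K)} (hσ : ∀ τ, τ ∈ Subgroup.zpowers σ)
    (D : HeightOneSpectrum (𝓞 L) →₀ ℤ) :
    D - Finsupp.mapDomain.addMonoidHom (sec (L := L)) (Finsupp.mapDomain (under K) D) ∈ bdr σ := by
  induction D using Finsupp.induction_linear with
  | zero => simp [(bdr σ).zero_mem]
  | add D E hD hE =>
    have h := (bdr σ).add_mem hD hE
    rw [Finsupp.mapDomain_add, map_add]
    rw [add_sub_add_comm]
    exact h
  | single w n =>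
    rw [Finsupp.mapDomain_single]
    change _ - Finsupp.mapDomain _ _ ∈ _
    rw [Finsupp.mapDomain_single]
    obtain ⟨g, hg⟩ := exists_smul_eq (K := K) (under_sec (L := L) (under K w)).symm
    rw [← hg]
    exact single_smul_sub_mem hσ g w n

lemma mapDomain_actD (σ : Gal(L/K)) (D : HeightOneSpectrum (𝓞 L) →₀ ℤ) :
    Finsupp.mapDomain (under K) (actD σ D) = Finsupp.mapDomain (under K) D := by
  change Finsupp.mapDomain (under K) (Finsupp.mapDomain (σ • ·) D) = _
  rw [← Finsupp.mapDomain_comp]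
  congr 1
  funext w
  exact under_smul σ w

lemma toAdd_dvm_pow (σ : Gal(L/K)) (i : ℕ) (x : Lˣ) :
    (dvm L ((sgU σ ^ i) x)).toAdd = (actD σ)^[i] (div x) := by
  induction i generalizing x with
  | zero => rfl
  | succ i ih =>
    rw [pow_succ, Function.iterate_succ_apply, actD_div]
    exact ih (sgU σ x)

lemma mapDomain_iterate (σ : Gal(L/K)) (i : ℕ) (D : HeightOneSpectrum (𝓞 L) →₀ ℤ) :
    Finsupp.mapDomain (under K) ((actD σ)^[i] D) = Finsupp.mapDomain (under K) D := by
  induction i generalizing D with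
  | zero => rfl
  | succ i ih => rw [Function.iterate_succ_apply, ih, mapDomain_actD]

lemma toAdd_dvm_nrm (σ : Gal(L/K)) (p : ℕ) (x : Lˣ) :
    (dvm L (nrm p (sgU σ) x)).toAdd = ∑ i ∈ Finset.range p, (actD σ)^[i] (div x) := by
  rw [nrm_apply, map_prod, toAdd_prod]
  exact Finset.sum_congr rfl fun i _ => toAdd_dvm_pow σ i x

/-- **`H⁻¹` of the divisors is zero** -/
theorem comap_range_eq [IsGalois K L] {p : ℕ} (hp : p ≠ 0) {σ : Gal(L/K)} (hσp : σ ^ p = 1)
    (hσ : ∀ τ, τ ∈ Subgroup.zpowers σ) :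
    (del (actM σ)).range.comap (dvm L) = (dvm L).ker.comap (nrm p (sgU σ)) := by
  ext x
  rw [Subgroup.mem_comap, Subgroup.mem_comap, MonoidHom.mem_ker, mem_range_del_actM]
  have key : dvm L (nrm p (sgU σ) x) = 1 ↔ ∑ i ∈ Finset.range p, (actD σ)^[i] (div x) = 0 := by
    rw [← toAdd_dvm_nrm]
    exact Iff.rfl
  rw [key]
  constructor
  · rintro ⟨E, hE⟩
    have h1 : (div x : HeightOneSpectrum (𝓞 L) →₀ ℤ) = E - actD σ E := hE.symm
    have h2 : ∀ (i : ℕ) (A B : HeightOneSpectrum (𝓞 L) →₀ ℤ),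
        (actD σ)^[i] (A - B) = (actD σ)^[i] A - (actD σ)^[i] B := by
      intro i
      induction i with
      | zero => intro A B; rfl
      | succ i ih =>
        intro A B
        rw [Function.iterate_succ_apply, map_sub, ih]
        rfl
    have h3 : ∀ (i : ℕ) (A : HeightOneSpectrum (𝓞 L) →₀ ℤ) (w : HeightOneSpectrum (𝓞 L)),
        (actD σ)^[i] A w = A ((σ ^ i)⁻¹ • w) := by
      intro i
      induction i with
      | zero => intro A w; simp
      | succ i ih =>
        intro A w
        rw [Function.iterate_succ_apply, ih, actD_apply, ← mul_smul, pow_succ, mul_inv_rev]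
    have h4 : (actD σ)^[p] E = E := by
      ext w
      rw [h3, hσp, inv_one, one_smul]
    rw [h1]
    simp_rw [h2, ← Function.iterate_succ_apply]
    rw [Finset.sum_range_sub', h4]
    simp
  · intro h
    have h1 := congrArg (Finsupp.mapDomain.addMonoidHom (under K)) h
    rw [map_sum, map_zero] at h1
    have h2 : ∀ i ∈ Finset.range p, Finsupp.mapDomain.addMonoidHom (under K)
        ((actD σ)^[i] (div x)) = Finsupp.mapDomain (under K) (div x) :=
      fun i _ => mapDomain_iterate σ i _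
    rw [Finset.sum_congr rfl h2, Finset.sum_const, Finset.card_range] at h1
    have h3 := (smul_eq_zero_iff_right hp).mp h1
    have h4 := sub_sec_mem hσ (div x : HeightOneSpectrum (𝓞 L) →₀ ℤ)
    rw [h3, map_zero, sub_zero] at h4
    exact h4

end Fermat.Agent.Cor.Ambi
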