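import Fermat.Agent.Corollaries.Ambi.NarrowIndex
import Fermat.Agent.Corollaries.Ambi.Main
import Fermat.Agent.Corollaries.Diff.Narrow

/-!
# The number of genera

`L` a quadratic field, `t` the number of primes dividing its discriminant. The number of narrow ideal
classes `c` with `c² = 1`, and hence the index of the squares in the narrow class group, is
`2 ^ (t - 1)`. If `t = 1` and `L` is real then `L` has a unit of norm `-1`.
-/

set_option autoImplicit false
set_option linter.unusedSectionVars false

namespace Fermat.Agent.Cor.Ambi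

open IsDedekindDomain NumberField Module
open Fermat.Agent.CFT.SUnits Fermat.Agent.CFT.ChevMul
open Fermat.Agent.Cor.Diff (NarrowClassGroup nclassOf nclassOf_surjective nclassOf_eq_one_iff totPos)
open scoped nonZeroDivisors

variable {L : Type*} [Field L] [NumberField L]

lemma ker_nclassOf : (nclassOf (K := L)).ker = (dvP L).range := by
  ext D
  rw [MonoidHom.mem_ker, nclassOf_eq_one_iff]
  constructor
  · rintro ⟨x, hx, hxD⟩
    exact ⟨⟨x, hx⟩, Multiplicative.toAdd.injective hxD⟩
  · rintro ⟨x, rfl⟩
    exact ⟨x.1, x.2, rfl⟩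

theorem relIndex_eq_card_narrow [IsGalois ℚ L] {σ : Gal(L/ℚ)}
    (hσ : ∀ τ, τ ∈ Subgroup.zpowers σ) (h2 : finrank ℚ L = 2) :
    (dvP L).range.relIndex ((dvP L).range.comap (del (actM σ))) =
      Nat.card {c : NarrowClassGroup L // c ^ 2 = 1} := by
  have h1 : (dvP L).range.comap (del (actM σ)) =
      ((powMonoidHom 2 : NarrowClassGroup L →* NarrowClassGroup L).ker).comap nclassOf := by
    ext D
    rw [mem_comap_del_iff hσ h2, ← ker_nclassOf, Subgroup.mem_comap, MonoidHom.mem_ker,
      MonoidHom.mem_ker, map_pow, powMonoidHom_apply]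
  have h3 : (dvP L).range = (⊥ : Subgroup (NarrowClassGroup L)).comap nclassOf := by
    rw [← ker_nclassOf]
    rfl
  rw [h1]
  conv_lhs => rw [h3]
  rw [Subgroup.relIndex_comap, Subgroup.relIndex_bot_left,
    Subgroup.map_comap_eq_self_of_surjective nclassOf_surjective]
  rfl

theorem card_narrow_mul_two (h2 : finrank ℚ L = 2) :
    Nat.card {c : NarrowClassGroup L // c ^ 2 = 1} * 2 =
      2 ^ (discr L).natAbs.primeFactors.card := by
  have : Algebra.IsQuadraticExtension ℚ L := { finrank_eq_two' := h2 }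
  obtain ⟨σ, hσ⟩ := exists_ne_one (K := ℚ) (L := L) Nat.prime_two h2
  obtain ⟨hord, hgen⟩ := generator Nat.prime_two h2 hσ
  rw [← relIndex_eq_card_narrow hgen h2]
  exact two_mul_relIndex hgen h2 hord (squaresStmt h2)

/-- **Gauss**: the number of narrow ideal classes of order `≤ 2` of a quadratic field is
`2 ^ (t - 1)`, `t` the number of primes dividing the discriminant. -/
theorem card_narrow_sq_eq_one (h2 : finrank ℚ L = 2) :
    Nat.card {c : NarrowClassGroup L // c ^ 2 = 1} =
      2 ^ ((discr L).natAbs.primeFactors.card - 1) := by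
  have h3 := card_narrow_mul_two h2
  obtain ⟨t, ht⟩ : ∃ t, (discr L).natAbs.primeFactors.card = t + 1 := by
    refine Nat.exists_eq_succ_of_ne_zero fun h4 => ?_
    rw [h4, pow_zero] at h3
    omega
  rw [ht, pow_succ] at h3
  rw [ht, Nat.add_sub_cancel]
  exact Nat.eq_of_mul_eq_mul_right two_pos h3

/-- **Gauss: the number of genera.** The squares have index `2 ^ (t - 1)` in the narrow class group
of a quadratic field. -/
theorem index_squares_narrow (h2 : finrank ℚ L = 2) :
    (powMonoidHom 2 : NarrowClassGroup L →* NarrowClassGroup L).range.index =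
      2 ^ ((discr L).natAbs.primeFactors.card - 1) := by
  rw [index_squares, card_narrow_sq_eq_one h2]

/-- The narrow class number of a quadratic field is odd iff its discriminant is divisible by only one
prime. -/
theorem odd_card_narrow_iff (h2 : finrank ℚ L = 2) :
    Odd (Nat.card (NarrowClassGroup L)) ↔ (discr L).natAbs.primeFactors.card = 1 := by
  rw [← card_sq_eq_one_iff_odd]
  have h3 := card_narrow_mul_two h2
  constructor
  · intro h
    rw [h, one_mul] at h3
    exact (Nat.pow_right_injective le_rfl ((pow_one 2).trans h3)).symm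
  · intro h
    rw [h, pow_one] at h3
    omega

/-- **A real quadratic field whose discriminant is divisible by only one prime** (`d = 8` or `d = p`
prime, `p ≡ 1 mod 4`) **has a unit of norm `-1`.** -/
theorem exists_unit_norm_neg_one (h2 : finrank ℚ L = 2) (hpos : 0 < discr L)
    (ht : (discr L).natAbs.primeFactors.card = 1) :
    ∃ u : (𝓞 L)ˣ, Algebra.norm ℚ ((u : 𝓞 L) : L) = -1 := by
  have : Algebra.IsQuadraticExtension ℚ L := { finrank_eq_two' := h2 }
  obtain ⟨σ, hσ⟩ := exists_ne_one (K := ℚ) (L := L) Nat.prime_two h2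
  obtain ⟨hord, hgen⟩ := generator Nat.prime_two h2 hσ
  obtain ⟨r, hr, hr'⟩ := Siegel.exists_sqrt_discr (K := L) h2
  obtain ⟨φ⟩ := exists_real_of_pos h2 hpos
  have hr0 : r ≠ 0 := by
    rintro rfl
    exact hr' ⟨0, map_zero _⟩
  set x : Lˣ := Units.mk0 r hr0 with hx
  -- the narrow class of `√d`
  have hsq : nclassOf (dvm L x) ^ 2 = 1 := by
    rw [← map_pow, ← map_pow, nclassOf_eq_one_iff]
    refine ⟨x ^ 2, fun ψ => ?_, rfl⟩
    rw [Units.val_pow_eq_pow_val, map_pow]
    have h5 : ψ ((x : Lˣ) : L) ≠ 0 := (map_ne_zero_iff ψ ψ.injective).mpr x.ne_zero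
    positivity
  have hone : nclassOf (dvm L x) = 1 := by
    have hodd := (card_sq_eq_one_iff_odd).mpr ((odd_card_narrow_iff h2).mpr ht)
    have hsub : Subsingleton {c : NarrowClassGroup L // c ^ 2 = 1} :=
      (Nat.card_eq_one_iff_unique.mp hodd).1
    have h4 : (⟨_, hsq⟩ : {c : NarrowClassGroup L // c ^ 2 = 1}) = ⟨1, one_pow 2⟩ :=
      Subsingleton.elim _ _
    exact congrArg Subtype.val h4
  obtain ⟨y, hy, hyx⟩ := (nclassOf_eq_one_iff _).mp hone
  have hdiv : y / x ∈ (inU L).range := by
    rw [← mem_unitsL_iff, ← ker_dvm, MonoidHom.mem_ker, map_div, div_eq_one]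
    exact Multiplicative.toAdd.injective hyx
  obtain ⟨u, hu⟩ := hdiv
  refine ⟨u, ?_⟩
  have h1 : (y : L) = ((u : 𝓞 L) : L) * r := by
    have h3 : y = inU L u * x := by rw [hu, div_mul_cancel]
    exact congrArg Units.val h3
  have hN : Algebra.norm ℚ r = -(discr L : ℚ) := by
    have h3 := norm_add_mul h2 (r := r) (q := (discr L : ℚ)) (by rw [hr, map_intCast]) hr' 0 1
    rw [map_zero, map_one, one_mul, zero_add] at h3
    rw [h3]
    ring
  have hy1 : 0 < Algebra.norm ℚ (y : L) := by
    have h3 := algebraMap_norm hgen hord y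
    have h4 := congrArg φ h3
    rw [map_mul, eq_ratCast, map_ratCast] at h4
    have h5 : 0 < φ (y : L) * φ (σ (y : L)) := mul_pos (hy φ) (hy (φ.comp (σ : L →+* L)))
    rw [h4] at h5
    exact_mod_cast h5
  have hu1 : |Algebra.norm ℚ ((u : 𝓞 L) : L)| = 1 := by
    have h3 := (NumberField.isUnit_iff_norm (K := L)).mp u.isUnit
    exact h3
  rw [h1, map_mul, hN] at hy1
  have hd : (0 : ℚ) < discr L := by exact_mod_cast hpos
  rcases (abs_eq zero_le_one).mp hu1 with h3 | h3
  · rw [h3] at hy1
    linarith
  · exact h3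

end Fermat.Agent.Cor.Ambi
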