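import Fermat.Agent.Corollaries.Ambi.Genus

/-!
# The narrow class group of a quadratic field: the index computation

`L` a quadratic field, `σ ≠ 1` in its Galois group. The index formula is applied to the group
`posU L` of the totally positive elements of `L`.
-/

set_option autoImplicit false
set_option linter.unusedSectionVars false

namespace Fermat.Agent.Cor.Ambi

open IsDedekindDomain NumberField Module
open Fermat.Agent.CFT.SUnits Fermat.Agent.CFT.ChevMul
open scoped Pointwise nonZeroDivisors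

/-! ### Cyclic groups -/

/-- In an infinite cyclic group the squares have index two. -/
theorem index_squares_of_infinite {G : Type*} [CommGroup G] [IsCyclic G] [Infinite G] :
    (powMonoidHom 2 : G →* G).range.index = 2 := by
  obtain ⟨g, hg⟩ := IsCyclic.exists_generator (α := G)
  have hord : orderOf g = 0 := by
    rw [Infinite.orderOf_eq_zero_of_forall_mem_zpowers hg]
  have hinj : ∀ n : ℤ, g ^ n = 1 → n = 0 := by
    intro n hn
    have h1 := orderOf_dvd_iff_zpow_eq_one.mpr hn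
    rw [hord] at h1
    exact zero_dvd_iff.mp (by exact_mod_cast h1)
  rw [Subgroup.index_eq_two_iff]
  refine ⟨g, fun b => ?_⟩
  obtain ⟨n, rfl⟩ := hg b
  have hmem : ∀ m : ℤ, g ^ m ∈ (powMonoidHom 2 : G →* G).range ↔ Even m := by
    intro m
    constructor
    · rintro ⟨x, hx⟩
      obtain ⟨k, rfl⟩ := hg x
      have h1 : g ^ (k * 2 - m) = 1 := by
        rw [zpow_sub, mul_inv_eq_one, ← hx, mul_two, zpow_add, ← pow_two]
        rfl
      have h2 := hinj _ h1
      exact ⟨k, by omega⟩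
    · rintro ⟨k, rfl⟩
      refine ⟨g ^ k, ?_⟩
      rw [powMonoidHom_apply, pow_two, zpow_add]
  have h1 : g ^ n * g = g ^ (n + 1) := by rw [zpow_add, zpow_one]
  change Xor (g ^ n * g ∈ _) (g ^ n ∈ _)
  rw [h1, hmem, hmem]
  rcases Int.even_or_odd n with h | h
  · exact Or.inr ⟨h, by rw [Int.even_add_one]; exact fun h2 => h2 h⟩
  · exact Or.inl ⟨h.add_one, Int.not_even_iff_odd.mpr h⟩

/-! ### Totally positive elements -/

lemma pos_iff_neg_of_mul_neg' {a b : ℝ} (h : 0 < a * b) (ha : a < 0) : b < 0 := by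
  by_contra hb
  nlinarith [mul_nonneg (neg_pos.mpr ha).le (not_lt.mp hb)]

lemma pos_of_mul_pos_of_pos' {a b : ℝ} (h : 0 < a * b) (ha : 0 < a) : 0 < b :=
  (pos_iff_pos_of_mul_pos h).mp ha

section Pos

variable (L : Type*) [Field L] [NumberField L]

/-- the totally positive elements -/
def posU : Subgroup Lˣ where
  carrier := {x | ∀ φ : L →+* ℝ, 0 < φ x}
  one_mem' φ := by rw [Units.val_one, map_one]; exact one_pos
  mul_mem' {x y} hx hy φ := by
    rw [Units.val_mul, map_mul]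
    exact mul_pos (hx φ) (hy φ)
  inv_mem' {x} hx φ := by
    rw [Units.val_inv_eq_inv_val, map_inv₀]
    exact inv_pos.mpr (hx φ)

variable {L}

lemma mem_posU {x : Lˣ} : x ∈ posU L ↔ ∀ φ : L →+* ℝ, 0 < φ x := Iff.rfl

lemma sgU_mem_posU (σ : Gal(L/ℚ)) {x : Lˣ} (hx : x ∈ posU L) : sgU σ x ∈ posU L := fun φ =>
  hx (φ.comp (σ : L →+* L))

/-- the action on the totally positive elements -/
noncomputable def sgP (σ : Gal(L/ℚ)) : Monoid.End (posU L) where
  toFun x := ⟨sgU σ x, sgU_mem_posU σ x.2⟩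
  map_one' := Subtype.ext (map_one _)
  map_mul' _ _ := Subtype.ext (map_mul _ _ _)

lemma coe_sgP (σ : Gal(L/ℚ)) (x : posU L) : ((sgP σ x : posU L) : Lˣ) = sgU σ (x : Lˣ) := rfl

variable (L) in
/-- the divisors of the totally positive elements -/
noncomputable def dvP : posU L →* Multiplicative (HeightOneSpectrum (𝓞 L) →₀ ℤ) :=
  (dvm L).comp (posU L).subtype

lemma dvP_apply (x : posU L) : dvP L x = dvm L (x : Lˣ) := rfl

lemma nrm_two {M : Type*} [CommGroup M] (s : Monoid.End M) (x : M) : nrm 2 s x = x * s x := by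
  rw [nrm_apply, Finset.prod_range_succ, Finset.prod_range_one, pow_zero, pow_one]
  rfl

lemma coe_nrm_sgP (σ : Gal(L/ℚ)) (x : posU L) :
    ((nrm 2 (sgP σ) x : posU L) : Lˣ) = nrm 2 (sgU σ) (x : Lˣ) := by
  rw [nrm_two, nrm_two]
  rfl

lemma coe_del_sgP (σ : Gal(L/ℚ)) (x : posU L) :
    ((del (sgP σ) x : posU L) : Lˣ) = del (sgU σ) (x : Lˣ) := rfl

lemma dvm_neg (x : Lˣ) : dvm L (-x) = dvm L x := by
  have h1 : dvm L (-1 : Lˣ) = 1 := by
    apply Multiplicative.toAdd.injective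
    ext w
    have h2 : (dvm L (-1 : Lˣ)) * (dvm L (-1 : Lˣ)) = 1 := by
      rw [← map_mul, neg_mul_neg, one_mul, map_one]
    have h3 := DFunLike.congr_fun (congrArg Multiplicative.toAdd h2) w
    rw [toAdd_mul, Finsupp.add_apply] at h3
    change (dvm L (-1 : Lˣ)).toAdd w = 0
    change (dvm L (-1 : Lˣ)).toAdd w + (dvm L (-1 : Lˣ)).toAdd w = 0 at h3
    omega
  rw [← neg_one_mul, map_mul, h1, one_mul]

/-- real embeddings of a quadratic field -/
lemma real_embedding_eq [IsGalois ℚ L] {σ : Gal(L/ℚ)} (hσ : ∀ τ, τ ∈ Subgroup.zpowers σ)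
    (h2 : finrank ℚ L = 2) (φ ψ : L →+* ℝ) : ψ = φ ∨ ψ = φ.comp (σ : L →+* L) := by
  obtain ⟨τ, hτ⟩ := InfinitePlace.ComplexEmbedding.exists_comp_symm_eq_of_comp_eq (k := ℚ)
    (Complex.ofRealHom.comp φ) (Complex.ofRealHom.comp ψ) (Subsingleton.elim _ _)
  have h1 : ∀ x, ψ x = φ (τ.symm x) := fun x => by
    have h3 := RingHom.congr_fun hτ x
    exact Complex.ofReal_injective h3.symm
  rcases eq_one_or_eq hσ h2 τ.symm with h3 | h3
  · left
    ext x
    rw [h1, h3]
    rfl
  · right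
    ext x
    rw [h1, h3]
    rfl

lemma algebraMap_norm [IsGalois ℚ L] {σ : Gal(L/ℚ)} (hσ : ∀ τ, τ ∈ Subgroup.zpowers σ)
    (hord : orderOf σ = 2) (x : Lˣ) :
    (x : L) * σ (x : L) = algebraMap ℚ L (Algebra.norm ℚ (x : L)) := by
  have h1 := nrm_eq_up (p := 2) hσ hord x
  rw [nrm_two] at h1
  exact congrArg Units.val h1

/-- if `N(b) > 0` then `b` or `-b` is totally positive -/
lemma exists_sign [IsGalois ℚ L] {σ : Gal(L/ℚ)} (hσ : ∀ τ, τ ∈ Subgroup.zpowers σ)
    (h2 : finrank ℚ L = 2) {b : Lˣ} (hb : ∀ φ : L →+* ℝ, 0 < φ b * φ (σ b)) :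
    b ∈ posU L ∨ -b ∈ posU L := by
  by_cases he : Nonempty (L →+* ℝ)
  · obtain ⟨φ⟩ := he
    rcases lt_trichotomy (φ b) 0 with h | h | h
    · right
      intro ψ
      rw [Units.val_neg, map_neg, neg_pos]
      rcases real_embedding_eq hσ h2 φ ψ with rfl | rfl
      · exact h
      · exact (pos_iff_neg_of_mul_neg' (hb φ) h)
    · exact absurd (hb φ) (by rw [h, zero_mul]; exact lt_irrefl 0)
    · left
      intro ψ
      rcases real_embedding_eq hσ h2 φ ψ with rfl | rfl
      · exact h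
      · exact pos_of_mul_pos_of_pos' (hb φ) h
  · left
    intro φ
    exact absurd ⟨φ⟩ he

end Pos

/-! ### The index formula for the totally positive elements -/

section Index

variable {L : Type*} [Field L] [NumberField L] [IsGalois ℚ L] {σ : Gal(L/ℚ)}

/-- Hilbert 90 for the totally positive elements -/
theorem ker_nrm_sgP (hσ : ∀ τ, τ ∈ Subgroup.zpowers σ) (h2 : finrank ℚ L = 2)
    (hord : orderOf σ = 2) : (nrm 2 (sgP σ)).ker = (del (sgP σ)).range := by
  have h90 := ker_nrm_eq (L := L) two_pos hord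
  have hσσ : ∀ y : L, σ (σ y) = y := fun y => by
    have h3 : σ * σ = 1 := by rw [← pow_two, ← hord, pow_orderOf_eq_one]
    exact AlgEquiv.congr_fun h3 y
  ext x
  rw [MonoidHom.mem_ker]
  constructor
  · intro h
    have h1 : (x : Lˣ) ∈ (nrm 2 (sgU σ)).ker := by
      rw [MonoidHom.mem_ker, ← coe_nrm_sgP, h]
      rfl
    rw [h90] at h1
    obtain ⟨b, hb⟩ := h1
    have hb' : (b : L) = ((x : Lˣ) : L) * σ (b : L) := by
      have h3 : b = (x : Lˣ) * sgU σ b := by rw [← hb, del_apply, div_mul_cancel]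
      exact congrArg Units.val h3
    have hpos : ∀ φ : L →+* ℝ, 0 < φ b * φ (σ b) := fun φ => by
      have h4 : φ (b : L) = φ (x : Lˣ) * φ (σ b) := by
        conv_lhs => rw [hb']
        rw [map_mul]
      have h5 : φ (σ b) ≠ 0 := by
        rw [map_ne_zero_iff φ φ.injective]
        exact (map_ne_zero_iff _ σ.injective).mpr b.ne_zero
      rw [h4, mul_assoc]
      exact mul_pos (x.2 φ) (mul_self_pos.mpr h5)
    rcases exists_sign hσ h2 hpos with h3 | h3
    · exact ⟨⟨b, h3⟩, Subtype.ext hb⟩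
    · refine ⟨⟨-b, h3⟩, Subtype.ext ?_⟩
      rw [coe_del_sgP, ← hb, del_apply, del_apply]
      change -b / sgU σ (-b) = b / sgU σ b
      have h4 : sgU σ (-b) = - sgU σ b := by
        ext1
        exact map_neg σ (b : L)
      rw [h4, neg_div_neg_eq]
  · rintro ⟨y, rfl⟩
    apply Subtype.ext
    rw [coe_nrm_sgP, coe_del_sgP]
    have h1 : del (sgU σ) (y : Lˣ) ∈ (nrm 2 (sgU σ)).ker := by
      rw [h90]
      exact ⟨_, rfl⟩
    exact h1

theorem comap_range_dvP (hσ : ∀ τ, τ ∈ Subgroup.zpowers σ) (hord : orderOf σ = 2) :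
    (del (actM σ)).range.comap (dvP L) = (dvP L).ker.comap (nrm 2 (sgP σ)) := by
  have hI := comap_range_eq (L := L) two_ne_zero (by rw [← hord, pow_orderOf_eq_one]) hσ
  ext x
  have h1 : (x : Lˣ) ∈ (del (actM σ)).range.comap (dvm L) ↔
      (x : Lˣ) ∈ (dvm L).ker.comap (nrm 2 (sgU σ)) := by rw [hI]
  rw [Subgroup.mem_comap, Subgroup.mem_comap, MonoidHom.mem_ker] at h1 ⊢
  rw [dvP_apply, dvP_apply, coe_nrm_sgP]
  exact h1

theorem map_ker_dvP (hσ : ∀ τ, τ ∈ Subgroup.zpowers σ) :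
    (del (sgP σ)).ker.map (dvP L) = (extM (K := ℚ) L).range := by
  ext D
  constructor
  · rintro ⟨x, hx, rfl⟩
    have h1 : (x : Lˣ) ∈ (del (sgU σ)).ker := by
      rw [MonoidHom.mem_ker, ← coe_del_sgP, MonoidHom.mem_ker.mp hx]
      rfl
    rw [ker_del_sgU hσ] at h1
    obtain ⟨y, hy⟩ := h1
    exact ⟨dvm ℚ y, by rw [extM_dvm, hy]; rfl⟩
  · rintro ⟨E, rfl⟩
    have hsub : Subsingleton (ClassGroup (𝓞 ℚ)) :=
      Fintype.card_le_one_iff_subsingleton.mp Rat.classNumber_eq.le
    obtain ⟨y, hy⟩ := (classOf_eq_one_iff E).mp (Subsingleton.elim _ _)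
    have hE : E = dvm ℚ y := Multiplicative.toAdd.injective hy.symm
    have key : ∀ z : ℚˣ, 0 < (z : ℚ) → dvm ℚ z = E →
        extM L E ∈ (del (sgP σ)).ker.map (dvP L) := by
      intro z hz hzE
      have hmem : up L z ∈ posU L := fun φ => by
        have h3 : φ ((up L z : Lˣ) : L) = ((z : ℚ) : ℝ) := by
          change φ (algebraMap ℚ L z) = _
          rw [eq_ratCast, map_ratCast]
        rw [h3]
        exact_mod_cast hz
      refine ⟨⟨up L z, hmem⟩, ?_, ?_⟩
      · rw [SetLike.mem_coe, MonoidHom.mem_ker]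
        apply Subtype.ext
        rw [coe_del_sgP]
        have h4 : up L z ∈ (del (sgU σ)).ker := by
          rw [ker_del_sgU hσ]
          exact ⟨z, rfl⟩
        exact h4
      · rw [dvP_apply, ← hzE, extM_dvm]
    rcases lt_or_gt_of_ne y.ne_zero with h | h
    · exact key (-y) (by rw [Units.val_neg]; linarith) (by rw [dvm_neg, hE])
    · exact key y h hE.symm

/-- a norm of an element which is totally positive and a unit is one -/
theorem nrm_eq_one (hσ : ∀ τ, τ ∈ Subgroup.zpowers σ) (h2 : finrank ℚ L = 2)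
    (hord : orderOf σ = 2) {x : posU L} (hx : dvP L (nrm 2 (sgP σ) x) = 1) :
    nrm 2 (sgP σ) x = 1 := by
  classical
  apply Subtype.ext
  have h1 := nrm_eq_up (p := 2) hσ hord (x : Lˣ)
  set q : ℚˣ := Units.map (Algebra.norm ℚ : L →* ℚ) (x : Lˣ) with hq
  rw [coe_nrm_sgP, h1]
  have h3 : up L q ∈ unitsL L := by
    rw [← ker_dvm, MonoidHom.mem_ker, ← h1, ← coe_nrm_sgP, ← dvP_apply, hx]
  obtain ⟨u, hu⟩ := (up_mem_unitsL q).mp h3
  rcases units_rat u with rfl | rfl
  · rw [map_one] at hu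
    rw [← hu, map_one]
    rfl
  · exfalso
    have h4 : (q : ℚ) = -1 := by
      rw [← hu]
      simp
    have h5 : Algebra.norm ℚ ((x : Lˣ) : L) = -1 := h4
    obtain ⟨hpos, -⟩ := (exists_norm_eq_neg_one_iff h2).mp ⟨_, h5⟩
    have h6 : InfinitePlace.nrComplexPlaces L = 0 := by
      have h7 := ramInf_rat_of_finrank_two L h2
      rw [if_pos hpos, ramInf_rat] at h7
      by_contra h8
      rw [if_neg h8] at h7
      exact one_ne_zero h7
    have hcard := InfinitePlace.card_add_two_mul_card_eq_rank L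
    rw [h6, h2] at hcard
    have h9 : 0 < InfinitePlace.nrRealPlaces L := by omega
    rw [InfinitePlace.nrRealPlaces, Fintype.card_pos_iff] at h9
    obtain ⟨w⟩ := h9
    let φ : L →+* ℝ := InfinitePlace.embedding_of_isReal w.2
    have h10 := (nrm 2 (sgP σ) x).2 φ
    rw [coe_nrm_sgP, h1] at h10
    change 0 < φ (algebraMap ℚ L q) at h10
    rw [eq_ratCast, map_ratCast, h4] at h10
    norm_num at h10

omit [IsGalois ℚ L] in
variable (L) in
lemma map_subtype_ker_dvP : (dvP L).ker.map (posU L).subtype = unitsL L ⊓ posU L := by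
  ext x
  constructor
  · rintro ⟨y, hy, rfl⟩
    refine ⟨?_, y.2⟩
    rw [SetLike.mem_coe, ← ker_dvm]
    exact hy
  · rintro ⟨h1, h2⟩
    rw [SetLike.mem_coe, ← ker_dvm] at h1
    exact ⟨⟨x, h2⟩, h1, rfl⟩

/-- the index of the squares of the totally positive units -/
def SquaresStmt (L : Type*) [Field L] [NumberField L] : Prop :=
  ((dvP L).ker.map (powMonoidHom 2)).relIndex (dvP L).ker = 2

/-- **the index computation** -/
theorem two_mul_relIndex (hσ : ∀ τ, τ ∈ Subgroup.zpowers σ) (h2 : finrank ℚ L = 2)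
    (hord : orderOf σ = 2) (hS : SquaresStmt L) :
    (dvP L).range.relIndex ((dvP L).range.comap (del (actM σ))) * 2 =
      2 ^ (discr L).natAbs.primeFactors.card := by
  have hP : (del (sgP σ)).ker.map (dvP L) ≤ (extM (K := ℚ) L).range := (map_ker_dvP hσ).le
  have h1 := index_formula (f := dvP L) (σ := sgP σ) (τ := actM σ) (N := nrm 2 (sgP σ))
    (fun x => dvm_sgU σ (x : Lˣ)) (ker_nrm_sgP hσ h2 hord) (comap_range_dvP hσ hord)
    (range_extM_le hσ) hP
  have hker : ∀ x ∈ (dvP L).ker, nrm 2 (sgP σ) x = 1 := by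
    intro x hx
    apply nrm_eq_one hσ h2 hord
    have h3 : x ∈ (dvP L).ker.comap (nrm 2 (sgP σ)) := by
      rw [← comap_range_dvP hσ hord, Subgroup.mem_comap, MonoidHom.mem_ker.mp hx]
      exact one_mem _
    exact h3
  have h3 : (dvP L).ker ⊓ (nrm 2 (sgP σ)).ker = (dvP L).ker :=
    inf_eq_left.mpr fun x hx => MonoidHom.mem_ker.mpr (hker x hx)
  have h4 : (dvP L).ker ⊓ (nrm 2 (sgP σ)).range = ⊥ := by
    rw [Subgroup.eq_bot_iff_forall]
    rintro _ ⟨hx, x, rfl⟩
    exact nrm_eq_one hσ h2 hord hx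
  have h5 : (dvP L).ker.map (del (sgP σ)) = (dvP L).ker.map (powMonoidHom 2) := by
    have h6 : ∀ x ∈ (dvP L).ker, del (sgP σ) x = powMonoidHom 2 x := by
      intro x hx
      have h7 := hker x hx
      rw [nrm_two] at h7
      rw [del_apply, powMonoidHom_apply, pow_two, div_eq_mul_inv, inv_eq_of_mul_eq_one_left h7]
    ext y
    constructor
    · rintro ⟨x, hx, rfl⟩
      exact ⟨x, hx, (h6 x hx).symm⟩
    · rintro ⟨x, hx, rfl⟩
      exact ⟨x, hx, h6 x hx⟩
  rw [h3, h4, h5, hS, map_ker_dvP hσ, Subgroup.relIndex_self, one_mul,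
    relIndex_eq_pow hσ (divStmt Nat.prime_two h2), Subgroup.relIndex_bot_right, mul_one,
    ncard_ram] at h1
  exact h1

/-- the ambiguous narrow classes are the classes of order two -/
theorem mem_comap_del_iff (hσ : ∀ τ, τ ∈ Subgroup.zpowers σ) (h2 : finrank ℚ L = 2)
    (D : Multiplicative (HeightOneSpectrum (𝓞 L) →₀ ℤ)) :
    D ∈ (dvP L).range.comap (del (actM σ)) ↔ D ^ 2 ∈ (dvP L).range := by
  obtain ⟨E, hE⟩ := add_actD_mem (K := ℚ) hσ h2 D.toAdd
  have h1 : extM L (Multiplicative.ofAdd E) = D * actM σ D := Multiplicative.toAdd.injective hE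
  have h3 : D * actM σ D ∈ (dvP L).range := by
    have h4 : extM L (Multiplicative.ofAdd E) ∈ (del (sgP σ)).ker.map (dvP L) := by
      rw [map_ker_dvP hσ]
      exact ⟨_, rfl⟩
    rw [h1] at h4
    obtain ⟨x, -, hx⟩ := h4
    exact ⟨x, hx⟩
  have h5 : D ^ 2 = del (actM σ) D * (D * actM σ D) := by
    rw [del_apply, pow_two, mul_comm D (actM σ D), ← mul_assoc, div_mul_cancel]
  rw [Subgroup.mem_comap, h5]
  exact (Subgroup.mul_mem_cancel_right _ h3).symm

end Index

/-! ### The totally positive units -/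

section Squares

variable {L : Type*} [Field L] [NumberField L]

lemma relIndex_map_pow {G : Type*} [CommGroup G] (A : Subgroup G) :
    (A.map (powMonoidHom 2)).relIndex A = (powMonoidHom 2 : A →* A).range.index := by
  rw [Subgroup.relIndex]
  congr 1
  ext x
  rw [Subgroup.mem_subgroupOf]
  constructor
  · rintro ⟨y, hy, hxy⟩
    exact ⟨⟨y, hy⟩, Subtype.ext hxy⟩
  · rintro ⟨y, rfl⟩
    exact ⟨y.1, y.2, rfl⟩

lemma squaresStmt_iff : SquaresStmt L ↔
    ((unitsL L ⊓ posU L).map (powMonoidHom 2)).relIndex (unitsL L ⊓ posU L) = 2 := by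
  rw [SquaresStmt, ← Subgroup.relIndex_map_map_of_injective _ _ (posU L).subtype_injective,
    map_subtype_ker_dvP]
  have h1 : ((dvP L).ker.map (powMonoidHom 2)).map (posU L).subtype =
      (unitsL L ⊓ posU L).map (powMonoidHom 2) := by
    rw [← map_subtype_ker_dvP, Subgroup.map_map, Subgroup.map_map]
    rfl
  rw [h1]

lemma exists_real_of_pos (h2 : finrank ℚ L = 2) (hpos : 0 < discr L) : Nonempty (L →+* ℝ) := by
  classical
  have h6 : InfinitePlace.nrComplexPlaces L = 0 := by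
    have h7 := ramInf_rat_of_finrank_two L h2
    rw [if_pos hpos, ramInf_rat] at h7
    by_contra h8
    rw [if_neg h8] at h7
    exact one_ne_zero h7
  have hcard := InfinitePlace.card_add_two_mul_card_eq_rank L
  rw [h6, h2] at hcard
  have h9 : 0 < InfinitePlace.nrRealPlaces L := by omega
  rw [InfinitePlace.nrRealPlaces, Fintype.card_pos_iff] at h9
  obtain ⟨w⟩ := h9
  exact ⟨InfinitePlace.embedding_of_isReal w.2⟩

theorem rank_of_pos (h2 : finrank ℚ L = 2) (hpos : 0 < discr L) : Units.rank L = 1 := by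
  have h6 : InfinitePlace.nrComplexPlaces L = 0 := by
    have h7 := ramInf_rat_of_finrank_two L h2
    rw [if_pos hpos, ramInf_rat] at h7
    by_contra h8
    rw [if_neg h8] at h7
    exact one_ne_zero h7
  have hcard := InfinitePlace.card_add_two_mul_card_eq_rank L
  have h3 := InfinitePlace.card_eq_nrRealPlaces_add_nrComplexPlaces L
  have h4 := CFT.SUnits.rank_add_one_eq (K := L)
  omega

theorem rank_of_neg (h2 : finrank ℚ L = 2) (hneg : ¬ 0 < discr L) :
    Units.rank L = 0 ∧ IsEmpty (L →+* ℝ) := by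
  classical
  have h6 : InfinitePlace.nrComplexPlaces L ≠ 0 := by
    have h7 := ramInf_rat_of_finrank_two L h2
    rw [if_neg hneg, ramInf_rat] at h7
    intro h8
    rw [if_pos h8] at h7
    exact zero_ne_one h7
  have hcard := InfinitePlace.card_add_two_mul_card_eq_rank L
  have h3 := InfinitePlace.card_eq_nrRealPlaces_add_nrComplexPlaces L
  have h4 := CFT.SUnits.rank_add_one_eq (K := L)
  refine ⟨by omega, ⟨fun φ => ?_⟩⟩
  have h5 : InfinitePlace.nrRealPlaces L = 0 := by omega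
  rw [InfinitePlace.nrRealPlaces, Fintype.card_eq_zero_iff] at h5
  refine h5.false ⟨InfinitePlace.mk (Complex.ofRealHom.comp φ), ?_⟩
  rw [InfinitePlace.isReal_mk_iff, ComplexEmbedding.isReal_iff]
  ext x
  exact Complex.conj_ofReal _

/-- the inclusion of the units -/
noncomputable def inU (L : Type*) [Field L] [NumberField L] : (𝓞 L)ˣ →* Lˣ :=
  Units.map (algebraMap (𝓞 L) L : 𝓞 L →* L)

lemma inU_injective : Function.Injective (inU L) := fun _ _ h =>
  Units.ext (RingOfIntegers.coe_injective (congrArg Units.val h))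

lemma mem_unitsL_iff (x : Lˣ) : x ∈ unitsL L ↔ x ∈ (inU L).range := by
  rw [mem_unitsL, CFT.SUnits.div_eq_zero_iff]
  exact Iff.rfl

/-- the units in rank one -/
theorem exists_gen_modTorsion (hrank : Units.rank L = 1) :
    ∃ u : (𝓞 L)ˣ, (∀ x : (𝓞 L)ˣ, ∃ ζ ∈ Units.torsion L, ∃ n : ℤ, x = ζ * u ^ n) ∧
      ∀ n : ℕ, 0 < n → u ^ n ≠ 1 := by
  obtain ⟨i₀, hi₀⟩ : ∃ i₀ : Fin (Units.rank L), ∀ i, i = i₀ :=
    ⟨⟨0, by omega⟩, fun i => Fin.ext (by omega)⟩
  have hprod : ∀ e : Fin (Units.rank L) → ℤ, ∏ i, Units.fundSystem L i ^ e i =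
      Units.fundSystem L i₀ ^ e i₀ := fun e =>
    Fintype.prod_eq_single i₀ fun i hi => absurd (hi₀ i) hi
  refine ⟨Units.fundSystem L i₀, fun x => ?_, fun n hn h1 => ?_⟩
  · obtain ⟨⟨ζ, e⟩, hx, -⟩ := Units.exist_unique_eq_mul_prod L x
    rw [hprod] at hx
    exact ⟨ζ, ζ.2, e i₀, hx⟩
  · have h3 := Units.exist_unique_eq_mul_prod L 1
    have h4 : (1 : (𝓞 L)ˣ) = ((1 : Units.torsion L) : (𝓞 L)ˣ) *
        ∏ i, Units.fundSystem L i ^ ((fun _ => 0 : Fin (Units.rank L) → ℤ) i) := by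
      simp
    have h5 : (1 : (𝓞 L)ˣ) = ((1 : Units.torsion L) : (𝓞 L)ˣ) *
        ∏ i, Units.fundSystem L i ^ ((fun _ => (n : ℤ) : Fin (Units.rank L) → ℤ) i) := by
      rw [hprod, zpow_natCast, h1, OneMemClass.coe_one, mul_one]
    have h6 := h3.unique (y₁ := (1, fun _ => 0)) (y₂ := (1, fun _ => (n : ℤ))) h4 h5
    have h7 := congrFun (congrArg Prod.snd h6) i₀
    change (0 : ℤ) = n at h7
    omega

theorem squaresStmt_of_pos (h2 : finrank ℚ L = 2) (hpos : 0 < discr L) : SquaresStmt L := by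
  obtain ⟨φ⟩ := exists_real_of_pos h2 hpos
  have hrank := rank_of_pos h2 hpos
  obtain ⟨u, hu, hu'⟩ := exists_gen_modTorsion hrank
  rw [squaresStmt_iff, relIndex_map_pow]
  set B := unitsL L ⊓ posU L with hB
  let e : (𝓞 L)ˣ ≃* (inU L).range := MonoidHom.ofInjective inU_injective
  have hBle : B ≤ (inU L).range := fun x hx => (mem_unitsL_iff x).mp hx.1
  have hcyc : IsCyclic ((𝓞 L)ˣ ⧸ Units.torsion L) := by
    refine ⟨⟨QuotientGroup.mk' _ u, fun q => ?_⟩⟩
    obtain ⟨x, rfl⟩ := QuotientGroup.mk'_surjective (Units.torsion L) q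
    obtain ⟨ζ, hζ, n, rfl⟩ := hu x
    refine ⟨n, ?_⟩
    refine (map_zpow (QuotientGroup.mk' (Units.torsion L)) u n).symm.trans ?_
    refine QuotientGroup.eq.mpr ?_
    rw [mul_comm ζ, inv_mul_cancel_left]
    exact hζ
  let g : B →* (𝓞 L)ˣ ⧸ Units.torsion L :=
    (QuotientGroup.mk' (Units.torsion L)).comp
      ((e.symm : (inU L).range →* (𝓞 L)ˣ).comp (Subgroup.inclusion hBle))
  have hg : Function.Injective g := by
    rw [injective_iff_map_eq_one]
    intro b hb
    have h3 : e.symm (Subgroup.inclusion hBle b) ∈ Units.torsion L :=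
      (QuotientGroup.eq_one_iff _).mp hb
    obtain ⟨n, hn, hn1⟩ := isOfFinOrder_iff_pow_eq_one.mp
      ((CommGroup.mem_torsion _).mp h3)
    have h4 : (Subgroup.inclusion hBle b) ^ n = 1 := by
      apply e.symm.injective
      rw [map_pow, hn1, map_one]
    have h5 : (b : Lˣ) ^ n = 1 := congrArg Subtype.val h4
    have h6 : φ ((b : Lˣ) : L) ^ n = 1 := by
      rw [← map_pow, ← Units.val_pow_eq_pow_val, h5, Units.val_one, map_one]
    have h7 : φ ((b : Lˣ) : L) = 1 :=
      (pow_eq_one_iff_of_nonneg (b.2.2 φ).le hn.ne').mp h6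
    apply Subtype.ext
    ext1
    apply φ.injective
    rw [h7]
    change 1 = φ ((1 : Lˣ) : L)
    rw [Units.val_one, map_one]
  have hBcyc : IsCyclic B := isCyclic_of_injective g hg
  have hBinf : Infinite B := by
    by_contra hfin
    rw [not_infinite_iff_finite] at hfin
    have hmem : inU L u ^ 2 ∈ B := by
      refine Subgroup.mem_inf.mpr ⟨?_, fun ψ => ?_⟩
      · rw [mem_unitsL_iff]
        exact ⟨u ^ 2, map_pow _ _ _⟩
      · rw [Units.val_pow_eq_pow_val, map_pow]
        have h5 : ψ ((inU L u : Lˣ) : L) ≠ 0 :=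
          (map_ne_zero_iff ψ ψ.injective).mpr (inU L u).ne_zero
        positivity
    obtain ⟨n, hn, hn1⟩ := isOfFinOrder_iff_pow_eq_one.mp (isOfFinOrder_of_finite
      (⟨inU L u ^ 2, hmem⟩ : B))
    have h3 : (inU L u ^ 2) ^ n = 1 := congrArg Subtype.val hn1
    have h4 : u ^ (2 * n) = 1 := by
      apply inU_injective
      rw [map_pow, pow_mul, h3, map_one]
    exact hu' (2 * n) (by omega) h4
  exact index_squares_of_infinite

theorem squaresStmt_of_neg (h2 : finrank ℚ L = 2) (hneg : ¬ 0 < discr L) : SquaresStmt L := by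
  obtain ⟨hrank, hemp⟩ := rank_of_neg h2 hneg
  have htop : posU L = ⊤ := by
    rw [Subgroup.eq_top_iff']
    exact fun x φ => (hemp.false φ).elim
  rw [squaresStmt_iff, htop, inf_top_eq, relIndex_pow_unitsL two_ne_zero, hrank, pow_zero, one_mul]
  have h3 : IsPrimitiveRoot (-1 : L) 2 := IsPrimitiveRoot.neg_one 0 (by norm_num)
  exact h3.card_rootsOfUnity

theorem squaresStmt (h2 : finrank ℚ L = 2) : SquaresStmt L := by
  by_cases h : 0 < discr L
  · exact squaresStmt_of_pos h2 h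
  · exact squaresStmt_of_neg h2 h

end Squares

end Fermat.Agent.Cor.Ambi
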