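import Fermat.Agent.Corollaries.Ambi.UnrCFT

/-!
# When is the norm on ideal classes surjective?

`K` totally complex, `L / K` a finite extension which contains no unramified abelian extension of `K`
except `K`: the norm `Cl(L) → Cl(K)` is surjective, so `h(K)` divides `h(L)`.
-/

set_option autoImplicit false
set_option linter.unusedSectionVars false

namespace Fermat.Agent.Cor.Ambi

open IsDedekindDomain NumberField
open Fermat.Agent.CFT.SUnits Fermat.Agent.CFT.ChevMul
open scoped Pointwise nonZeroDivisors

section One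

variable {K M : Type*} [Field K] [NumberField K] [Field M] [NumberField M] [Algebra K M]
  [IsGalois K M]

theorem frob_pow_sub_mem {w : HeightOneSpectrum (𝓞 M)} {σ : Gal(M/K)}
    (hσ : IsArithFrobAt (𝓞 K) σ w.asIdeal) (k : ℕ) (x : 𝓞 M) :
    (σ ^ k) • x - x ^ (Ideal.absNorm (w.under (𝓞 K)).asIdeal) ^ k ∈ w.asIdeal := by
  set q := Ideal.absNorm (w.under (𝓞 K)).asIdeal with hq
  have h1 : ∀ x : 𝓞 M, σ • x - x ^ q ∈ w.asIdeal := by
    intro x
    have h := hσ x
    rw [ChebK.card_under] at h
    exact h
  induction k generalizing x with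
  | zero => simp
  | succ k ih =>
    have h3 := ih (σ • x)
    rw [smul_smul, ← pow_succ] at h3
    have h4 : (σ • x) ^ q ^ k - (x ^ q) ^ q ^ k ∈ w.asIdeal := by
      rw [← Ideal.Quotient.eq, map_pow, map_pow]
      congr 1
      exact Ideal.Quotient.eq.mpr (h1 x)
    have h5 := add_mem h3 h4
    rw [sub_add_sub_cancel, ← pow_mul, ← pow_succ'] at h5
    exact h5

/-- two automorphisms which are congruent modulo an unramified place are equal -/
theorem eq_of_congr {w : HeightOneSpectrum (𝓞 M)} (hw : ramIdx K w = 1) {σ τ : Gal(M/K)}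
    (h : ∀ x : 𝓞 M, σ • x - τ • x ∈ w.asIdeal) : σ = τ := by
  have h3 : σ * τ⁻¹ ∈ w.asIdeal.inertia Gal(M/K) := by
    intro x
    have h4 := h (τ⁻¹ • x)
    rw [smul_inv_smul] at h4
    rw [mul_smul]
    exact h4
  have h4 : w.asIdeal.inertia Gal(M/K) = ⊥ := by
    have h5 := ramIdx_eq_card_inertia (K := K) w
    rw [hw] at h5
    exact Subgroup.card_eq_one.mp h5.symm
  rw [h4, Subgroup.mem_bot, mul_inv_eq_one] at h3
  exact h3

end One

section Tower

variable {K L M N : Type*} [Field K] [NumberField K] [Field L] [NumberField L] [Algebra K L]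
  [Field M] [NumberField M] [Algebra K M] [IsGalois K M]
  [Field N] [NumberField N] [Algebra K N] [IsGalois K N] [Algebra L N] [IsScalarTower K L N]
  [Algebra M N] [IsScalarTower K M N]
  (e : Gal(M/K) ≃* ClassGroup (𝓞 K))
  (hunr : ∀ w : HeightOneSpectrum (𝓞 M), (w.asIdeal.under (𝓞 K)).ramificationIdx' w.asIdeal = 1)
  (he : ∀ (w : HeightOneSpectrum (𝓞 M)) (σ : Gal(M/K)), IsArithFrobAt (𝓞 K) σ w.asIdeal →
    e σ = clsOf (w.under (𝓞 K)))

include hunr he in
theorem mem_range_of_restrict (h : Gal(N/L)) :
    e ((AlgEquiv.restrictScalars K h).restrictNormal M) ∈ (normC K L).range := by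
  have hLN : IsGalois L N := IsGalois.tower_top_of_isGalois K L N
  obtain ⟨w, hw⟩ := ((ChebK.chebotarev_class (K := L) (L := N) h).infinite
    (ChebK.class_density_pos h)).nonempty
  obtain ⟨u, hu, hF⟩ := hw.2.exists_eq
  obtain ⟨φ, hφ⟩ := ChebK.exists_isArithFrobAt (K := K) u
  have hφM := ChebK.isArithFrobAt_restrictNormal (L := M) hφ
  have h1 : (AlgEquiv.restrictScalars K h).restrictNormal M =
      (φ.restrictNormal M) ^ (w.asIdeal.inertiaDeg (𝓞 K)) := by
    refine eq_of_congr (w := u.under (𝓞 M)) (hunr _) fun x => ?_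
    have h2 := frob_pow_sub_mem hφM (w.asIdeal.inertiaDeg (𝓞 K)) x
    rw [ChebK.under_under K M u, ← ChebK.under_under K L u, hu,
      ← ChebK.absNorm_eq_pow (K := K) w] at h2
    have h3 : (AlgEquiv.restrictScalars K h).restrictNormal M • x -
        x ^ Ideal.absNorm w.asIdeal ∈ (u.under (𝓞 M)).asIdeal := by
      have h4 := hF (algebraMap (𝓞 M) (𝓞 N) x)
      have h5 : h • algebraMap (𝓞 M) (𝓞 N) x = algebraMap (𝓞 M) (𝓞 N)
          ((AlgEquiv.restrictScalars K h).restrictNormal M • x) :=
        RingOfIntegers.ext ((AlgEquiv.restrictScalars K h).restrictNormal_commutes M x).symm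
      change h • algebraMap (𝓞 M) (𝓞 N) x - _ ∈ _ at h4
      rw [ChebK.card_under, h5, hu] at h4
      change algebraMap (𝓞 M) (𝓞 N) _ ∈ u.asIdeal
      rw [map_sub, map_pow]
      exact h4
    have h6 := sub_mem h3 h2
    rw [sub_sub_sub_cancel_right] at h6
    exact h6
  refine ⟨clsOf w, ?_⟩
  rw [normC_clsOf, h1, map_pow, he _ _ hφM, ChebK.under_under K M u, ← ChebK.under_under K L u, hu]
  rfl

include hunr he in
/-- if `L` and `M` are linearly disjoint over `K` in `N` then the norm is surjective -/
theorem surjective_of_inf (hinf : (IsScalarTower.toAlgHom K L N).fieldRange ⊓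
    (IsScalarTower.toAlgHom K M N).fieldRange = ⊥) : Function.Surjective (normC K L) := by
  intro c
  set L' := (IsScalarTower.toAlgHom K L N).fieldRange with hL'
  set M' := (IsScalarTower.toAlgHom K M N).fieldRange with hM'
  have hnorm : Normal K M' := by
    have h1 : Normal K M := inferInstance
    exact Normal.of_algEquiv (AlgEquiv.ofInjectiveField (IsScalarTower.toAlgHom K M N))
  have hsup : L'.fixingSubgroup ⊔ M'.fixingSubgroup = ⊤ := by
    have h1 := (IsGalois.intermediateFieldEquivSubgroup (F := K) (E := N)).map_inf L' M'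
    rw [hinf, map_bot] at h1
    have h2 := congrArg OrderDual.ofDual h1
    exact h2.symm
  obtain ⟨g, hg⟩ := AlgEquiv.restrictNormalHom_surjective (F := K) (K₁ := M) N (e.symm c)
  have hg' : g ∈ L'.fixingSubgroup ⊔ M'.fixingSubgroup := by
    rw [hsup]
    trivial
  have hMn : M'.fixingSubgroup.Normal := by
    rw [← IntermediateField.restrictNormalHom_ker]
    exact MonoidHom.normal_ker _
  rw [← SetLike.mem_coe, Subgroup.mul_normal] at hg'
  obtain ⟨a, ha, b, hb, hab⟩ := hg'
  subst hab
  let h : Gal(N/L) := { a with commutes' := fun x => ha ⟨algebraMap L N x, x, rfl⟩ }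
  have h1 := mem_range_of_restrict (L := L) (N := N) e hunr he h
  have h2 : (AlgEquiv.restrictScalars K h) = a := by
    ext x
    rfl
  have h3 : b.restrictNormal M = 1 := by
    ext x
    apply (algebraMap M N).injective
    rw [AlgEquiv.restrictNormal_commutes]
    exact hb ⟨algebraMap M N x, x, rfl⟩
  have h4 : (a * b).restrictNormal M = e.symm c := hg
  have h5 : (a * b).restrictNormal M = a.restrictNormal M * b.restrictNormal M :=
    map_mul (AlgEquiv.restrictNormalHom M) a b
  rw [h5, h3, mul_one] at h4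
  rw [h2, h4, MulEquiv.apply_symm_apply] at h1
  exact h1

end Tower

section Final

variable {K : Type} [Field K] [NumberField K] [IsTotallyComplex K] {L : Type*} [Field L]
  [NumberField L] [Algebra K L]

/-- **surjectivity of the norm on ideal classes**: `K` totally complex, `L / K` contains no
unramified abelian extension of `K` except `K`. -/
theorem normC_surjective (hL : ∀ F : IntermediateField K L, IsAbelianGalois K F →
      (∀ w : HeightOneSpectrum (𝓞 F), (w.asIdeal.under (𝓞 K)).ramificationIdx' w.asIdeal = 1) →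
      F = ⊥) : Function.Surjective (normC K L) := by
  obtain ⟨M, fM, nM, aM, gM, e, hunr, he, -⟩ := exists_hilbert K
  have hab : IsMulCommutative Gal(M/K) := ⟨⟨fun a b => e.injective (by
    rw [map_mul, map_mul, mul_comm])⟩⟩
  have hM : IsAbelianGalois K M := { toIsGalois := gM, is_comm := hab.is_comm }
  obtain ⟨N, hN, hG, ⟨i⟩, ⟨j⟩⟩ := ChebK.exists_galois K L M
  have : NumberField N := NumberField.of_module_finite K N
  let _ : Algebra L N := i.toRingHom.toAlgebra
  let _ : Algebra M N := j.toRingHom.toAlgebra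
  have : IsScalarTower K L N := IsScalarTower.of_algebraMap_eq fun x => (i.commutes x).symm
  have : IsScalarTower K M N := IsScalarTower.of_algebraMap_eq fun x => (j.commutes x).symm
  refine surjective_of_inf (M := M) (N := N) e hunr he ?_
  let F : IntermediateField K L :=
    (IsScalarTower.toAlgHom K M N).fieldRange.comap (IsScalarTower.toAlgHom K L N)
  let g : F →ₐ[K] (IsScalarTower.toAlgHom K M N).range :=
    ((IsScalarTower.toAlgHom K L N).comp F.val).codRestrict
      (IsScalarTower.toAlgHom K M N).range fun x => x.2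
  let f : F →ₐ[K] M :=
    (AlgEquiv.ofInjectiveField (IsScalarTower.toAlgHom K M N)).symm.toAlgHom.comp g
  have hFab : IsAbelianGalois K F := IsAbelianGalois.of_algHom f
  have hF : F = ⊥ := by
    refine hL F hFab ?_
    let _ : Algebra F M := f.toRingHom.toAlgebra
    have : IsScalarTower K F M := IsScalarTower.of_algebraMap_eq fun x => (f.commutes x).symm
    exact fun w => ramIdx_mid (K := K) (L := F) (M := M) hunr w
  rw [eq_bot_iff]
  rintro _ ⟨⟨x, rfl⟩, hx⟩
  have h1 : x ∈ F := hx
  rw [hF, IntermediateField.mem_bot] at h1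
  obtain ⟨y, rfl⟩ := h1
  rw [IntermediateField.mem_bot]
  exact ⟨y, ((IsScalarTower.toAlgHom K L N).commutes y).symm⟩

/-- **divisibility of class numbers** -/
theorem classNumber_dvd_classNumber (hL : ∀ F : IntermediateField K L, IsAbelianGalois K F →
      (∀ w : HeightOneSpectrum (𝓞 F), (w.asIdeal.under (𝓞 K)).ramificationIdx' w.asIdeal = 1) →
      F = ⊥) : classNumber K ∣ classNumber L := by
  have h1 := Subgroup.card_dvd_of_surjective (normC K L) (normC_surjective hL)
  rwa [Nat.card_eq_fintype_card, Nat.card_eq_fintype_card] at h1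

lemma ramIdx_le_finrank {K L : Type*} [Field K] [NumberField K] [Field L] [NumberField L]
    [Algebra K L] (w : HeightOneSpectrum (𝓞 L)) : ramIdx K w ≤ Module.finrank K L := by
  classical
  have hv := (under K w).isPrime
  have : Fintype ((under K w).asIdeal.primesOver (𝓞 L)) :=
    (Algebra.QuasiFinite.finite_primesOver (under K w).asIdeal).fintype
  have hfr : Module.finrank (𝓞 K) (𝓞 L) = Module.finrank K L :=
    (IsFractionRing.finrank_eq (𝓞 K) K (𝓞 L) L).symm
  have hsum := Ideal.sum_ramification_inertia_eq_finrank (under K w).asIdeal (𝓞 L)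
  let q : (under K w).asIdeal.primesOver (𝓞 L) := ⟨w.asIdeal, w.isPrime, ⟨rfl⟩⟩
  have h1 : q.1.ramificationIdx (𝓞 K) * q.1.inertiaDeg (𝓞 K) ≤ Module.finrank (𝓞 K) (𝓞 L) := by
    rw [← hsum]
    exact Finset.single_le_sum (f := fun q : (under K w).asIdeal.primesOver (𝓞 L) =>
      q.1.ramificationIdx (𝓞 K) * q.1.inertiaDeg (𝓞 K)) (fun _ _ => Nat.zero_le _)
      (Finset.mem_univ q)
  have h2 : 0 < w.asIdeal.inertiaDeg (𝓞 K) := by
    have := w.isPrime
    exact w.asIdeal.inertiaDeg_pos (𝓞 K)
  have h3 : ramIdx K w = w.asIdeal.ramificationIdx (𝓞 K) :=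
    Ideal.ramificationIdx'_eq_ramificationIdx (under K w).asIdeal w.asIdeal (under K w).ne_bot
  rw [h3, ← hfr]
  exact (Nat.le_mul_of_pos_right _ h2).trans h1

/-- **totally ramified extensions**: `K` totally complex, `L / K` totally ramified at a finite place:
`h(K)` divides `h(L)`. -/
theorem classNumber_dvd_of_totallyRamified (w : HeightOneSpectrum (𝓞 L))
    (hw : (w.asIdeal.under (𝓞 K)).ramificationIdx' w.asIdeal = Module.finrank K L) :
    classNumber K ∣ classNumber L := by
  refine classNumber_dvd_classNumber fun F hF h => ?_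
  have h1 := (ramIdx_tower (K := K) (F := F) w).2
  have h2 : ramIdx K (under F w) = 1 := h (under F w)
  have h3 : ramIdx K w = Module.finrank K L := hw
  have h4 := ramIdx_le_finrank (K := F) w
  rw [h2, one_mul] at h1
  rw [← h1, h3, ← Module.finrank_mul_finrank K F L] at h4
  have h5 : 0 < Module.finrank F L := Module.finrank_pos
  have h6 : Module.finrank K F ≤ 1 :=
    Nat.le_of_mul_le_mul_right (by rwa [one_mul]) h5
  have h7 : 0 < Module.finrank K F := Module.finrank_pos
  exact IntermediateField.finrank_eq_one_iff.mp (by omega)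

end Final

end Fermat.Agent.Cor.Ambi
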