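import Fermat.Agent.Corollaries.Ambi.Formula
import Fermat.Agent.Corollaries.Ambi.Units
import Fermat.Agent.Corollaries.Ambi.Div

/-!
# Quadratic extensions: the classes of order two

For a quadratic extension `L / K` with `h(K) = 1` the ambiguous classes are the classes with
`c ^ 2 = 1`, so Chevalley's formula computes the two-torsion of the class group; for `K = ℚ` this is
Gauss' theorem on genera.
-/

set_option autoImplicit false

noncomputable section

namespace Fermat.Agent.Cor.Ambi

open IsDedekindDomain NumberField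
open Fermat.Agent.CFT.SUnits
open scoped Pointwise

variable {K L : Type*} [Field K] [NumberField K] [Field L] [NumberField L] [Algebra K L]
  [IsGalois K L]

omit [NumberField K] [NumberField L] in
theorem orderOf_eq_finrank {σ : Gal(L/K)} (hσ : ∀ τ, τ ∈ Subgroup.zpowers σ)
    (hd : 0 < Module.finrank K L) : orderOf σ = Module.finrank K L := by
  have hfin : FiniteDimensional K L := Module.finite_of_finrank_pos hd
  rw [orderOf_eq_card_of_forall_mem_zpowers hσ, IsGalois.card_aut_eq_finrank]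

omit [NumberField K] [NumberField L] in
theorem eq_one_or_eq {σ : Gal(L/K)} (hσ : ∀ τ, τ ∈ Subgroup.zpowers σ)
    (h2 : Module.finrank K L = 2) (τ : Gal(L/K)) : τ = 1 ∨ τ = σ := by
  have hfin : FiniteDimensional K L := Module.finite_of_finrank_pos (by omega)
  have hord := orderOf_eq_finrank hσ (by omega)
  rw [h2] at hord
  obtain ⟨k, hk⟩ := mem_powers_iff_mem_zpowers.mpr (hσ τ)
  change σ ^ k = τ at hk
  rw [← hk, ← pow_mod_orderOf, hord]
  rcases Nat.mod_two_eq_zero_or_one k with h | h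
  · left
    rw [h, pow_zero]
  · right
    rw [h, pow_one]

/-- For a quadratic extension `D + σ D` comes from `K`. -/
theorem single_add_actD_mem {σ : Gal(L/K)} (hσ : ∀ τ, τ ∈ Subgroup.zpowers σ)
    (h2 : Module.finrank K L = 2) (w : HeightOneSpectrum (𝓞 L)) :
    Finsupp.single w (1 : ℤ) + actD σ (Finsupp.single w 1) ∈ (extD (K := K) L).range := by
  classical
  rw [actD_single]
  have habove : ∀ w' : HeightOneSpectrum (𝓞 L), under K w' = under K w → w' = w ∨ w' = σ • w := by
    intro w' h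
    obtain ⟨g, rfl⟩ := exists_smul_eq h.symm
    rcases eq_one_or_eq hσ h2 g with rfl | rfl
    · left
      rw [one_smul]
    · exact Or.inr rfl
  by_cases h : σ • w = w
  · obtain ⟨k, hk⟩ := h2 ▸ ramIdx_dvd_finrank (K := K) w
    refine ⟨Finsupp.single (under K w) (k : ℤ), ?_⟩
    ext w'
    rw [extD_apply, Finsupp.add_apply, h]
    by_cases hw : w' = w
    · subst hw
      rw [Finsupp.single_eq_same, Finsupp.single_eq_same]
      have h3 : ((ramIdx K w' * k : ℕ) : ℤ) = 2 := by rw [← hk]; rfl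
      push_cast at h3
      rw [h3]
      norm_num
    · have hu : under K w' ≠ under K w := fun hu => by
        rcases habove w' hu with h1 | h1
        · exact hw h1
        · exact hw (h1.trans h)
      rw [Finsupp.single_eq_of_ne hw, Finsupp.single_eq_of_ne hu]
      norm_num
  · refine ⟨Finsupp.single (under K w) (1 : ℤ), ?_⟩
    have hr : ramIdx K w = 1 := by
      rw [ramIdx_eq_card_inertia, Subgroup.card_eq_one, Subgroup.eq_bot_iff_forall]
      intro τ hτ
      rcases eq_one_or_eq hσ h2 τ with rfl | rfl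
      · rfl
      · exfalso
        apply h
        apply HeightOneSpectrum.ext
        rw [smul_asIdeal]
        exact Ideal.inertia_le_stabilizer w.asIdeal hτ
    ext w'
    rw [extD_apply, Finsupp.add_apply]
    by_cases hw : w' = w
    · subst hw
      rw [Finsupp.single_eq_same, Finsupp.single_eq_same, Finsupp.single_eq_of_ne (Ne.symm h), hr]
      norm_num
    · by_cases hw2 : w' = σ • w
      · subst hw2
        rw [under_smul, Finsupp.single_eq_same, Finsupp.single_eq_same, Finsupp.single_eq_of_ne hw,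
          ramIdx_smul, hr]
        norm_num
      · have hu : under K w' ≠ under K w := fun hu => by
          rcases habove w' hu with h1 | h1
          · exact hw h1
          · exact hw2 h1
        rw [Finsupp.single_eq_of_ne hw, Finsupp.single_eq_of_ne hu, Finsupp.single_eq_of_ne hw2]
        norm_num

theorem add_actD_mem {σ : Gal(L/K)} (hσ : ∀ τ, τ ∈ Subgroup.zpowers σ)
    (h2 : Module.finrank K L = 2) (D : HeightOneSpectrum (𝓞 L) →₀ ℤ) :
    D + actD σ D ∈ (extD (K := K) L).range := by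
  induction D using Finsupp.induction_linear with
  | zero =>
    rw [map_zero, add_zero]
    exact zero_mem _
  | add D E hD hE =>
    rw [map_add, add_add_add_comm]
    exact add_mem hD hE
  | single w n =>
    have h1 : Finsupp.single w n = n • Finsupp.single w (1 : ℤ) := by
      rw [Finsupp.smul_single, smul_eq_mul, mul_one]
    rw [h1, map_zsmul, ← smul_add]
    exact zsmul_mem (single_add_actD_mem hσ h2 w) n

/-- For a quadratic extension of a field of class number one, `σ` acts as inversion on the ideal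
classes. -/
theorem mul_actC {σ : Gal(L/K)} (hσ : ∀ τ, τ ∈ Subgroup.zpowers σ)
    (h2 : Module.finrank K L = 2) (hK : classNumber K = 1) (c : ClassGroup (𝓞 L)) :
    c * actC σ c = 1 := by
  obtain ⟨D, rfl⟩ := classOf_surjective c
  rw [← classOf_actM, ← map_mul, classOf_eq_one_iff]
  obtain ⟨E, hE⟩ := add_actD_mem (K := K) hσ h2 D.toAdd
  have h3 : classOf (Multiplicative.ofAdd E) = 1 := by
    have := Fintype.card_le_one_iff_subsingleton.mp hK.le
    exact Subsingleton.elim _ _
  obtain ⟨y, hy⟩ := (classOf_eq_one_iff _).mp h3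
  refine ⟨up L y, ?_⟩
  have h4 : extD L E = D.toAdd + actD σ D.toAdd := hE
  change _ = D.toAdd + actD σ D.toAdd
  rw [← h4, ← extD_div]
  congr 1

theorem mem_ambig_iff {σ : Gal(L/K)} (hσ : ∀ τ, τ ∈ Subgroup.zpowers σ)
    (h2 : Module.finrank K L = 2) (hK : classNumber K = 1) (c : ClassGroup (𝓞 L)) :
    c ∈ ambig σ ↔ c ^ 2 = 1 := by
  have h := mul_actC hσ h2 hK c
  rw [mem_ambig, sq, eq_inv_of_mul_eq_one_right h, inv_eq_iff_mul_eq_one]

/-- **Chevalley's formula for a quadratic extension of a field of class number one**: the number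
`#Cl(L)[2]` satisfies `#Cl(L)[2] · 2 · [E_K : E_K ∩ N Lˣ] = 2 ^ t · 2 ^ ρ`. -/
theorem card_two_torsion (h2 : Module.finrank K L = 2) (hK : classNumber K = 1) :
    Nat.card {c : ClassGroup (𝓞 L) // c ^ 2 = 1} * 2 * (normUnits K L).index =
      2 ^ (ram K L).ncard * 2 ^ ramInf K L := by
  have hfin : FiniteDimensional K L := Module.finite_of_finrank_pos (by omega)
  have hcard : Nat.card Gal(L/K) = 2 := by rw [IsGalois.card_aut_eq_finrank, h2]
  have : Fact (Nat.Prime 2) := ⟨Nat.prime_two⟩
  have hcyc : IsCyclic Gal(L/K) := isCyclic_of_prime_card hcard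
  obtain ⟨σ, hσ⟩ := hcyc.exists_generator
  have hord : orderOf σ = 2 := by rw [orderOf_eq_finrank hσ (by omega), h2]
  have h := formula_of Nat.prime_two (unitsStmt Nat.prime_two h2) (divStmt Nat.prime_two h2) hσ hord
  rw [hK, one_mul] at h
  rw [← h, Nat.card_congr (Equiv.subtypeEquivRight fun c => mem_ambig_iff hσ h2 hK c)]

/-! ### Quadratic fields -/

section Rat

omit [IsGalois K L] in
theorem ramIdx_eq_one_iff (w : HeightOneSpectrum (𝓞 L)) :
    ramIdx ℚ w = 1 ↔ Algebra.IsUnramifiedAt ℤ w.asIdeal := by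
  set 𝔮 : Ideal ℤ := w.asIdeal.under ℤ with h𝔮
  have h1 : w.asIdeal.LiesOver 𝔮 := ⟨rfl⟩
  have h2 : (under ℚ w).asIdeal.LiesOver 𝔮 := by
    refine ⟨?_⟩
    rw [h𝔮, under_asIdeal, Ideal.under_under]
  have h3 : 𝔮 ≠ ⊥ := Ideal.under_ne_bot (A := ℤ) w.ne_bot
  have h5 : 𝔮.ramificationIdx' (under ℚ w).asIdeal = 1 := by
    have h6 : 𝔮.IsPrime := Ideal.IsPrime.under ℤ w.asIdeal
    have h7 := Submodule.IsPrincipal.prime_generator_of_isPrime 𝔮 h3
    have h8 : ¬ Submodule.IsPrincipal.generator 𝔮 ∣ discr ℚ := by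
      rw [discr_rat]
      exact fun h => h7.not_isUnit (isUnit_of_dvd_one h)
    rw [not_dvd_discr_iff_forall_liesOver ℚ (𝓞 ℚ) h7, Ideal.span_singleton_generator] at h8
    rw [Ideal.ramificationIdx'_eq_ramificationIdx 𝔮 _ h3, Ideal.ramificationIdx_eq_one_iff]
    exact h8 _ (under ℚ w).isMaximal h2
  have h4 := Ideal.ramificationIdx'_algebra_tower' 𝔮 (under ℚ w).asIdeal w.asIdeal
  rw [h5, one_mul] at h4
  rw [ramIdx, ← h4, Ideal.ramificationIdx'_eq_ramificationIdx 𝔮 w.asIdeal h3,
    Ideal.ramificationIdx_eq_one_iff]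

theorem natGenerator_dvd_iff_mem (v : HeightOneSpectrum (𝓞 ℚ)) {n : ℕ} :
    Rat.HeightOneSpectrum.natGenerator v ∣ n ↔ (n : 𝓞 ℚ) ∈ v.asIdeal := by
  rw [Rat.HeightOneSpectrum.natGenerator_dvd_iff,
    ← map_natCast (Rat.IsIntegralClosure.intEquiv (𝓞 ℚ)), Ideal.apply_mem_of_equiv_iff]

omit [IsGalois K L] in
theorem natGenerator_dvd_iff_mem' (w : HeightOneSpectrum (𝓞 L)) {n : ℕ} :
    Rat.HeightOneSpectrum.natGenerator (under ℚ w) ∣ n ↔ (n : 𝓞 L) ∈ w.asIdeal := by
  rw [natGenerator_dvd_iff_mem, under_asIdeal, Ideal.under, Ideal.mem_comap, map_natCast]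

variable (L)

omit [IsGalois K L] in
/-- The number of primes which are ramified in `L` is the number of prime divisors of the
discriminant. -/
theorem ncard_ram : (ram ℚ L).ncard = (discr L).natAbs.primeFactors.card := by
  classical
  rw [← Set.ncard_coe_finset]
  refine Set.ncard_congr (fun v _ => Rat.HeightOneSpectrum.natGenerator v) ?_ ?_ ?_
  · rintro v ⟨w, rfl, hw⟩
    have hp := Rat.HeightOneSpectrum.prime_natGenerator (under ℚ w)
    rw [Finset.mem_coe, Nat.mem_primeFactors]
    refine ⟨hp, ?_, Int.natAbs_ne_zero.mpr (discr_ne_zero L)⟩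
    rw [← Int.natCast_dvd_natCast, Int.dvd_natAbs]
    by_contra h
    rw [not_dvd_discr_iff_forall_mem L (𝓞 L) (Nat.prime_iff_prime_int.mp hp)] at h
    apply hw
    rw [ramIdx_eq_one_iff]
    refine h w.asIdeal w.isPrime ?_
    rw [Int.cast_natCast]
    exact (natGenerator_dvd_iff_mem' w).mp dvd_rfl
  · intro v v' _ _ h
    have h1 : Rat.HeightOneSpectrum.primesEquiv v = Rat.HeightOneSpectrum.primesEquiv v' :=
      Subtype.ext h
    exact Rat.HeightOneSpectrum.primesEquiv.injective h1
  · intro p hp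
    rw [Finset.mem_coe, Nat.mem_primeFactors] at hp
    obtain ⟨hp, hd, -⟩ := hp
    rw [← Int.natCast_dvd_natCast, Int.dvd_natAbs] at hd
    have h1 := mt (not_dvd_discr_iff_forall_mem L (𝓞 L) (Nat.prime_iff_prime_int.mp hp)).mpr
      (not_not.mpr hd)
    push Not at h1
    obtain ⟨P, hP, hpP, hram⟩ := h1
    rw [Int.cast_natCast] at hpP
    have hP0 : P ≠ ⊥ := by
      rintro rfl
      rw [Ideal.mem_bot] at hpP
      exact hp.ne_zero (by exact_mod_cast hpP)
    refine ⟨under ℚ ⟨P, hP, hP0⟩, ⟨⟨P, hP, hP0⟩, rfl, ?_⟩, ?_⟩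
    · rw [Ne, ramIdx_eq_one_iff]
      exact hram
    · exact (Nat.prime_dvd_prime_iff_eq (Rat.HeightOneSpectrum.prime_natGenerator _) hp).mp
        ((natGenerator_dvd_iff_mem' ⟨P, hP, hP0⟩).mpr hpP)

theorem units_rat (u : (𝓞 ℚ)ˣ) : u = 1 ∨ u = -1 := by
  rcases Int.units_eq_one_or (Units.mapEquiv Rat.ringOfIntegersEquiv.toMulEquiv u) with h | h
  · left
    exact (Units.mapEquiv Rat.ringOfIntegersEquiv.toMulEquiv).injective (h.trans (map_one _).symm)
  · right
    apply (Units.mapEquiv Rat.ringOfIntegersEquiv.toMulEquiv).injective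
    rw [h]
    ext1
    rw [Units.coe_mapEquiv]
    simp

theorem card_units_rat : Nat.card (𝓞 ℚ)ˣ = 2 := by
  rw [Nat.card_congr (Units.mapEquiv Rat.ringOfIntegersEquiv.toMulEquiv).toEquiv]
  simp

theorem index_normUnits_eq_one (h : ∃ x : L, Algebra.norm ℚ x = -1) :
    (normUnits ℚ L).index = 1 := by
  rw [Subgroup.index_eq_one, Subgroup.eq_top_iff']
  intro u
  rcases units_rat u with rfl | rfl
  · exact one_mem _
  · rw [mem_normUnits]
    obtain ⟨x, hx⟩ := h
    exact ⟨x, by rw [hx]; simp⟩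

theorem index_normUnits_eq_two (h : ¬ ∃ x : L, Algebra.norm ℚ x = -1) :
    (normUnits ℚ L).index = 2 := by
  have h1 := (normUnits ℚ L).index_dvd_card
  rw [card_units_rat] at h1
  refine ((Nat.dvd_prime Nat.prime_two).mp h1).resolve_left fun h2 => h ?_
  rw [Subgroup.index_eq_one] at h2
  have h3 : (-1 : (𝓞 ℚ)ˣ) ∈ normUnits ℚ L := h2 ▸ Subgroup.mem_top _
  rw [mem_normUnits] at h3
  obtain ⟨x, hx⟩ := h3
  exact ⟨x, by rw [hx]; simp⟩

theorem ramInf_of_real [IsTotallyReal L] : ramInf ℚ L = 0 := by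
  rw [ramInf, Nat.card_eq_zero]
  left
  refine ⟨fun v => v.2 fun w _ => ?_⟩
  exact InfinitePlace.isUnramified_iff.mpr (Or.inl (IsTotallyReal.isReal w))

theorem ramInf_of_complex [IsTotallyComplex L] : ramInf ℚ L = 1 := by
  rw [ramInf, Nat.card_eq_one_iff_unique]
  refine ⟨⟨fun v v' => Subtype.ext (Subsingleton.elim _ _)⟩, ?_⟩
  obtain ⟨w⟩ : Nonempty (InfinitePlace L) := inferInstance
  refine ⟨⟨w.comap (algebraMap ℚ L), fun h => ?_⟩⟩
  have h1 := h w rfl
  rw [InfinitePlace.isUnramified_iff] at h1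
  rcases h1 with h1 | h1
  · exact InfinitePlace.not_isReal_iff_isComplex.mpr (IsTotallyComplex.isComplex w) h1
  · exact InfinitePlace.not_isReal_iff_isComplex.mpr h1 (IsTotallyReal.isReal _)

theorem norm_nonneg_of_complex [IsTotallyComplex L] (h2 : Module.finrank ℚ L = 2) (x : L) :
    0 ≤ Algebra.norm ℚ x := by
  classical
  obtain ⟨w⟩ : Nonempty (InfinitePlace L) := inferInstance
  let φ : L →+* ℂ := w.embedding
  let a : L →ₐ[ℚ] ℂ := φ.toRatAlgHom
  let b : L →ₐ[ℚ] ℂ := (ComplexEmbedding.conjugate φ).toRatAlgHom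
  have hne : a ≠ b := by
    intro h
    have h1 : φ = ComplexEmbedding.conjugate φ := by
      ext y
      exact DFunLike.congr_fun h y
    have h3 : ComplexEmbedding.IsReal φ := h1.symm
    exact (InfinitePlace.isComplex_iff.mp (IsTotallyComplex.isComplex w)) h3
  have hu : ({a, b} : Finset (L →ₐ[ℚ] ℂ)) = Finset.univ := by
    apply Finset.eq_univ_of_card
    rw [Finset.card_pair hne, AlgHom.card, h2]
  have h3 := Algebra.norm_eq_prod_embeddings ℚ ℂ x
  rw [← hu, Finset.prod_pair hne] at h3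
  have h4 : ((Algebra.norm ℚ x : ℝ) : ℂ) = ((Complex.normSq (φ x) : ℝ) : ℂ) := by
    rw [Complex.normSq_eq_conj_mul_self, mul_comm]
    push_cast
    exact h3
  have h5 : ((Algebra.norm ℚ x : ℚ) : ℝ) = Complex.normSq (φ x) := by exact_mod_cast h4
  have h6 : (0 : ℝ) ≤ ((Algebra.norm ℚ x : ℚ) : ℝ) := by
    rw [h5]
    exact Complex.normSq_nonneg _
  exact_mod_cast h6

variable {L}

/-- **Gauss' theorem for imaginary quadratic fields**: `#Cl(L)[2] = 2 ^ (t - 1)`, where `t` is the
number of prime divisors of the discriminant. -/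
theorem two_mul_card_two_torsion_of_complex [IsTotallyComplex L] (h2 : Module.finrank ℚ L = 2) :
    2 * Nat.card {c : ClassGroup (𝓞 L) // c ^ 2 = 1} =
      2 ^ (discr L).natAbs.primeFactors.card := by
  have : Algebra.IsQuadraticExtension ℚ L := ⟨h2⟩
  have h := card_two_torsion (K := ℚ) (L := L) h2 Rat.classNumber_eq
  rw [ncard_ram, ramInf_of_complex, index_normUnits_eq_two L (by
    rintro ⟨x, hx⟩
    have := norm_nonneg_of_complex L h2 x
    rw [hx] at this
    norm_num at this)] at h
  omega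

/-- **Gauss' theorem for real quadratic fields**, if `-1` is the norm of an element of `L`:
`#Cl(L)[2] = 2 ^ (t - 1)`. -/
theorem two_mul_card_two_torsion_of_real [IsTotallyReal L] (h2 : Module.finrank ℚ L = 2)
    (h : ∃ x : L, Algebra.norm ℚ x = -1) :
    2 * Nat.card {c : ClassGroup (𝓞 L) // c ^ 2 = 1} =
      2 ^ (discr L).natAbs.primeFactors.card := by
  have : Algebra.IsQuadraticExtension ℚ L := ⟨h2⟩
  have h := card_two_torsion (K := ℚ) (L := L) h2 Rat.classNumber_eq
  rw [ncard_ram, ramInf_of_real, index_normUnits_eq_one L ‹_›] at h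
  omega

/-- **Gauss' theorem for real quadratic fields**, if `-1` is not the norm of an element of `L`:
`#Cl(L)[2] = 2 ^ (t - 2)`. -/
theorem four_mul_card_two_torsion_of_real [IsTotallyReal L] (h2 : Module.finrank ℚ L = 2)
    (h : ¬ ∃ x : L, Algebra.norm ℚ x = -1) :
    4 * Nat.card {c : ClassGroup (𝓞 L) // c ^ 2 = 1} =
      2 ^ (discr L).natAbs.primeFactors.card := by
  have : Algebra.IsQuadraticExtension ℚ L := ⟨h2⟩
  have h := card_two_torsion (K := ℚ) (L := L) h2 Rat.classNumber_eq
  rw [ncard_ram, ramInf_of_real, index_normUnits_eq_two L ‹_›] at h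
  omega

end Rat

end Fermat.Agent.Cor.Ambi
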