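import Fermat.Agent.Corollaries.Ambi.PExt
import Fermat.Agent.Corollaries.Ambi.Quad

/-!
# `p`-extensions in which one place ramifies

`L / K` Galois of degree `p ^ n`, unramified at infinity, at most one finite place of `K` ramified
in `L`, `p ∤ h(K)`: the ramified place is totally ramified and `p ∤ h(L)`. For `K = ℚ`: a Galois
extension of `ℚ` of degree `p ^ n` whose discriminant is divisible by one prime only (`p` odd or `L`
totally real) has class number prime to `p`.
-/

set_option autoImplicit false
set_option linter.unusedSectionVars false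

namespace Fermat.Agent.Cor.Ambi

open IsDedekindDomain NumberField
open Fermat.Agent.CFT.SUnits
open scoped Pointwise

/-- a normal maximal subgroup of a finite group has prime index -/
theorem index_prime_of_coatom {G : Type*} [Group G] [Finite G] {M : Subgroup G} [M.Normal]
    (hM : IsCoatom M) : M.index.Prime := by
  have h4 : Nat.card (G ⧸ M) ≠ 1 := by
    rw [← Subgroup.index_eq_card, Ne, Subgroup.index_eq_one]
    exact hM.1
  obtain ⟨ℓ, hℓ, hdvd⟩ := Nat.exists_prime_and_dvd h4
  have : Fact ℓ.Prime := ⟨hℓ⟩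
  obtain ⟨x, hx⟩ := exists_prime_orderOf_dvd_card' ℓ hdvd
  have h5 : M < (Subgroup.zpowers x).comap (QuotientGroup.mk' M) := by
    refine lt_of_le_of_ne ?_ fun h => ?_
    · intro m hm
      rw [Subgroup.mem_comap, QuotientGroup.mk'_apply, (QuotientGroup.eq_one_iff m).mpr hm]
      exact Subgroup.one_mem _
    · obtain ⟨g, rfl⟩ := QuotientGroup.mk'_surjective M x
      have h6 : g ∈ (Subgroup.zpowers (QuotientGroup.mk' M g)).comap (QuotientGroup.mk' M) :=
        Subgroup.mem_zpowers _
      rw [← h] at h6
      have h7 : QuotientGroup.mk' M g = 1 := (QuotientGroup.eq_one_iff g).mpr h6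
      rw [h7, orderOf_one] at hx
      exact hℓ.one_lt.ne hx
  have h6 := hM.2 _ h5
  have h7 : Subgroup.zpowers x = ⊤ := by
    rw [← Subgroup.comap_top (QuotientGroup.mk' M)] at h6
    exact Subgroup.comap_injective (QuotientGroup.mk'_surjective M) h6
  rw [Subgroup.index_eq_card, ← Subgroup.card_top, ← h7, Nat.card_zpowers, hx]
  exact hℓ

section

variable {K L : Type*} [Field K] [NumberField K] [Field L] [NumberField L] [Algebra K L]
  [IsGalois K L]

/-- if the inertia group is in `N` then `w` is unramified over `K` in the fixed field of `N` -/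
lemma ramIdx_fixedField (N : Subgroup Gal(L/K)) (w : HeightOneSpectrum (𝓞 L))
    (h : w.asIdeal.inertia Gal(L/K) ≤ N) :
    ramIdx (IntermediateField.fixedField N) w = ramIdx K w := by
  rw [ramIdx_eq_card_inertia, ramIdx_eq_card_inertia]
  have hact : ∀ (τ : Gal(L/(IntermediateField.fixedField N))) (x : 𝓞 L),
      τ • x = (τ.restrictScalars K : Gal(L/K)) • x := by
    intro τ x
    apply RingOfIntegers.coe_injective
    rw [coe_smul_int, coe_smul_int]
    rfl
  refine Nat.card_eq_of_bijective (fun τ : w.asIdeal.inertia Gal(L/(IntermediateField.fixedField N))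
    => (⟨τ.1.restrictScalars K, fun x => ?_⟩ : w.asIdeal.inertia Gal(L/K))) ⟨?_, ?_⟩
  · rw [← hact]
    exact τ.2 x
  · intro τ τ' h1
    apply Subtype.ext
    refine AlgEquiv.ext fun x => ?_
    have h2 : τ.1.restrictScalars K = τ'.1.restrictScalars K := congrArg Subtype.val h1
    exact DFunLike.congr_fun h2 x
  · intro σ
    let τ : Gal(L/(IntermediateField.fixedField N)) :=
      AlgEquiv.ofRingEquiv (f := σ.1.toRingEquiv) fun x => x.2 ⟨σ.1, h σ.2⟩
    have h1 : τ.restrictScalars K = σ.1 := AlgEquiv.ext fun x => rfl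
    refine ⟨⟨τ, fun x => ?_⟩, Subtype.ext h1⟩
    rw [hact, h1]
    exact σ.2 x

/-- **the ramified place is totally ramified** -/
theorem inertia_eq_top {p n : ℕ} (hp : p.Prime) (hd : Module.finrank K L = p ^ n)
    [IsUnramifiedAtInfinitePlaces K L] (h : (ram K L).Subsingleton) (hK : ¬ p ∣ classNumber K)
    {w : HeightOneSpectrum (𝓞 L)} (hw : ramIdx K w ≠ 1) : w.asIdeal.inertia Gal(L/K) = ⊤ := by
  have hfact : Fact p.Prime := ⟨hp⟩
  by_contra hne
  obtain ⟨N, hN, hle⟩ := (eq_top_or_exists_le_coatom (w.asIdeal.inertia Gal(L/K))).resolve_left hne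
  have h1 : IsPGroup p Gal(L/K) := IsPGroup.of_card (n := n) (by
    rw [IsGalois.card_aut_eq_finrank, hd])
  have h2 := h1.isNilpotent
  have hnorm : N.Normal :=
    Subgroup.NormalizerCondition.normal_of_coatom (H := N)
      Group.normalizerCondition_of_isNilpotent hN
  have hprime := index_prime_of_coatom hN
  set F := IntermediateField.fixedField N with hF
  have h3 := Module.finrank_mul_finrank K F L
  rw [hF, IntermediateField.finrank_fixedField_eq_card, ← IsGalois.card_aut_eq_finrank K L,
    ← N.index_mul_card] at h3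
  have h4 : Module.finrank K F = N.index := Nat.eq_of_mul_eq_mul_right Nat.card_pos h3
  have h5 : Module.finrank K F = p := by
    have h6 : Module.finrank K F ∣ p ^ n := by
      rw [← hd]
      exact ⟨_, (Module.finrank_mul_finrank K F L).symm⟩
    rw [h4] at h6 ⊢
    exact (Nat.prime_dvd_prime_iff_eq hprime hp).mp (hprime.dvd_of_dvd_pow h6)
  have h6 : IsUnramifiedAtInfinitePlaces K F := IsUnramifiedAtInfinitePlaces.bot K F L
  have hgal : IsGalois K F := IsGalois.of_fixedField_normal_subgroup N
  have h7 : ramIdx K (under F w) = 1 := by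
    have h8 := (ramIdx_tower (K := K) (F := F) w).2
    rw [ramIdx_fixedField N w hle] at h8
    have h9 := ramIdx_ne_zero K w
    exact (Nat.eq_of_mul_eq_mul_right (Nat.pos_of_ne_zero h9) ((one_mul _).trans h8)).symm
  refine hK (dvd_classNumber_of_unramified (L := F) hp h5 fun u => ?_)
  change ramIdx K u = 1
  obtain ⟨w', rfl⟩ := under_surjective L u
  by_cases hw' : ramIdx K w' = 1
  · have h8 := (ramIdx_tower (K := K) (F := F) w').2
    rw [hw'] at h8
    exact Nat.eq_one_of_mul_eq_one_right h8.symm
  · have h8 : under K w = under K w' := h ⟨w, rfl, hw⟩ ⟨w', rfl, hw'⟩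
    rw [← (ramIdx_tower (K := K) (F := F) w).1, ← (ramIdx_tower (K := K) (F := F) w').1] at h8
    obtain ⟨g, hg⟩ := exists_smul_eq h8
    rw [← hg, ramIdx_smul, h7]

/-- the place above the ramified place is unique -/
theorem subsingleton_ramified {p n : ℕ} (hp : p.Prime) (hd : Module.finrank K L = p ^ n)
    [IsUnramifiedAtInfinitePlaces K L] (h : (ram K L).Subsingleton) (hK : ¬ p ∣ classNumber K) :
    {w : HeightOneSpectrum (𝓞 L) | ramIdx K w ≠ 1}.Subsingleton := by
  intro w hw w' hw'
  obtain ⟨g, hg⟩ := exists_smul_eq (h ⟨w, rfl, hw⟩ ⟨w', rfl, hw'⟩ : under K w = under K w')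
  have h1 : g⁻¹ ∈ w.asIdeal.inertia Gal(L/K) := by
    rw [inertia_eq_top hp hd h hK hw]
    trivial
  rw [← hg]
  apply HeightOneSpectrum.ext
  ext x
  rw [smul_asIdeal, Ideal.mem_pointwise_smul_iff_inv_smul_mem]
  have h2 : g⁻¹ • x - x ∈ w.asIdeal := h1 x
  constructor
  · intro hx
    have := w.asIdeal.add_mem h2 hx
    rwa [sub_add_cancel] at this
  · intro hx
    have := w.asIdeal.sub_mem hx h2
    rwa [sub_sub_cancel] at this

/-- **`L / K` Galois of degree `p ^ n`, unramified at infinity, at most one finite place of `K`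
ramified, `p ∤ h(K)`: a ramified place is totally ramified.** -/
theorem ramIdx_eq_finrank {p n : ℕ} (hp : p.Prime) (hd : Module.finrank K L = p ^ n)
    [IsUnramifiedAtInfinitePlaces K L] (h : (ram K L).Subsingleton) (hK : ¬ p ∣ classNumber K)
    {w : HeightOneSpectrum (𝓞 L)} (hw : ramIdx K w ≠ 1) : ramIdx K w = Module.finrank K L := by
  rw [ramIdx_eq_card_inertia, inertia_eq_top hp hd h hK hw, Subgroup.card_top,
    IsGalois.card_aut_eq_finrank]

/-- **Iwasawa**: `L / K` Galois of degree `p ^ n`, unramified at infinity, at most one finite place of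
`K` ramified in `L`: `p ∤ h(K)` implies `p ∤ h(L)`. -/
theorem not_dvd_classNumber_of_ram {p n : ℕ} (hp : p.Prime) (hd : Module.finrank K L = p ^ n)
    [IsUnramifiedAtInfinitePlaces K L] (h : (ram K L).Subsingleton) (hK : ¬ p ∣ classNumber K) :
    ¬ p ∣ classNumber L :=
  not_dvd_classNumber_of_subsingleton hp hd (subsingleton_ramified hp hd h hK) hK

end

/-- **Galois extensions of `ℚ` of degree `p ^ n` whose discriminant is divisible by at most one prime
(`p` odd or `L` totally real) have class number prime to `p`.** -/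
theorem not_dvd_classNumber_rat {L : Type*} [Field L] [NumberField L] [IsGalois ℚ L] {p n : ℕ}
    (hp : p.Prime) (hd : Module.finrank ℚ L = p ^ n) (hreal : p ≠ 2 ∨ IsTotallyReal L)
    (h : (discr L).natAbs.primeFactors.card ≤ 1) : ¬ p ∣ classNumber L := by
  have h1 : IsUnramifiedAtInfinitePlaces ℚ L := by
    rcases hreal with h2 | h2
    · refine IsUnramifiedAtInfinitePlaces_of_odd_finrank ?_
      rw [hd]
      exact (hp.odd_of_ne_two h2).pow
    · refine ⟨fun w => ?_⟩
      rw [InfinitePlace.isUnramified_iff]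
      exact Or.inl (IsTotallyReal.isReal w)
  rw [← ncard_ram] at h
  have h2 : (ram ℚ L).Subsingleton := fun a ha b hb =>
    (Set.ncard_le_one (finite_ram ℚ L)).mp h a ha b hb
  refine not_dvd_classNumber_of_ram hp hd h2 ?_
  rw [Rat.classNumber_eq, Nat.dvd_one]
  exact hp.one_lt.ne'

end Fermat.Agent.Cor.Ambi
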