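import Fermat.Agent.Corollaries.Ambi.Final
import Fermat.Agent.Corollaries.Ambi.Tower
import Mathlib.GroupTheory.Solvable
import Mathlib.GroupTheory.Nilpotent
import Mathlib.FieldTheory.Galois.Basic

/-!
# Class numbers in solvable extensions

* `L / K` Galois with solvable group, unramified at all places, `L ≠ K`: some prime divisor of
  `[L : K]` divides the class number of `K`.
* **Iwasawa**: `L / K` Galois of degree `p ^ n`, unramified at the infinite places, at most one
  finite place of `L` ramified: `p ∤ h(K)` implies `p ∤ h(L)`.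
-/

set_option autoImplicit false
set_option linter.unusedSectionVars false

universe u

namespace Fermat.Agent.Cor.Ambi

open IsDedekindDomain NumberField
open Fermat.Agent.CFT.SUnits

/-- a nontrivial finite solvable group has a normal subgroup of prime index -/
theorem exists_normal_prime_index (G : Type*) [Group G] [Finite G] [Nontrivial G]
    (hG : Group.IsSolvable G) : ∃ N : Subgroup G, N.Normal ∧ N.index.Prime := by
  have h1 := Group.IsSolvable.commutator_lt_top_of_nontrivial (G := G)
  obtain ⟨M, hM, hle⟩ := (eq_top_or_exists_le_coatom (commutator G)).resolve_left h1.ne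
  have hnorm : M.Normal := by
    refine ⟨fun m hm g => ?_⟩
    have h2 : g * m * g⁻¹ * m⁻¹ ∈ M := hle (by
      have := Subgroup.commutator_mem_commutator (Subgroup.mem_top g) (Subgroup.mem_top m)
      rwa [commutatorElement_def] at this)
    have h3 := M.mul_mem h2 hm
    rwa [inv_mul_cancel_right] at h3
  refine ⟨M, hnorm, ?_⟩
  have h4 : Nat.card (G ⧸ M) ≠ 1 := by
    rw [← Subgroup.index_eq_card, Ne, Subgroup.index_eq_one]
    exact hM.1
  obtain ⟨ℓ, hℓ, hdvd⟩ := Nat.exists_prime_and_dvd h4
  have : Fact ℓ.Prime := ⟨hℓ⟩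
  obtain ⟨x, hx⟩ := exists_prime_orderOf_dvd_card' ℓ hdvd
  have h5 : M < (Subgroup.zpowers x).comap (QuotientGroup.mk' M) := by
    refine lt_of_le_of_ne ?_ fun h => ?_
    · intro m hm
      rw [Subgroup.mem_comap, QuotientGroup.mk'_apply, (QuotientGroup.eq_one_iff m).mpr hm]
      exact Subgroup.one_mem _
    · obtain ⟨g, rfl⟩ := QuotientGroup.mk'_surjective M x
      have h6 : g ∈ (Subgroup.zpowers (QuotientGroup.mk' M g)).comap (QuotientGroup.mk' M) :=
        Subgroup.mem_zpowers _
      rw [← h] at h6
      have h7 : QuotientGroup.mk' M g = 1 := (QuotientGroup.eq_one_iff g).mpr h6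
      rw [h7, orderOf_one] at hx
      exact hℓ.one_lt.ne hx
  have h6 := hM.2 _ h5
  have h7 : Subgroup.zpowers x = ⊤ := by
    rw [← Subgroup.comap_top (QuotientGroup.mk' M)] at h6
    exact Subgroup.comap_injective (QuotientGroup.mk'_surjective M) h6
  rw [Subgroup.index_eq_card, ← Subgroup.card_top, ← h7, Nat.card_zpowers, hx]
  exact hℓ

section

variable {K L : Type*} [Field K] [NumberField K] [Field L] [NumberField L] [Algebra K L]

/-- ramification indices in a tower -/
lemma ramIdx_tower {F : Type*} [Field F] [NumberField F] [Algebra K F] [Algebra F L]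
    [IsScalarTower K F L] (w : HeightOneSpectrum (𝓞 L)) :
    under K (under F w) = under K w ∧ ramIdx K w = ramIdx K (under F w) * ramIdx F w := by
  have h1 : under K (under F w) = under K w := by
    apply HeightOneSpectrum.ext
    rw [under_asIdeal, under_asIdeal, under_asIdeal, Ideal.under_under]
  refine ⟨h1, ?_⟩
  rw [ramIdx, ramIdx, ramIdx, h1]
  have h2 : (under F w).asIdeal.LiesOver (under K w).asIdeal := by
    rw [← h1]
    infer_instance
  exact Ideal.ramificationIdx'_algebra_tower' _ _ _

/-- an intermediate Galois extension of prime degree -/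
theorem exists_intermediate [IsGalois K L] (hs : Group.IsSolvable Gal(L/K))
    (h1 : Module.finrank K L ≠ 1) :
    ∃ F : IntermediateField K L, IsGalois K F ∧ (Module.finrank K F).Prime := by
  have h2 : Nontrivial Gal(L/K) := by
    rw [← Finite.one_lt_card_iff_nontrivial, IsGalois.card_aut_eq_finrank]
    have := Module.finrank_pos (R := K) (M := L)
    omega
  obtain ⟨N, hN, hprime⟩ := exists_normal_prime_index Gal(L/K) hs
  refine ⟨IntermediateField.fixedField N, inferInstance, ?_⟩
  have h3 := Module.finrank_mul_finrank K (IntermediateField.fixedField N) L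
  rw [IntermediateField.finrank_fixedField_eq_card, ← IsGalois.card_aut_eq_finrank K L,
    ← N.index_mul_card] at h3
  have h4 : 0 < Nat.card N := Nat.card_pos
  rw [Nat.eq_of_mul_eq_mul_right h4 h3]
  exact hprime

/-- `L / K` Galois with solvable group, unramified everywhere, `L ≠ K`: a prime divisor of `[L : K]`
divides the class number of `K`. -/
theorem exists_prime_dvd_classNumber [IsGalois K L] (hs : Group.IsSolvable Gal(L/K))
    (h1 : Module.finrank K L ≠ 1)
    (h : ∀ w : HeightOneSpectrum (𝓞 L), (w.asIdeal.under (𝓞 K)).ramificationIdx' w.asIdeal = 1)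
    [IsUnramifiedAtInfinitePlaces K L] :
    ∃ p : ℕ, p.Prime ∧ p ∣ Module.finrank K L ∧ p ∣ classNumber K := by
  obtain ⟨F, hF, hp⟩ := exists_intermediate hs h1
  have : IsUnramifiedAtInfinitePlaces K F := IsUnramifiedAtInfinitePlaces.bot K F L
  refine ⟨_, hp, ⟨_, (Module.finrank_mul_finrank K F L).symm⟩,
    dvd_classNumber_of_unramified (L := F) hp rfl fun u => ?_⟩
  obtain ⟨w, rfl⟩ := under_surjective L u
  have h2 := (ramIdx_tower (K := K) (F := F) w).2
  have h3 : ramIdx K w = 1 := h w
  rw [h3] at h2
  exact Nat.eq_one_of_mul_eq_one_right h2.symm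

/-- a number field with class number one has no nontrivial Galois extension with solvable group
which is unramified at all places -/
theorem finrank_eq_one [IsGalois K L] (hs : Group.IsSolvable Gal(L/K)) (hK : classNumber K = 1)
    (h : ∀ w : HeightOneSpectrum (𝓞 L), (w.asIdeal.under (𝓞 K)).ramificationIdx' w.asIdeal = 1)
    [IsUnramifiedAtInfinitePlaces K L] : Module.finrank K L = 1 := by
  by_contra h1
  obtain ⟨p, hp, -, h2⟩ := exists_prime_dvd_classNumber hs h1 h
  rw [hK] at h2
  exact hp.one_lt.ne' (Nat.dvd_one.mp h2)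

end

/-- one step in a `p`-extension with at most one ramified place -/
theorem exists_step {K L : Type*} [Field K] [NumberField K] [Field L] [NumberField L] [Algebra K L]
    [IsGalois K L] [IsUnramifiedAtInfinitePlaces K L] {p : ℕ} (hp : p.Prime) {n : ℕ}
    (hd : Module.finrank K L = p ^ (n + 1))
    (h : {w : HeightOneSpectrum (𝓞 L) | ramIdx K w ≠ 1}.Subsingleton)
    (hK : ¬ p ∣ classNumber K) :
    ∃ F : IntermediateField K L, Module.finrank F L = p ^ n ∧ IsUnramifiedAtInfinitePlaces F L ∧
      {w : HeightOneSpectrum (𝓞 L) | ramIdx F w ≠ 1}.Subsingleton ∧ ¬ p ∣ classNumber F := by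
  have hfact : Fact p.Prime := ⟨hp⟩
  have hs : Group.IsSolvable Gal(L/K) := by
    have h1 : IsPGroup p Gal(L/K) := IsPGroup.of_card (n := n + 1) (by
      rw [IsGalois.card_aut_eq_finrank, hd])
    have h2 := h1.isNilpotent
    infer_instance
  obtain ⟨F, hF, hprime⟩ := exists_intermediate hs (by
    rw [hd]
    exact (Nat.one_lt_pow (Nat.succ_ne_zero n) hp.one_lt).ne')
  have h1 := Module.finrank_mul_finrank K F L
  have h2 : Module.finrank K F = p := by
    have h3 : Module.finrank K F ∣ p ^ (n + 1) := ⟨_, by rw [h1, hd]⟩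
    exact (Nat.prime_dvd_prime_iff_eq hprime hp).mp (hprime.dvd_of_dvd_pow h3)
  have h3 : Module.finrank F L = p ^ n := by
    rw [h2, hd, pow_succ'] at h1
    exact Nat.eq_of_mul_eq_mul_left hp.pos h1
  have h4 : IsUnramifiedAtInfinitePlaces K F := IsUnramifiedAtInfinitePlaces.bot K F L
  have h5 : ramInf K F = 0 := by
    rw [ramInf, Nat.card_eq_zero]
    exact Or.inl ⟨fun v => v.2 (InfinitePlace.isUnramifiedIn F v.1)⟩
  refine ⟨F, h3, IsUnramifiedAtInfinitePlaces.top K F L, ?_, ?_⟩
  · intro w hw w' hw'
    refine h ?_ ?_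
    · rw [Set.mem_ofPred_eq, (ramIdx_tower (K := K) (F := F) w).2]
      exact fun h6 => hw (Nat.eq_one_of_mul_eq_one_left h6)
    · rw [Set.mem_ofPred_eq, (ramIdx_tower (K := K) (F := F) w').2]
      exact fun h6 => hw' (Nat.eq_one_of_mul_eq_one_left h6)
  · refine not_dvd_classNumber_of_le_one (K := K) (L := F) hp h2 ?_ hK
    rw [h5, add_zero]
    have hsub : (ram K F).Subsingleton := by
      rintro _ ⟨u, rfl, hu⟩ _ ⟨u', rfl, hu'⟩
      obtain ⟨w, rfl⟩ := under_surjective L u
      obtain ⟨w', rfl⟩ := under_surjective L u'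
      have h7 : w = w' := by
        refine h ?_ ?_
        · rw [Set.mem_ofPred_eq, (ramIdx_tower (K := K) (F := F) w).2]
          exact fun h6 => hu (Nat.eq_one_of_mul_eq_one_right h6)
        · rw [Set.mem_ofPred_eq, (ramIdx_tower (K := K) (F := F) w').2]
          exact fun h6 => hu' (Nat.eq_one_of_mul_eq_one_right h6)
      rw [h7]
    exact (Set.ncard_le_one hsub.finite).mpr fun a ha b hb => hsub ha hb

theorem not_dvd_aux {p : ℕ} (hp : p.Prime) (n : ℕ) : ∀ {K L : Type u} [Field K] [NumberField K]
    [Field L] [NumberField L] [Algebra K L] [IsGalois K L] [IsUnramifiedAtInfinitePlaces K L],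
    Module.finrank K L = p ^ n → {w : HeightOneSpectrum (𝓞 L) | ramIdx K w ≠ 1}.Subsingleton →
    ¬ p ∣ classNumber K → ¬ p ∣ classNumber L := by
  induction n with
  | zero =>
    intro K L _ _ _ _ _ _ _ hd _ hK
    rw [pow_zero] at hd
    have h2 : (⊥ : Subalgebra K L) = ⊤ := Subalgebra.bot_eq_top_of_finrank_eq_one hd
    have e : K ≃ₐ[K] L := (Algebra.botEquivOfInjective (algebraMap K L).injective).symm.trans
      ((Subalgebra.equivOfEq _ _ h2).trans Subalgebra.topEquiv)
    rwa [← classNumber_congr e.toRingEquiv]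
  | succ n ih =>
    intro K L _ _ _ _ _ _ _ hd h hK
    obtain ⟨F, h1, h2, h3, h4⟩ := exists_step hp hd h hK
    exact ih (K := F) h1 h3 h4

/-- **Iwasawa**: `L / K` Galois of degree `p ^ n`, unramified at the infinite places, at most one
place of `L` ramified over `K`. If `p` does not divide the class number of `K` then `p` does not
divide the class number of `L`. -/
theorem not_dvd_classNumber_of_subsingleton {p : ℕ} (hp : p.Prime) {n : ℕ} {K L : Type*} [Field K]
    [NumberField K] [Field L] [NumberField L] [Algebra K L] [IsGalois K L]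
    [IsUnramifiedAtInfinitePlaces K L] (hd : Module.finrank K L = p ^ n)
    (h : {w : HeightOneSpectrum (𝓞 L) |
      (w.asIdeal.under (𝓞 K)).ramificationIdx' w.asIdeal ≠ 1}.Subsingleton)
    (hK : ¬ p ∣ classNumber K) : ¬ p ∣ classNumber L := by
  cases n with
  | zero =>
    rw [pow_zero] at hd
    have h2 : (⊥ : Subalgebra K L) = ⊤ := Subalgebra.bot_eq_top_of_finrank_eq_one hd
    have e : K ≃ₐ[K] L := (Algebra.botEquivOfInjective (algebraMap K L).injective).symm.trans
      ((Subalgebra.equivOfEq _ _ h2).trans Subalgebra.topEquiv)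
    rwa [← classNumber_congr e.toRingEquiv]
  | succ n =>
    obtain ⟨F, h1, h2, h3, h4⟩ := exists_step hp hd h hK
    exact not_dvd_aux hp n (K := F) h1 h3 h4

end Fermat.Agent.Cor.Ambi
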