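import Fermat.Agent.Corollaries.Ambi.ClassOne

/-!
# Finite class field towers

`K` totally complex: `K` is contained in a number field of class number one if and only if the degrees
of the Galois extensions of `K` with solvable group which are unramified at all finite places are
bounded.
-/

set_option autoImplicit false
set_option linter.unusedSectionVars false

namespace Fermat.Agent.Cor.Ambi

open IsDedekindDomain NumberField
open Fermat.Agent.CFT.SUnits Fermat.Agent.CFT.ChevMul
open scoped Pointwise nonZeroDivisors

/-- a copy of a field -/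
def Tw (M : Type*) : Type _ := M

noncomputable instance (M : Type*) [Field M] : Field (Tw M) := inferInstanceAs (Field M)

noncomputable instance (M : Type*) [Field M] [NumberField M] : NumberField (Tw M) :=
  inferInstanceAs (NumberField M)

/-- automorphisms of the base extend to the Hilbert class field -/
theorem exists_extend_aut {M M' : Type*} [Field M] [NumberField M] [Field M'] [NumberField M']
    [Algebra M M'] [IsAbelianGalois M M']
    (hunr : ∀ w : HeightOneSpectrum (𝓞 M'),
      (w.asIdeal.under (𝓞 M)).ramificationIdx' w.asIdeal = 1)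
    [IsUnramifiedAtInfinitePlaces M M']
    (hM : ∀ v : HeightOneSpectrum (𝓞 M), ChebK.HasDegOne M' v → v.asIdeal.IsPrincipal)
    (τ : M ≃+* M) : ∃ f : M' →+* M', ∀ x : M, f (algebraMap M M' x) = algebraMap M M' (τ x) := by
  let _ : Algebra M (Tw M') := ((algebraMap M M').comp (τ : M →+* M)).toAlgebra
  obtain ⟨f⟩ := nonempty_algHom_of_isPrincipal (K := M) (L := M') (M := Tw M') (by
    rintro v ⟨u, hu, hN⟩
    let u' : HeightOneSpectrum (𝓞 M') := u
    let v₁ := u'.under (𝓞 M)
    let τO : 𝓞 M ≃+* 𝓞 M := RingOfIntegers.mapRingEquiv τ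
    have h1 : v.asIdeal = v₁.asIdeal.comap (τO : 𝓞 M →+* 𝓞 M) := by
      rw [← hu]
      ext x
      exact Iff.rfl
    have h2 : v₁.asIdeal = v.asIdeal.map (τO : 𝓞 M →+* 𝓞 M) := by
      rw [h1]
      exact (Ideal.map_comap_of_surjective (τO : 𝓞 M →+* 𝓞 M) τO.surjective _).symm
    have h3 : Ideal.absNorm v.asIdeal = Ideal.absNorm v₁.asIdeal :=
      Nat.card_congr (Ideal.quotientEquiv v.asIdeal v₁.asIdeal τO h2).toEquiv
    have h4 : ChebK.HasDegOne M' v₁ := ⟨u', rfl, hN.trans h3⟩
    obtain ⟨a, ha⟩ := hM v₁ h4
    refine ⟨τO.symm a, ?_⟩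
    have h5 : v.asIdeal = v₁.asIdeal.map (τO.symm : 𝓞 M →+* 𝓞 M) := by
      rw [h1]
      exact (Ideal.map_symm τO).symm
    rw [h5, ha, Ideal.submodule_span_eq, Ideal.map_span, Set.image_singleton]
    rfl) hunr
  exact ⟨f.toRingHom, fun x => f.commutes x⟩

section Tower

variable {K M M' : Type*} [Field K] [NumberField K] [Field M] [NumberField M] [Field M']
  [NumberField M'] [Algebra K M] [Algebra K M'] [Algebra M M'] [IsScalarTower K M M']
  [IsGalois K M] [IsAbelianGalois M M']
  (hunr : ∀ w : HeightOneSpectrum (𝓞 M'),
      (w.asIdeal.under (𝓞 M)).ramificationIdx' w.asIdeal = 1)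
  [IsUnramifiedAtInfinitePlaces M M']
  (hM : ∀ v : HeightOneSpectrum (𝓞 M), ChebK.HasDegOne M' v → v.asIdeal.IsPrincipal)

include hunr hM in
theorem restrict_surjective : Function.Surjective
    (AlgEquiv.restrictNormalHom M : Gal(M'/K) →* Gal(M/K)) := by
  intro τ
  obtain ⟨f, hf⟩ := exists_extend_aut hunr hM τ.toRingEquiv
  let g : M' →ₐ[K] M' :=
    { f with
      commutes' := fun x => by
        change f (algebraMap K M' x) = algebraMap K M' x
        rw [IsScalarTower.algebraMap_apply K M M', hf]
        congr 1
        exact τ.commutes x }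
  have hg : Function.Bijective g := Algebra.IsAlgebraic.algHom_bijective g
  let σ : Gal(M'/K) := AlgEquiv.ofBijective g hg
  refine ⟨σ, ?_⟩
  ext x
  apply (algebraMap M M').injective
  change algebraMap M M' (σ.restrictNormal M x) = _
  rw [AlgEquiv.restrictNormal_commutes]
  exact hf x

/-- the kernel of the restriction -/
theorem card_ker_restrict :
    Nat.card (AlgEquiv.restrictNormalHom M : Gal(M'/K) →* Gal(M/K)).ker =
      Module.finrank M M' := by
  rw [← IsGalois.card_aut_eq_finrank M M']
  refine Nat.card_congr
    { toFun := fun σ => { σ.1 with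
        commutes' := fun x => by
          have h1 : σ.1.restrictNormal M = 1 := σ.2
          have h2 := σ.1.restrictNormal_commutes M x
          rw [h1] at h2
          exact h2.symm }
      invFun := fun σ => ⟨σ.restrictScalars K, by
        rw [MonoidHom.mem_ker]
        ext x
        apply (algebraMap M M').injective
        change algebraMap M M' ((σ.restrictScalars K).restrictNormal M x) = _
        rw [AlgEquiv.restrictNormal_commutes]
        exact σ.commutes x⟩
      left_inv := fun σ => rfl
      right_inv := fun σ => rfl }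

include hunr hM in
theorem isGalois_hilbert : IsGalois K M' := by
  apply IsGalois.of_card_aut_eq_finrank
  have h1 := Subgroup.card_mul_index (AlgEquiv.restrictNormalHom M : Gal(M'/K) →* Gal(M/K)).ker
  rw [Subgroup.index_ker, MonoidHom.range_eq_top.mpr (restrict_surjective hunr hM),
    Subgroup.card_top, card_ker_restrict, IsGalois.card_aut_eq_finrank, mul_comm,
    Module.finrank_mul_finrank] at h1
  exact h1.symm

include hunr hM in
theorem isSolvable_hilbert (hs : Group.IsSolvable Gal(M/K)) : Group.IsSolvable Gal(M'/K) := by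
  have hc : Group.IsSolvable Gal(M'/M) :=
    Group.isSolvable_of_comm fun a b => (IsMulCommutative.is_comm (M := Gal(M'/M))).comm a b
  let f : Gal(M'/M) →* Gal(M'/K) :=
    { toFun := fun σ => σ.restrictScalars K
      map_one' := rfl
      map_mul' := fun _ _ => rfl }
  refine Group.isSolvable_of_ker_le_range f
    (AlgEquiv.restrictNormalHom M : Gal(M'/K) →* Gal(M/K)) fun σ hσ => ?_
  refine ⟨{ σ with
    commutes' := fun x => by
      have h1 : σ.restrictNormal M = 1 := hσ
      have h2 := σ.restrictNormal_commutes M x
      rw [h1] at h2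
      exact h2.symm }, rfl⟩

end Tower

lemma isTotallyComplex_of_algebra (K M : Type*) [Field K] [NumberField K] [IsTotallyComplex K]
    [Field M] [NumberField M] [Algebra K M] : IsTotallyComplex M := by
  constructor
  intro w
  by_contra h
  rw [InfinitePlace.not_isComplex_iff_isReal] at h
  exact InfinitePlace.not_isReal_iff_isComplex.mpr (IsTotallyComplex.isComplex _)
    (h.comap (algebraMap K M))

/-- the field `M` is a solvable extension of `K` unramified at all finite places -/
def SolvUnr (K M : Type) [Field K] [NumberField K] [Field M] [NumberField M] [Algebra K M] : Prop :=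
  IsGalois K M ∧ Group.IsSolvable Gal(M/K) ∧
    ∀ w : HeightOneSpectrum (𝓞 M), (w.asIdeal.under (𝓞 K)).ramificationIdx' w.asIdeal = 1

/-- **finite class field towers**: `K` totally complex, the degrees of the solvable extensions of `K`
unramified at all finite places are bounded: `K` is contained in a number field of class number one -/
theorem exists_classNumber_eq_one (K : Type) [Field K] [NumberField K] [IsTotallyComplex K] (B : ℕ)
    (hB : ∀ (M : Type) [Field M] [NumberField M] [Algebra K M], SolvUnr K M →
      Module.finrank K M ≤ B) :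
    ∃ (L : Type) (_ : Field L) (_ : NumberField L) (_ : Algebra K L), SolvUnr K L ∧
      classNumber L = 1 := by
  classical
  let P : ℕ → Prop := fun n => ∃ (M : Type) (_ : Field M) (_ : NumberField M) (_ : Algebra K M),
    SolvUnr K M ∧ Module.finrank K M = n
  have hK : SolvUnr K K := by
    refine ⟨inferInstance, ?_, fun w => ?_⟩
    · exact Group.isSolvable_of_comm fun a b => Subsingleton.elim _ _
    · have h1 := ramIdx_le_finrank (K := K) w
      rw [Module.finrank_self] at h1
      have h2 : ramIdx K w ≠ 0 := ramIdx_ne_zero _ _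
      exact (by omega : ramIdx K w = 1)
  have hP : P 1 := ⟨K, inferInstance, inferInstance, inferInstance, hK, Module.finrank_self K⟩
  have hP1 : 1 ≤ B := by
    have := hB K hK
    rwa [Module.finrank_self] at this
  obtain ⟨M, fM, nM, aM, hM, hn⟩ := Nat.findGreatest_spec hP1 hP
  refine ⟨M, fM, nM, aM, hM, ?_⟩
  obtain ⟨gM, sM, uM⟩ := hM
  have hMc : IsTotallyComplex M := isTotallyComplex_of_algebra K M
  obtain ⟨M', fM', nM', aM', gM', e, hunr, he, hprin⟩ := exists_hilbert M
  have hab : IsMulCommutative Gal(M'/M) := ⟨⟨fun a b => e.injective (by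
    rw [map_mul, map_mul, mul_comm])⟩⟩
  have hM' : IsAbelianGalois M M' := { toIsGalois := gM', is_comm := hab.is_comm }
  have hinf : IsUnramifiedAtInfinitePlaces M M' := unramifiedAtInfinite
  let _ : Algebra K M' := ((algebraMap M M').comp (algebraMap K M)).toAlgebra
  have : IsScalarTower K M M' := IsScalarTower.of_algebraMap_eq fun x => rfl
  have h1 : SolvUnr K M' := by
    refine ⟨isGalois_hilbert (K := K) hunr hprin, isSolvable_hilbert (K := K) hunr hprin sM,
      fun w => ?_⟩
    have h2 := (ramIdx_tower (K := K) (F := M) w).2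
    have h3 : ramIdx K (under M w) = 1 := uM _
    have h4 : ramIdx M w = 1 := hunr w
    rw [h3, h4] at h2
    exact h2
  have h2 : P (Module.finrank K M') := ⟨M', fM', nM', inferInstance, h1, rfl⟩
  have h3 := Nat.le_findGreatest (hB M' h1) h2
  rw [← hn, ← Module.finrank_mul_finrank K M M'] at h3
  have h4 : 0 < Module.finrank K M := Module.finrank_pos
  have h5 : Module.finrank M M' ≤ 1 := Nat.le_of_mul_le_mul_left (by rwa [mul_one]) h4
  have h6 : 0 < Module.finrank M M' := Module.finrank_pos
  have h7 : classNumber M = Module.finrank M M' := by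
    rw [← IsGalois.card_aut_eq_finrank M M', Nat.card_congr e.toEquiv, Nat.card_eq_fintype_card]
    rfl
  omega

/-- **the class field tower and fields of class number one** -/
theorem exists_classNumber_eq_one_iff (K : Type) [Field K] [NumberField K] [IsTotallyComplex K] :
    (∃ (L : Type) (_ : Field L) (_ : NumberField L) (_ : Algebra K L), classNumber L = 1) ↔
      ∃ B : ℕ, ∀ (M : Type) [Field M] [NumberField M] [Algebra K M] [IsGalois K M],
        Group.IsSolvable Gal(M/K) → (∀ w : HeightOneSpectrum (𝓞 M),
          (w.asIdeal.under (𝓞 K)).ramificationIdx' w.asIdeal = 1) → Module.finrank K M ≤ B := by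
  constructor
  · rintro ⟨L, fL, nL, aL, hL⟩
    have hLc : IsTotallyComplex L := isTotallyComplex_of_algebra K L
    refine ⟨Module.finrank K L, fun M _ _ _ _ hs hu => ?_⟩
    obtain ⟨f⟩ := nonempty_algHom_of_classNumber_eq_one (K := K) hL hs hu
    exact LinearMap.finrank_le_finrank_of_injective (f := f.toLinearMap) f.injective
  · rintro ⟨B, hB⟩
    obtain ⟨L, fL, nL, aL, -, hL⟩ := exists_classNumber_eq_one K B fun M _ _ _ h => by
      have := h.1
      exact hB M h.2.1 h.2.2
    exact ⟨L, fL, nL, aL, hL⟩

end Fermat.Agent.Cor.Ambi
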