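import Fermat.Agent.Corollaries.Ambi.TowerFin
import Fermat.Agent.Corollaries.Ambi.ClassP

/-!
# Finite `p`-class field towers

`K` totally complex: `K` is contained in a number field `L` with `p ∤ h(L)` if and only if the degrees
of the Galois `p`-extensions of `K` which are unramified at all finite places are bounded.
-/

set_option autoImplicit false
set_option linter.unusedSectionVars false

namespace Fermat.Agent.Cor.Ambi

open IsDedekindDomain NumberField
open Fermat.Agent.CFT.SUnits Fermat.Agent.CFT.ChevMul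
open scoped Pointwise nonZeroDivisors

/-- the quotient by the prime to `p` part of an abelian normal subgroup -/
theorem exists_normal_index {G : Type*} [Group G] [Finite G] (A : Subgroup G) [hAn : A.Normal]
    (hA : ∀ a ∈ A, ∀ b ∈ A, a * b = b * a) {p : ℕ} (hp : p.Prime) (hdvd : p ∣ Nat.card A) :
    ∃ T : Subgroup G, T.Normal ∧ T ≤ A ∧ ∃ j, j ≠ 0 ∧ T.index = p ^ j * A.index := by
  have hfact : Fact p.Prime := ⟨hp⟩
  have hc : Nat.card A ≠ 0 := Nat.card_pos.ne'
  set k := (Nat.card A).factorization p with hk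
  set m := Nat.card A / p ^ k with hm
  have hmk : p ^ k * m = Nat.card A := Nat.ordProj_mul_ordCompl_eq_self _ _
  have hpm : ¬ p ∣ m := Nat.not_dvd_ordCompl hp hc
  let T : Subgroup G :=
    { carrier := {σ | σ ∈ A ∧ σ ^ m = 1}
      one_mem' := ⟨one_mem _, one_pow _⟩
      mul_mem' := by
        rintro a b ⟨ha, ha'⟩ ⟨hb, hb'⟩
        refine ⟨mul_mem ha hb, ?_⟩
        rw [(show Commute a b from hA a ha b hb).mul_pow, ha', hb', one_mul]
      inv_mem' := by
        rintro a ⟨ha, ha'⟩
        exact ⟨inv_mem ha, by rw [inv_pow, ha', inv_one]⟩ }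
  have hT : T.Normal := ⟨by
    rintro a ⟨ha, ha'⟩ g
    refine ⟨hAn.conj_mem a ha g, ?_⟩
    rw [conj_pow, ha', mul_one, mul_inv_cancel]⟩
  have hTA : T ≤ A := fun a ha => ha.1
  have hT' : (T.subgroupOf A).Normal := inferInstance
  have hpg : IsPGroup p (A ⧸ T.subgroupOf A) := by
    intro q
    obtain ⟨a, rfl⟩ := QuotientGroup.mk_surjective q
    refine ⟨k, ?_⟩
    rw [← QuotientGroup.mk_pow, QuotientGroup.eq_one_iff, Subgroup.mem_subgroupOf]
    refine ⟨(a ^ p ^ k).2, ?_⟩
    rw [← SubmonoidClass.coe_pow, ← pow_mul, hmk, pow_card_eq_one']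
    rfl
  obtain ⟨j, hj⟩ := IsPGroup.iff_card.mp hpg
  have h1 : T.relIndex A = p ^ j := hj
  refine ⟨T, hT, hTA, j, ?_, ?_⟩
  · rintro rfl
    rw [pow_zero, Subgroup.relIndex_eq_one] at h1
    obtain ⟨a, ha⟩ := exists_prime_orderOf_dvd_card' p hdvd
    have h2 : a ^ m = 1 := Subtype.ext (h1 a.2).2
    exact hpm (ha ▸ orderOf_dvd_of_pow_eq_one h2)
  · rw [← h1, Subgroup.relIndex_mul_index hTA]

/-- **finite `p`-class field towers** -/
theorem exists_not_dvd_classNumber (K : Type) [Field K] [NumberField K] [IsTotallyComplex K] {p : ℕ}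
    (hp : p.Prime) (B : ℕ)
    (hB : ∀ (M : Type) [Field M] [NumberField M] [Algebra K M], IsGalois K M →
      (∀ w : HeightOneSpectrum (𝓞 M), (w.asIdeal.under (𝓞 K)).ramificationIdx' w.asIdeal = 1) →
      (∃ n, Module.finrank K M = p ^ n) → Module.finrank K M ≤ B) :
    ∃ (L : Type) (_ : Field L) (_ : NumberField L) (_ : Algebra K L), ¬ p ∣ classNumber L := by
  classical
  let P : ℕ → Prop := fun d => ∃ (M : Type) (_ : Field M) (_ : NumberField M) (_ : Algebra K M),
    IsGalois K M ∧
      (∀ w : HeightOneSpectrum (𝓞 M), (w.asIdeal.under (𝓞 K)).ramificationIdx' w.asIdeal = 1) ∧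
      (∃ n, Module.finrank K M = p ^ n) ∧ Module.finrank K M = d
  have hKu : ∀ w : HeightOneSpectrum (𝓞 K),
      (w.asIdeal.under (𝓞 K)).ramificationIdx' w.asIdeal = 1 := by
    intro w
    have h1 := ramIdx_le_finrank (K := K) w
    rw [Module.finrank_self] at h1
    have h2 : ramIdx K w ≠ 0 := ramIdx_ne_zero _ _
    exact (by omega : ramIdx K w = 1)
  have hK1 : ∃ n, Module.finrank K K = p ^ n := ⟨0, by rw [Module.finrank_self, pow_zero]⟩
  have hP : P 1 := ⟨K, inferInstance, inferInstance, inferInstance, inferInstance, hKu, hK1,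
    Module.finrank_self K⟩
  have hP1 : 1 ≤ B := by
    have := hB K inferInstance hKu hK1
    rwa [Module.finrank_self] at this
  obtain ⟨M, fM, nM, aM, gM, uM, ⟨n, hpn⟩, hn⟩ := Nat.findGreatest_spec hP1 hP
  refine ⟨M, fM, nM, aM, fun hdvd => ?_⟩
  have hMc : IsTotallyComplex M := isTotallyComplex_of_algebra K M
  obtain ⟨M', fM', nM', aM', gM', e, hunr, he, hprin⟩ := exists_hilbert M
  have hab : IsMulCommutative Gal(M'/M) := ⟨⟨fun a b => e.injective (by
    rw [map_mul, map_mul, mul_comm])⟩⟩
  have hM' : IsAbelianGalois M M' := { toIsGalois := gM', is_comm := hab.is_comm }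
  have hinf : IsUnramifiedAtInfinitePlaces M M' := unramifiedAtInfinite
  let _ : Algebra K M' := ((algebraMap M M').comp (algebraMap K M)).toAlgebra
  have : IsScalarTower K M M' := IsScalarTower.of_algebraMap_eq fun x => rfl
  have hKM' : IsGalois K M' := isGalois_hilbert (K := K) hunr hprin
  set A : Subgroup Gal(M'/K) := (AlgEquiv.restrictNormalHom M : Gal(M'/K) →* Gal(M/K)).ker with hA
  have hcard : Nat.card A = classNumber M := by
    rw [hA, card_ker_restrict, ← IsGalois.card_aut_eq_finrank M M', Nat.card_congr e.toEquiv,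
      Nat.card_eq_fintype_card]
    rfl
  have hidx : A.index = Module.finrank K M := by
    rw [hA, Subgroup.index_ker, MonoidHom.range_eq_top.mpr (restrict_surjective hunr hprin),
      Subgroup.card_top, IsGalois.card_aut_eq_finrank]
  have hfix : ∀ a ∈ A, ∀ x : M, a (algebraMap M M' x) = algebraMap M M' x := by
    intro a ha x
    have h1 : a.restrictNormal M = 1 := ha
    have h2 := a.restrictNormal_commutes M x
    rw [h1] at h2
    exact h2.symm
  have hcomm : ∀ a ∈ A, ∀ b ∈ A, a * b = b * a := by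
    intro a ha b hb
    let a' : Gal(M'/M) := { a with commutes' := hfix a ha }
    let b' : Gal(M'/M) := { b with commutes' := hfix b hb }
    have h1 : a' * b' = b' * a' := hab.is_comm.comm a' b'
    ext x
    exact DFunLike.congr_fun h1 x
  obtain ⟨T, hTn, hTA, j, hj, hTi⟩ := exists_normal_index A hcomm hp (by rw [hcard]; exact hdvd)
  let E : IntermediateField K M' := IntermediateField.fixedField T
  have hE : IsGalois K E := inferInstance
  have hEd : Module.finrank K E = p ^ (j + n) := by
    rw [← IsGalois.card_aut_eq_finrank K E,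
      ← Nat.card_congr (IsGalois.normalAutEquivQuotient T).toEquiv]
    change T.index = _
    rw [hTi, hidx, hpn, pow_add]
  have hEu : ∀ w : HeightOneSpectrum (𝓞 E),
      (w.asIdeal.under (𝓞 K)).ramificationIdx' w.asIdeal = 1 := by
    intro w
    obtain ⟨u, rfl⟩ := under_surjective M' w
    have h1 := (ramIdx_tower (K := K) (F := M) u).2
    have h2 : ramIdx K (under M u) = 1 := uM _
    have h3 : ramIdx M u = 1 := hunr u
    rw [h2, h3] at h1
    have h4 := (ramIdx_tower (K := K) (F := E) u).2
    rw [h1] at h4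
    exact Nat.eq_one_of_mul_eq_one_right h4.symm
  have h2 : P (Module.finrank K E) := ⟨E, inferInstance, inferInstance, inferInstance, hE, hEu,
    ⟨_, hEd⟩, rfl⟩
  have h3 := Nat.le_findGreatest (hB E hE hEu ⟨_, hEd⟩) h2
  rw [← hn, hpn, hEd] at h3
  have h4 := (Nat.pow_le_pow_iff_right hp.one_lt).mp h3
  omega

/-- **the `p`-class field tower and fields of class number prime to `p`** -/
theorem exists_not_dvd_classNumber_iff (K : Type) [Field K] [NumberField K] [IsTotallyComplex K]
    {p : ℕ} (hp : p.Prime) :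
    (∃ (L : Type) (_ : Field L) (_ : NumberField L) (_ : Algebra K L), ¬ p ∣ classNumber L) ↔
      ∃ B : ℕ, ∀ (M : Type) [Field M] [NumberField M] [Algebra K M] [IsGalois K M],
        (∀ w : HeightOneSpectrum (𝓞 M),
          (w.asIdeal.under (𝓞 K)).ramificationIdx' w.asIdeal = 1) →
        (∃ n, Module.finrank K M = p ^ n) → Module.finrank K M ≤ B := by
  constructor
  · rintro ⟨L, fL, nL, aL, hL⟩
    have hLc : IsTotallyComplex L := isTotallyComplex_of_algebra K L
    refine ⟨Module.finrank K L, fun M _ _ _ _ hu ⟨n, hn⟩ => ?_⟩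
    obtain ⟨f⟩ := nonempty_algHom_of_not_dvd (K := K) hp hL hn hu
    exact LinearMap.finrank_le_finrank_of_injective (f := f.toLinearMap) f.injective
  · rintro ⟨B, hB⟩
    exact exists_not_dvd_classNumber K hp B fun M _ _ _ hG hu hn => by
      have := hG
      exact hB M hu hn

end Fermat.Agent.Cor.Ambi
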