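import Fermat.Agent.Corollaries.Ambi.Units
import Fermat.Agent.Corollaries.Ambi.Herbrand
import Fermat.Agent.CFT.EqUnits

/-!
# The Herbrand quotient of the units in a cyclic extension
-/

set_option autoImplicit false
set_option linter.unusedSectionVars false

namespace Fermat.Agent.Cor.Ambi

open IsDedekindDomain NumberField Fermat.Agent.CFT.Chevalley
open Fermat.Agent.CFT.SUnits Fermat.Agent.CFT.ChevMul Fermat.Agent.CFT.EqUnits Herb
open scoped Pointwise nonZeroDivisors

variable {K L : Type*} [Field K] [NumberField K] [Field L] [NumberField L] [Algebra K L]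

lemma sgU_mem_unitsL (σ : Gal(L/K)) (x : Lˣ) (hx : x ∈ unitsL L) : sgU σ x ∈ unitsL L := by
  rw [mem_unitsL] at hx ⊢
  rw [sgU_apply, ← actD_div, hx, map_zero]

/-- `σ` on the units, additively -/
noncomputable def sE (σ : Gal(L/K)) : AddMonoid.End (Additive (unitsL L)) :=
  resEnd (unitsL L) (sgU σ) (sgU_mem_unitsL σ)

/-- `1 - σ` on the units -/
noncomputable def dE (σ : Gal(L/K)) : Additive (unitsL L) →+ Additive (unitsL L) :=
  (1 - sE σ : AddMonoid.End (Additive (unitsL L)))

/-- the norm on the units -/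
noncomputable def nE (n : ℕ) (σ : Gal(L/K)) : Additive (unitsL L) →+ Additive (unitsL L) :=
  (norm n (sE σ) : AddMonoid.End (Additive (unitsL L)))

lemma sE_pow {n : ℕ} {σ : Gal(L/K)} (hσ : σ ^ n = 1) : sE σ ^ n = 1 := by
  have hpow : ∀ (i : ℕ) (x : Lˣ), (((sgU σ ^ i) x : Lˣ) : L) = (σ ^ i) (x : L) := by
    intro i
    induction i with
    | zero => intro x; rfl
    | succ i ih =>
      intro x
      rw [pow_succ, pow_succ]
      exact ih (sgU σ x)
  exact resEnd_pow_eq_one n (unitsL L) (sgU σ) (sgU_mem_unitsL σ) fun x _ => by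
    ext1
    rw [hpow, hσ]
    rfl

lemma dE_nE {n : ℕ} {σ : Gal(L/K)} (hσ : σ ^ n = 1) (x : Additive (unitsL L)) :
    dE σ (nE n σ x) = 0 := by
  have h : (1 - sE σ) * norm n (sE σ) = 0 :=
    (mul_neg_geom_sum (sE σ) n).trans (by rw [sE_pow hσ, sub_self])
  exact DFunLike.congr_fun h x

lemma nE_dE {n : ℕ} {σ : Gal(L/K)} (hσ : σ ^ n = 1) (x : Additive (unitsL L)) :
    nE n σ (dE σ x) = 0 := by
  have h : norm n (sE σ) * (1 - sE σ) = 0 :=
    (geom_sum_mul_neg (sE σ) n).trans (by rw [sE_pow hσ, sub_self])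
  exact DFunLike.congr_fun h x

/-- `#Ĥ⁻¹` of the units -/
theorem q_dE (n : ℕ) (σ : Gal(L/K)) : q (dE σ) (nE n σ) ⊤ =
    ((unitsL L).map (del (sgU σ))).relIndex (unitsL L ⊓ (nrm n (sgU σ)).ker) := by
  rw [q, top_inf_eq, ← relIndex_push]
  congr 1
  · ext x
    rw [mem_push]
    constructor
    · rintro ⟨_, ⟨z, -, rfl⟩, rfl⟩
      exact ⟨z.toMul, z.toMul.2, rfl⟩
    · rintro ⟨z, hz, rfl⟩
      exact ⟨_, ⟨Additive.ofMul ⟨z, hz⟩, trivial, rfl⟩, rfl⟩
  · ext x
    rw [mem_push, Subgroup.mem_inf, MonoidHom.mem_ker]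
    constructor
    · rintro ⟨y, hy, rfl⟩
      refine ⟨y.toMul.2, ?_⟩
      have hy' : norm n (sE σ) y = 0 := hy
      rw [← norm_resEnd_apply n (unitsL L) (sgU σ) (sgU_mem_unitsL σ)]
      exact congrArg (fun z : Additive (unitsL L) => (z.toMul : Lˣ)) hy'
    · rintro ⟨hx, hx'⟩
      refine ⟨Additive.ofMul ⟨x, hx⟩, ?_, rfl⟩
      change norm n (sE σ) _ = 0
      apply Additive.toMul.injective
      apply Subtype.ext
      exact (norm_resEnd_apply n (unitsL L) (sgU σ) (sgU_mem_unitsL σ) _).trans hx'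

/-- `#Ĥ⁰` of the units -/
theorem q_nE (n : ℕ) (σ : Gal(L/K)) : q (nE n σ) (dE σ) ⊤ =
    ((unitsL L).map (nrm n (sgU σ))).relIndex (fixedIn (unitsL L) (sgU σ)) := by
  rw [q, top_inf_eq, ← relIndex_push]
  congr 1
  · ext x
    rw [mem_push]
    constructor
    · rintro ⟨_, ⟨z, -, rfl⟩, rfl⟩
      exact ⟨z.toMul, z.toMul.2,
        (norm_resEnd_apply n (unitsL L) (sgU σ) (sgU_mem_unitsL σ) z).symm⟩
    · rintro ⟨z, hz, rfl⟩
      exact ⟨_, ⟨Additive.ofMul ⟨z, hz⟩, trivial, rfl⟩,
        norm_resEnd_apply n (unitsL L) (sgU σ) (sgU_mem_unitsL σ) _⟩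
  · exact push_eker (unitsL L) (sgU σ) (sgU_mem_unitsL σ)

/-! ### the lattice of the infinite places -/

/-- `σ` on `E × ℤ` -/
noncomputable def sA (σ : Gal(L/K)) : AddMonoid.End (Additive (unitsL L) × ℤ) :=
  AddMonoidHom.prodMap (sE σ) (AddMonoidHom.id ℤ)

lemma sA_apply (σ : Gal(L/K)) (x : Additive (unitsL L) × ℤ) : sA σ x = (sE σ x.1, x.2) := rfl

lemma sA_pow_apply (σ : Gal(L/K)) (i : ℕ) (x : Additive (unitsL L) × ℤ) :
    (sA σ ^ i) x = ((sE σ ^ i) x.1, x.2) := by
  induction i generalizing x with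
  | zero => rfl
  | succ i ih =>
    rw [pow_succ, pow_succ]
    exact ih (sA σ x)

lemma dz_eq (σ : Gal(L/K)) : dz (dE σ) = (1 - sA σ : AddMonoid.End _) := by
  refine AddMonoidHom.ext fun x => ?_
  change (dE σ x.1, (0 : ℤ)) = x - sA σ x
  rw [sA_apply]
  refine Prod.ext rfl ?_
  exact (sub_self x.2).symm

lemma nz_eq (n : ℕ) (σ : Gal(L/K)) : nz (nE n σ) n = (norm n (sA σ) : AddMonoid.End _) := by
  refine AddMonoidHom.ext fun x => ?_
  have e1 : norm n (sA σ) x = ∑ i ∈ Finset.range n, (sA σ ^ i) x :=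
    AddMonoidHom.finsetSum_apply _ _ _
  have e2 : norm n (sE σ) x.1 = ∑ i ∈ Finset.range n, (sE σ ^ i) x.1 :=
    AddMonoidHom.finsetSum_apply _ _ _
  refine Eq.trans ?_ e1.symm
  refine (congrArg (fun z => (z, n • x.2)) e2).trans ?_
  simp_rw [sA_pow_apply]
  refine Prod.ext ?_ ?_
  · rw [Prod.fst_sum]
  · rw [Prod.snd_sum, Finset.sum_const, Finset.card_range]

lemma stable_empty : Stable K (∅ : Finset (HeightOneSpectrum (𝓞 L))) := fun _ w hw => by
  simp at hw

/-- an equivariant family of `E × ℤ` indexed by the infinite places -/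
theorem exists_family [FiniteDimensional K L] :
    ∃ Y : (InfinitePlace L →₀ ℤ) →+ Additive (unitsL L) × ℤ, Function.Injective Y ∧
      Y.range.index ≠ 0 ∧ ∀ (σ : Gal(L/K)) (f : InfinitePlace L →₀ ℤ),
        Y (Finsupp.mapDomain (fun w => σ • w) f) = sA σ (Y f) := by
  classical
  obtain ⟨y, hy, hli⟩ := exists_equivariant_units (stable_empty (K := K) (L := L))
  set y' : InfinitePlace L → Additive (unitsL L) × ℤ := fun w => y (Sum.inl w) with hy'
  have hli' : LinearIndependent ℤ y' := hli.comp Sum.inl Sum.inl_injective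
  set T := Finsupp.linearCombination ℤ y' with hT
  refine ⟨T.toAddMonoidHom, hli', ?_, ?_⟩
  · -- finite index
    have h1 : Module.finrank ℤ (LinearMap.range T) = Fintype.card (InfinitePlace L) := by
      rw [LinearMap.finrank_range_of_inj hli', Module.finrank_finsupp_self]
    have h2 := finrank_unitsProd (L := L) (∅ : Finset (HeightOneSpectrum (𝓞 L)))
    rw [Fintype.card_sum, Fintype.card_coe, Finset.card_empty, add_zero, ← h1] at h2
    have i1 : Module.Finite ℤ (Additive (unitsL L)) := by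
      unfold unitsL
      infer_instance
    have i2 : Module.Finite ℤ (Additive (unitsL L) × ℤ) := by
      rw [Module.Finite.iff_addGroup_fg]
      have i3 := Module.Finite.iff_addGroup_fg.mp i1
      have i4 : AddGroup.FG ℤ := Module.Finite.iff_addGroup_fg.mp inferInstance
      infer_instance
    have h3 := (LinearMap.range T).finrank_quotient_add_finrank
    have h4 : Module.finrank ℤ ((Additive (unitsL L) × ℤ) ⧸ LinearMap.range T) = 0 := by
      have h5 : Module.finrank ℤ (Additive (unitsL L) × ℤ) =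
        Module.finrank ℤ (LinearMap.range T) := h2
      omega
    have h6 := Module.finrank_eq_zero_iff_isTorsion.mp h4
    have h7 : Finite ((Additive (unitsL L) × ℤ) ⧸ LinearMap.range T) :=
      Module.finite_of_fg_torsion _ h6
    have h8 : T.toAddMonoidHom.range = (LinearMap.range T).toAddSubgroup := by
      ext x
      exact Iff.rfl
    rw [h8]
    have h9 : Finite ((Additive (unitsL L) × ℤ) ⧸ (LinearMap.range T).toAddSubgroup) := h7
    exact (AddSubgroup.finiteIndex_of_finite_quotient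
      (H := (LinearMap.range T).toAddSubgroup)).index_ne_zero
  · intro σ f
    induction f using Finsupp.induction_linear with
    | zero => simp
    | add f g hf hg => rw [Finsupp.mapDomain_add, map_add, hf, hg, map_add, map_add]
    | single w c =>
      rw [Finsupp.mapDomain_single]
      change T _ = sA σ (T _)
      rw [hT, Finsupp.linearCombination_single, Finsupp.linearCombination_single, map_zsmul]
      congr 1
      exact hy σ (Sum.inl w)

end Fermat.Agent.Cor.Ambi
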