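import Fermat.Agent.Corollaries.Ambi.UnrHil

/-!
# The Artin isomorphism of unramified abelian extensions
-/

set_option autoImplicit false
set_option linter.unusedSectionVars false

namespace Fermat.Agent.Cor.Ambi

open IsDedekindDomain NumberField
open Fermat.Agent.CFT.SUnits Fermat.Agent.CFT.ChevMul
open scoped Pointwise nonZeroDivisors

variable {K L : Type*} [Field K] [NumberField K] [Field L] [NumberField L] [Algebra K L]

/-- every ideal class contains a place -/
theorem exists_clsOf (c : ClassGroup (𝓞 K)) : ∃ v : HeightOneSpectrum (𝓞 K), clsOf v = c := by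
  have h := (hasNatDensity_clsOf c).infinite (inv_ne_zero (by exact_mod_cast Nat.card_pos.ne'))
  exact h.nonempty

lemma normC_clsOf (w : HeightOneSpectrum (𝓞 L)) :
    normC K L (clsOf w) = clsOf (under K w) ^ (w.asIdeal.inertiaDeg (𝓞 K)) := by
  rw [clsOf, normC_mk0, clsOf, ← map_pow]
  congr 1
  apply Subtype.ext
  rw [coe_rnI, SubmonoidClass.coe_pow]
  change Ideal.relNorm (𝓞 K) w.asIdeal = (under K w).asIdeal ^ _
  have : w.asIdeal.LiesOver (under K w).asIdeal := ⟨rfl⟩
  rw [Ideal.relNorm_eq_pow_of_isMaximal w.asIdeal (under K w).asIdeal]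

variable [IsGalois K L]

/-- the Frobenius at an unramified place has order dividing the residue degree -/
theorem frob_pow_eq_one {w : HeightOneSpectrum (𝓞 L)} (hw : ramIdx K w = 1) {σ : Gal(L/K)}
    (hσ : IsArithFrobAt (𝓞 K) σ w.asIdeal) : σ ^ (w.asIdeal.inertiaDeg (𝓞 K)) = 1 := by
  set q := Ideal.absNorm (w.under (𝓞 K)).asIdeal with hq
  have h1 : ∀ x : 𝓞 L, σ • x - x ^ q ∈ w.asIdeal := by
    intro x
    have h := hσ x
    rw [ChebK.card_under] at h
    exact h
  have h2 : ∀ (k : ℕ) (x : 𝓞 L), (σ ^ k) • x - x ^ q ^ k ∈ w.asIdeal := by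
    intro k
    induction k with
    | zero => intro x; simp
    | succ k ih =>
      intro x
      have h3 := ih (σ • x)
      rw [smul_smul, ← pow_succ] at h3
      have h4 : (σ • x) ^ q ^ k - (x ^ q) ^ q ^ k ∈ w.asIdeal := by
        rw [← Ideal.Quotient.eq, map_pow, map_pow]
        congr 1
        exact Ideal.Quotient.eq.mpr (h1 x)
      have h5 := add_mem h3 h4
      rw [sub_add_sub_cancel, ← pow_mul, ← pow_succ'] at h5
      exact h5
  have h3 : σ ^ (w.asIdeal.inertiaDeg (𝓞 K)) ∈ w.asIdeal.inertia Gal(L/K) := by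
    intro x
    have h4 := h2 (w.asIdeal.inertiaDeg (𝓞 K)) x
    have h5 := ChebK.sub_pow_absNorm_mem w x
    rw [ChebK.absNorm_eq_pow (K := K) w] at h5
    have h6 := sub_mem h4 h5
    rw [sub_sub_sub_cancel_right] at h6
    exact h6
  have h4 : w.asIdeal.inertia Gal(L/K) = ⊥ := by
    have h5 := ramIdx_eq_card_inertia (K := K) w
    rw [hw] at h5
    exact Subgroup.card_eq_one.mp h5.symm
  rw [h4] at h3
  exact h3

section Tower

variable {M : Type*} [Field M] [NumberField M] [Algebra K M] [IsGalois K M]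
  [Algebra L M] [IsScalarTower K L M]
  (e : Gal(M/K) ≃* ClassGroup (𝓞 K))
  (hunr : ∀ w : HeightOneSpectrum (𝓞 M), (w.asIdeal.under (𝓞 K)).ramificationIdx' w.asIdeal = 1)
  (he : ∀ (w : HeightOneSpectrum (𝓞 M)) (σ : Gal(M/K)), IsArithFrobAt (𝓞 K) σ w.asIdeal →
    e σ = clsOf (w.under (𝓞 K)))

include hunr in
lemma ramIdx_mid (w : HeightOneSpectrum (𝓞 L)) : ramIdx K w = 1 := by
  obtain ⟨u, rfl⟩ := under_surjective M w
  have h1 := (ramIdx_tower (K := K) (F := L) u).2
  have h2 : ramIdx K u = 1 := hunr u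
  rw [h2] at h1
  exact Nat.eq_one_of_mul_eq_one_right h1.symm

include hunr he in
/-- the kernel of the restriction corresponds to the norms -/
theorem map_ker_restrict :
    ((AlgEquiv.restrictNormalHom L : Gal(M/K) →* Gal(L/K)).ker).map e.toMonoidHom =
      (normC K L).range := by
  apply le_antisymm
  · rintro _ ⟨φ, hφ, rfl⟩
    obtain ⟨v, hv⟩ := exists_clsOf (e φ)
    obtain ⟨u, hu⟩ := ChebK.exists_above (L := M) v
    obtain ⟨ψ, hψ⟩ := ChebK.exists_isArithFrobAt (K := K) u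
    have h1 := he u ψ hψ
    rw [hu, hv] at h1
    have h2 : ψ = φ := e.injective h1
    subst h2
    have h3 := ChebK.isArithFrobAt_restrictNormal (L := L) hψ
    have h4 : ψ.restrictNormal L = 1 := hφ
    rw [h4, ChebK.isArithFrobAt_one_iff, ChebK.absNorm_eq_iff] at h3
    refine ⟨clsOf (u.under (𝓞 L)), ?_⟩
    rw [normC_clsOf]
    change clsOf ((u.under (𝓞 L)).under (𝓞 K)) ^ _ = e ψ
    rw [h3, pow_one, ChebK.under_under K L u, hu]
    exact hv
  · rintro _ ⟨c, rfl⟩
    obtain ⟨w, rfl⟩ := exists_clsOf c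
    rw [normC_clsOf]
    obtain ⟨u, hu⟩ := ChebK.exists_above (L := M) w
    obtain ⟨ψ, hψ⟩ := ChebK.exists_isArithFrobAt (K := K) u
    have h3 := ChebK.isArithFrobAt_restrictNormal (L := L) hψ
    rw [hu] at h3
    have h4 := frob_pow_eq_one (ramIdx_mid hunr w) h3
    refine ⟨ψ ^ (w.asIdeal.inertiaDeg (𝓞 K)), ?_, ?_⟩
    · rw [SetLike.mem_coe, MonoidHom.mem_ker, map_pow]
      exact h4
    · change e (ψ ^ _) = _
      rw [map_pow, he u ψ hψ, ← ChebK.under_under K L u, hu]
      rfl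

include hunr he in
theorem artin_tower : ∃ E : Gal(L/K) ≃* ClassGroup (𝓞 K) ⧸ (normC K L).range,
    ∀ (w : HeightOneSpectrum (𝓞 L)) (σ : Gal(L/K)), IsArithFrobAt (𝓞 K) σ w.asIdeal →
      E σ = QuotientGroup.mk (clsOf (w.under (𝓞 K))) := by
  let r : Gal(M/K) →* Gal(L/K) := AlgEquiv.restrictNormalHom L
  have hr : Function.Surjective r := AlgEquiv.restrictNormalHom_surjective M
  let E1 : Gal(M/K) ⧸ r.ker ≃* Gal(L/K) := QuotientGroup.quotientKerEquivOfSurjective r hr
  let E2 : Gal(M/K) ⧸ r.ker ≃* ClassGroup (𝓞 K) ⧸ (normC K L).range :=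
    QuotientGroup.congr _ _ e (map_ker_restrict e hunr he)
  refine ⟨E1.symm.trans E2, fun w σ hσ => ?_⟩
  obtain ⟨u, rfl⟩ := ChebK.exists_above (L := M) w
  obtain ⟨ψ, hψ⟩ := ChebK.exists_isArithFrobAt (K := K) u
  have h3 := ChebK.isArithFrobAt_restrictNormal (L := L) hψ
  have h4 : ChebK.Unr L ((u.under (𝓞 L)).under (𝓞 K)) :=
    unr_of_ramIdx fun w => ramIdx_mid hunr w
  have h5 : ψ.restrictNormal L = σ := ChebK.isArithFrobAt_unique (h4 _ rfl) h3 hσ
  have h6 : E1.symm σ = QuotientGroup.mk ψ := by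
    rw [MulEquiv.symm_apply_eq]
    exact h5.symm
  rw [MulEquiv.trans_apply, h6]
  change QuotientGroup.mk (e ψ) = _
  rw [he u ψ hψ, ChebK.under_under K L u]

end Tower

end Fermat.Agent.Cor.Ambi
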