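import Fermat.Agent.Corollaries.Ambi.UnrArt
import Fermat.Agent.Corollaries.HCF.Final
import Fermat.Agent.Corollaries.HCF.Main

/-!
# Unramified class field theory of totally complex fields

`K` totally complex. The abelian extensions `L / K` which are unramified at all finite places
correspond to the subgroups of the class group, by `L ↦ N Cl(L)`; the Galois group is isomorphic to
`Cl(K) / N Cl(L)` by the Frobenius elements.
-/

set_option autoImplicit false
set_option linter.unusedSectionVars false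

namespace Fermat.Agent.Cor.Ambi

open IsDedekindDomain NumberField
open Fermat.Agent.CFT.SUnits Fermat.Agent.CFT.ChevMul
open scoped Pointwise nonZeroDivisors

/-- the Hilbert class field -/
theorem exists_hilbert (K : Type) [Field K] [NumberField K] [IsTotallyComplex K] :
    ∃ (M : Type) (_ : Field M) (_ : NumberField M) (_ : Algebra K M) (_ : IsGalois K M)
      (e : Gal(M/K) ≃* ClassGroup (𝓞 K)),
      (∀ w : HeightOneSpectrum (𝓞 M), (w.asIdeal.under (𝓞 K)).ramificationIdx' w.asIdeal = 1) ∧
      (∀ (w : HeightOneSpectrum (𝓞 M)) (σ : Gal(M/K)), IsArithFrobAt (𝓞 K) σ w.asIdeal →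
        e σ = clsOf (w.under (𝓞 K))) ∧
      ∀ v : HeightOneSpectrum (𝓞 K), ChebK.HasDegOne M v → v.asIdeal.IsPrincipal := by
  obtain ⟨M, fM, nM, aM, gM, e, h1, h2, h3⟩ := HCF.finalStmt (fun p k _ => HCF.ex p k) K
  refine ⟨M, fM, nM, aM, gM, e, h1, h2, ?_⟩
  rintro v ⟨w, rfl, hw⟩
  refine (h3 w).mp ?_
  have h1 := (ChebK.absNorm_eq_iff (K := K) w).mp hw
  have h2 : w.asIdeal.LiesOver (w.under (𝓞 K)).asIdeal := ⟨rfl⟩
  have h3 := (w.under (𝓞 K)).isMaximal
  have h4 := w.isMaximal
  rw [Ideal.inertiaDeg'_eq_inertiaDeg]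
  exact h1

lemma unramifiedAtInfinite {K F : Type*} [Field K] [NumberField K] [IsTotallyComplex K] [Field F]
    [NumberField F] [Algebra K F] : IsUnramifiedAtInfinitePlaces K F := by
  constructor
  intro w
  rw [InfinitePlace.isUnramified_iff]
  exact Or.inr (IsTotallyComplex.isComplex _)

variable {K : Type} [Field K] [NumberField K] [IsTotallyComplex K]

section Abelian

variable {L : Type*} [Field L] [NumberField L] [Algebra K L] [IsAbelianGalois K L]
  (h : ∀ w : HeightOneSpectrum (𝓞 L), (w.asIdeal.under (𝓞 K)).ramificationIdx' w.asIdeal = 1)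

include h in
/-- **Artin's reciprocity law for unramified abelian extensions** of totally complex fields -/
theorem artin_unramified : ∃ E : Gal(L/K) ≃* ClassGroup (𝓞 K) ⧸ (normC K L).range,
    ∀ (w : HeightOneSpectrum (𝓞 L)) (σ : Gal(L/K)), IsArithFrobAt (𝓞 K) σ w.asIdeal →
      E σ = QuotientGroup.mk (ClassGroup.mk0 ⟨(w.asIdeal.under (𝓞 K)),
        mem_nonZeroDivisors_of_ne_zero (w.under (𝓞 K)).ne_bot⟩) := by
  obtain ⟨M, fM, nM, aM, gM, e, h1, h2, h3⟩ := exists_hilbert K
  have hinf : IsUnramifiedAtInfinitePlaces K L := unramifiedAtInfinite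
  obtain ⟨f⟩ := nonempty_algHom_of_isPrincipal (L := L) h3 h
  let _ : Algebra L M := f.toRingHom.toAlgebra
  have : IsScalarTower K L M := IsScalarTower.of_algebraMap_eq fun x => (f.commutes x).symm
  exact artin_tower e h1 h2

include h in
/-- **the norm index**: `[Cl(K) : N Cl(L)] = [L : K]` for unramified abelian `L / K` -/
theorem index_range_normC_abelian : (normC K L).range.index = Module.finrank K L := by
  obtain ⟨E, -⟩ := artin_unramified h
  rw [← IsGalois.card_aut_eq_finrank, Nat.card_congr E.toEquiv]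
  rfl

include h in
/-- **the decomposition law**: `v` splits completely in `L` if and only if its class is a norm -/
theorem splitsCompletely_iff_mem (v : HeightOneSpectrum (𝓞 K)) :
    (v.asIdeal.primesOver (𝓞 L)).ncard = Module.finrank K L ↔
      ClassGroup.mk0 ⟨v.asIdeal, mem_nonZeroDivisors_of_ne_zero v.ne_bot⟩ ∈
        (normC K L).range := by
  refine ⟨fun hv => mem_range_normC hv, fun hv => ?_⟩
  obtain ⟨E, hE⟩ := artin_unramified h
  obtain ⟨w, hw⟩ := ChebK.exists_above (L := L) v
  obtain ⟨σ, hσ⟩ := ChebK.exists_isArithFrobAt (K := K) w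
  have h1 := hE w σ hσ
  have h2 : E σ = 1 := by
    rw [h1, QuotientGroup.eq_one_iff]
    subst hw
    exact hv
  have h3 : σ = 1 := E.map_eq_one_iff.mp h2
  rw [h3, ChebK.isArithFrobAt_one_iff, hw] at hσ
  exact (ChebK.splitsCompletely_iff_exists (unr_of_ramIdx h)).mpr ⟨w, hw, hσ⟩

end Abelian

/-- **the existence theorem**, unramified case: every subgroup of the class group is the group of
norms of an abelian extension which is unramified at all finite places -/
theorem exists_range_normC (H : Subgroup (ClassGroup (𝓞 K))) :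
    ∃ (L : Type) (_ : Field L) (_ : NumberField L) (_ : Algebra K L) (_ : IsAbelianGalois K L),
      (∀ w : HeightOneSpectrum (𝓞 L),
        (w.asIdeal.under (𝓞 K)).ramificationIdx' w.asIdeal = 1) ∧ (normC K L).range = H := by
  obtain ⟨M, fM, nM, aM, gM, e, h1, h2, -⟩ := exists_hilbert K
  have hab : IsMulCommutative Gal(M/K) := ⟨⟨fun a b => e.injective (by
    rw [map_mul, map_mul, mul_comm])⟩⟩
  have hM : IsAbelianGalois K M := { toIsGalois := gM, is_comm := hab.is_comm }
  let F : IntermediateField K M := IntermediateField.fixedField (H.comap e.toMonoidHom)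
  refine ⟨F, inferInstance, inferInstance, inferInstance, inferInstance, fun w => ?_, ?_⟩
  · exact ramIdx_mid (K := K) (L := F) (M := M) h1 w
  · rw [← map_ker_restrict (K := K) (L := F) (M := M) e h1 h2, IntermediateField.restrictNormalHom_ker,
      IntermediateField.fixingSubgroup_fixedField]
    exact Subgroup.map_comap_eq_self_of_surjective e.surjective H

/-- **the ordering theorem**: `L₁ ⊆ L₂` if and only if `N Cl(L₂) ≤ N Cl(L₁)` -/
theorem nonempty_algHom_iff_le {L₁ L₂ : Type*} [Field L₁] [NumberField L₁] [Algebra K L₁]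
    [IsAbelianGalois K L₁] [Field L₂] [NumberField L₂] [Algebra K L₂] [IsAbelianGalois K L₂]
    (h₁ : ∀ w : HeightOneSpectrum (𝓞 L₁), (w.asIdeal.under (𝓞 K)).ramificationIdx' w.asIdeal = 1)
    (h₂ : ∀ w : HeightOneSpectrum (𝓞 L₂),
      (w.asIdeal.under (𝓞 K)).ramificationIdx' w.asIdeal = 1) :
    Nonempty (L₁ →ₐ[K] L₂) ↔ (normC K L₂).range ≤ (normC K L₁).range := by
  constructor
  · rintro ⟨f⟩ c hc
    obtain ⟨v, rfl⟩ := exists_clsOf c
    have h3 : ChebK.SplitsCompletely L₂ v := (splitsCompletely_iff_mem h₂ v).mpr hc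
    exact mem_range_normC (ChebK.splitsCompletely_of_algHom f (unr_of_ramIdx h₁) h3.hasDegOne)
  · intro h
    refine ChebK.nonempty_algHom_of_density ChebK.hasDensity_empty fun v _ hv => ?_
    have h3 : ChebK.SplitsCompletely L₂ v :=
      (ChebK.splitsCompletely_iff_exists (unr_of_ramIdx h₂)).mpr hv
    exact (splitsCompletely_iff_mem h₁ v).mpr (h (mem_range_normC h3))

/-- **the uniqueness theorem**: `L₁ ≅ L₂` if and only if `N Cl(L₁) = N Cl(L₂)` -/
theorem nonempty_algEquiv_iff_eq {L₁ L₂ : Type*} [Field L₁] [NumberField L₁] [Algebra K L₁]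
    [IsAbelianGalois K L₁] [Field L₂] [NumberField L₂] [Algebra K L₂] [IsAbelianGalois K L₂]
    (h₁ : ∀ w : HeightOneSpectrum (𝓞 L₁), (w.asIdeal.under (𝓞 K)).ramificationIdx' w.asIdeal = 1)
    (h₂ : ∀ w : HeightOneSpectrum (𝓞 L₂),
      (w.asIdeal.under (𝓞 K)).ramificationIdx' w.asIdeal = 1) :
    Nonempty (L₁ ≃ₐ[K] L₂) ↔ (normC K L₁).range = (normC K L₂).range := by
  constructor
  · rintro ⟨f⟩
    exact le_antisymm ((nonempty_algHom_iff_le h₂ h₁).mp ⟨f.symm.toAlgHom⟩)
      ((nonempty_algHom_iff_le h₁ h₂).mp ⟨f.toAlgHom⟩)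
  · intro h
    obtain ⟨f⟩ := (nonempty_algHom_iff_le h₁ h₂).mpr h.ge
    obtain ⟨g⟩ := (nonempty_algHom_iff_le h₂ h₁).mpr h.le
    have h3 : Module.finrank K L₁ = Module.finrank K L₂ := by
      rw [← index_range_normC_abelian h₁, ← index_range_normC_abelian h₂, h]
    exact ⟨AlgEquiv.ofBijective f ((f.toLinearMap.injective_iff_surjective_of_finrank_eq_finrank
      h3).mp f.injective |> fun hs => ⟨f.injective, hs⟩)⟩

end Fermat.Agent.Cor.Ambi
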