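import Fermat.Agent.Corollaries.ChebK.NatSplit
import Fermat.Agent.Corollaries.ChebK.NatDir
import Fermat.Agent.Corollaries.ZetaK.ClassShort

/-!
# Places in a subgroup of the class group

`hasNatDensity_class`: the places of a number field whose classes are in a subgroup `H` of the class
group have natural density `1 / [Cl : H]`. `index_le_finrank`: if the places which split completely in
the Galois extension `L` have classes in `H` then `[Cl : H] ≤ [L : K]`.
-/

set_option autoImplicit false

namespace Fermat.Agent.Cor.Ambi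

open NumberField Filter Topology IsDedekindDomain Fermat.Agent.Cor.ChebK
open scoped nonZeroDivisors

variable {K : Type*} [Field K] [NumberField K]

/-- the class of a place -/
noncomputable def clsOf (v : HeightOneSpectrum (𝓞 K)) : ClassGroup (𝓞 K) :=
  ClassGroup.mk0 ⟨v.asIdeal, mem_nonZeroDivisors_of_ne_zero v.ne_bot⟩

/-- places and prime ideals -/
noncomputable def prEquiv : HeightOneSpectrum (𝓞 K) ≃ ClassL.Pr K where
  toFun v := ⟨⟨v.asIdeal, mem_nonZeroDivisors_of_ne_zero v.ne_bot⟩, v.prime⟩
  invFun P := ⟨P.1.1, Ideal.isPrime_of_prime P.2, P.2.ne_zero⟩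
  left_inv _ := rfl
  right_inv _ := rfl

/-- the places of one class have natural density `1 / h` -/
theorem hasNatDensity_clsOf (c : ClassGroup (𝓞 K)) :
    HasNatDensity {v : HeightOneSpectrum (𝓞 K) | clsOf v = c}
      (Nat.card (ClassGroup (𝓞 K)) : ℝ)⁻¹ := by
  refine (tendsto_card_class K (LamC_eq_and c) (tendsto_psi_class c)).congr fun x => ?_
  congr 3
  exact (Nat.card_congr (prEquiv.subtypeEquiv fun v => Iff.rfl)).symm

theorem hasNatDensity_finset (s : Finset (ClassGroup (𝓞 K))) :
    HasNatDensity {v : HeightOneSpectrum (𝓞 K) | clsOf v ∈ s}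
      (s.card * (Nat.card (ClassGroup (𝓞 K)) : ℝ)⁻¹) := by
  classical
  induction s using Finset.induction_on with
  | empty =>
    rw [Finset.card_empty, Nat.cast_zero, zero_mul]
    have h : {v : HeightOneSpectrum (𝓞 K) | clsOf v ∈ (∅ : Finset (ClassGroup (𝓞 K)))} = ∅ := by
      ext v
      simp
    rw [h]
    exact hasNatDensity_empty
  | insert c s hc ih =>
    have h : {v : HeightOneSpectrum (𝓞 K) | clsOf v ∈ insert c s} =
        {v | clsOf v = c} ∪ {v | clsOf v ∈ s} := by
      ext v
      simp
    rw [h, Finset.card_insert_of_notMem hc, Nat.cast_add, Nat.cast_one, add_mul, one_mul, add_comm]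
    refine (hasNatDensity_clsOf c).union ?_ ih
    rw [Set.disjoint_left]
    rintro v rfl hv
    exact hc hv

/-- the places whose classes are in `H` have natural density `1 / [Cl : H]` -/
theorem hasNatDensity_class (H : Subgroup (ClassGroup (𝓞 K))) :
    HasNatDensity {v : HeightOneSpectrum (𝓞 K) |
      ClassGroup.mk0 ⟨v.asIdeal, mem_nonZeroDivisors_of_ne_zero v.ne_bot⟩ ∈ H}
      (1 / (H.index : ℝ)) := by
  classical
  have h1 := hasNatDensity_finset (K := K) (Finset.univ.filter fun c => c ∈ H)
  have h2 : (Finset.univ.filter fun c => c ∈ H).card = Nat.card H := by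
    rw [Nat.card_eq_fintype_card, Fintype.card_subtype]
  have h3 := H.card_mul_index
  have h4 : (Nat.card H : ℝ) ≠ 0 := by exact_mod_cast Nat.card_pos.ne'
  have h5 : (H.index : ℝ) ≠ 0 := by exact_mod_cast H.index_ne_zero_of_finite
  have h6 : ((Finset.univ.filter fun c => c ∈ H).card : ℝ) *
      (Nat.card (ClassGroup (𝓞 K)) : ℝ)⁻¹ = 1 / (H.index : ℝ) := by
    rw [h2, ← h3, Nat.cast_mul]
    field_simp
  rw [h6] at h1
  have h7 : {v : HeightOneSpectrum (𝓞 K) | clsOf v ∈ Finset.univ.filter fun c => c ∈ H} =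
      {v | ClassGroup.mk0 ⟨v.asIdeal, mem_nonZeroDivisors_of_ne_zero v.ne_bot⟩ ∈ H} := by
    ext v
    simp [clsOf]
  rwa [h7] at h1

/-- the first inequality -/
theorem index_le_finrank {L : Type*} [Field L] [NumberField L] [Algebra K L] [IsGalois K L]
    (H : Subgroup (ClassGroup (𝓞 K)))
    (hH : ∀ v : HeightOneSpectrum (𝓞 K), SplitsCompletely L v →
      ClassGroup.mk0 ⟨v.asIdeal, mem_nonZeroDivisors_of_ne_zero v.ne_bot⟩ ∈ H) :
    H.index ≤ Module.finrank K L := by
  have h1 := (hasNatDensity_splitsCompletely K L).mono hH (hasNatDensity_class H)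
  have h2 : (0 : ℝ) < H.index := by exact_mod_cast Nat.pos_of_ne_zero H.index_ne_zero_of_finite
  have h3 : (0 : ℝ) < Module.finrank K L := by exact_mod_cast Module.finrank_pos
  rw [one_div_le_one_div h3 h2] at h1
  exact_mod_cast h1

end Fermat.Agent.Cor.Ambi
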