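import Fermat.Agent.Corollaries.Ambi.UnrMain
import Fermat.Agent.Corollaries.Ambi.PExt
import Fermat.Agent.Corollaries.ChebK.Bauer

/-!
# Unramified abelian extensions are contained in the Hilbert class field

`L / K` abelian, unramified at all places, `M / K` finite, such that the places of `K` which have a
place of degree one in `M` are principal: then `L` embeds in `M` over `K`.
-/

set_option autoImplicit false
set_option linter.unusedSectionVars false

namespace Fermat.Agent.Cor.Ambi

open IsDedekindDomain NumberField
open Fermat.Agent.CFT.SUnits Fermat.Agent.CFT.ChevMul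
open scoped Pointwise nonZeroDivisors

variable {K L : Type*} [Field K] [NumberField K] [Field L] [NumberField L] [Algebra K L]

variable (K L) in
/-- the places whose class is a norm and which do not split completely -/
def excSet : Set (HeightOneSpectrum (𝓞 K)) :=
  {v | clsOf v ∈ (normC K L).range ∧ ¬ ChebK.SplitsCompletely L v}

/-- for cyclic unramified extensions the exceptional set has density `0` -/
theorem hasDensity_excSet [IsGalois K L] [IsCyclic Gal(L/K)]
    (h : ∀ w : HeightOneSpectrum (𝓞 L), (w.asIdeal.under (𝓞 K)).ramificationIdx' w.asIdeal = 1)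
    [IsUnramifiedAtInfinitePlaces K L] : ChebK.HasDensity (excSet K L) 0 := by
  have h1 := ChebK.hasNatDensity_splitsCompletely K L
  have h2 := hasNatDensity_class (normC K L).range
  rw [index_range_normC h] at h2
  have h3 := (h1.diff (fun v hv => mem_range_normC hv) h2).hasDensity
  rw [sub_self] at h3
  exact h3

lemma unr_of_ramIdx {v : HeightOneSpectrum (𝓞 K)}
    (h : ∀ w : HeightOneSpectrum (𝓞 L), (w.asIdeal.under (𝓞 K)).ramificationIdx' w.asIdeal = 1) :
    ChebK.Unr L v := by
  intro w _
  have h1 := h w
  have h2 : (w.asIdeal.under (𝓞 K)).ramificationIdx' w.asIdeal = w.asIdeal.ramificationIdx (𝓞 K) :=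
    Ideal.ramificationIdx'_eq_ramificationIdx (under K w).asIdeal w.asIdeal (under K w).ne_bot
  rw [h2] at h1
  have h3 := w.isPrime
  exact Ideal.ramificationIdx_eq_one_iff.mp h1

open scoped IsMulCommutative in
/-- in an abelian extension a place splits completely if it does so in all cyclic subextensions -/
theorem splitsCompletely_of_intermediate [IsAbelianGalois K L] {v : HeightOneSpectrum (𝓞 K)}
    (hv : ChebK.Unr L v)
    (h : ∀ F : IntermediateField K L, IsCyclic Gal(F/K) → ChebK.SplitsCompletely F v) :
    ChebK.SplitsCompletely L v := by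
  obtain ⟨w, hw⟩ := ChebK.exists_above (L := L) v
  obtain ⟨τ, hτ⟩ := ChebK.exists_isArithFrobAt (K := K) w
  have h1 : τ = 1 := by
    by_contra h1
    obtain ⟨χ, hχ⟩ := CommGroup.exists_apply_ne_one_of_hasEnoughRootsOfUnity Gal(L/K) ℂ h1
    let F := IntermediateField.fixedField χ.ker
    have hcyc : IsCyclic Gal(F/K) := by
      have h2 : Finite χ.range := inferInstance
      have h3 : IsCyclic χ.range := inferInstance
      let e : χ.range ≃* Gal(F/K) := (QuotientGroup.quotientKerEquivRange χ).symm.trans
        (IsGalois.normalAutEquivQuotient χ.ker)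
      exact isCyclic_of_surjective e e.surjective
    have h2 := ChebK.splitsCompletely_iff.mp (h F hcyc)
    have h3 := ChebK.isArithFrobAt_restrictNormal (L := F) hτ
    have h4 : IsArithFrobAt (𝓞 K) (1 : F ≃ₐ[K] F) (w.under (𝓞 F)).asIdeal := by
      rw [ChebK.isArithFrobAt_one_iff, ChebK.under_under K F w, hw]
      exact h2.2 _ ((ChebK.under_under K F w).trans hw)
    have h5 : τ.restrictNormal F = 1 :=
      ChebK.isArithFrobAt_unique (h2.1 _ ((ChebK.under_under K F w).trans hw)) h3 h4
    have h6 : τ ∈ F.fixingSubgroup := by
      rw [← IntermediateField.restrictNormalHom_ker, MonoidHom.mem_ker]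
      exact h5
    rw [IntermediateField.fixingSubgroup_fixedField, MonoidHom.mem_ker] at h6
    exact hχ h6
  rw [h1, ChebK.isArithFrobAt_one_iff, hw] at hτ
  exact (ChebK.splitsCompletely_iff_exists hv).mpr ⟨w, hw, hτ⟩

/-- the union of the exceptional sets of the cyclic subextensions -/
theorem hasDensity_iUnion [IsAbelianGalois K L]
    (h : ∀ w : HeightOneSpectrum (𝓞 L), (w.asIdeal.under (𝓞 K)).ramificationIdx' w.asIdeal = 1)
    [IsUnramifiedAtInfinitePlaces K L] :
    ChebK.HasDensity (⋃ F : {F : IntermediateField K L // IsCyclic Gal(F/K)}, excSet K F.1) 0 := by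
  classical
  have hfin' : Finite (IntermediateField K L) :=
    Finite.of_equiv _ (IsGalois.intermediateFieldEquivSubgroup (F := K) (E := L)).symm.toEquiv
  have hfin : Finite {F : IntermediateField K L // IsCyclic Gal(F/K)} := inferInstance
  have : Fintype {F : IntermediateField K L // IsCyclic Gal(F/K)} := Fintype.ofFinite _
  have key : ∀ s : Finset {F : IntermediateField K L // IsCyclic Gal(F/K)},
      ChebK.HasDensity (⋃ F ∈ s, excSet K F.1) 0 := by
    intro s
    induction s using Finset.induction_on with
    | empty =>
      simp only [Finset.notMem_empty, Set.iUnion_of_empty, Set.iUnion_empty]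
      exact ChebK.hasDensity_empty
    | insert F s _ ih =>
      rw [Finset.set_biUnion_insert]
      refine ChebK.HasDensity.union_zero ?_ ih
      have hc : IsCyclic Gal(F.1/K) := F.2
      have hu : IsUnramifiedAtInfinitePlaces K F.1 := IsUnramifiedAtInfinitePlaces.bot K F.1 L
      refine hasDensity_excSet fun u => ?_
      obtain ⟨w, rfl⟩ := under_surjective L u
      have h2 := (ramIdx_tower (K := K) (F := F.1) w).2
      have h3 : ramIdx K w = 1 := h w
      rw [h3] at h2
      exact Nat.eq_one_of_mul_eq_one_right h2.symm
  have h1 := key Finset.univ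
  simpa using h1

/-- **maximality**: `L / K` abelian, unramified at all places, `M / K` finite, the places of `K` with
a place of degree one in `M` are principal: `L` embeds in `M`. -/
theorem nonempty_algHom_of_isPrincipal {M : Type*} [Field M] [NumberField M] [Algebra K M]
    (hM : ∀ v : HeightOneSpectrum (𝓞 K), ChebK.HasDegOne M v → v.asIdeal.IsPrincipal)
    [IsAbelianGalois K L]
    (h : ∀ w : HeightOneSpectrum (𝓞 L), (w.asIdeal.under (𝓞 K)).ramificationIdx' w.asIdeal = 1)
    [IsUnramifiedAtInfinitePlaces K L] : Nonempty (L →ₐ[K] M) := by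
  refine ChebK.nonempty_algHom_of_density (hasDensity_iUnion h) fun v hv hd => ?_
  have h0 : clsOf v = 1 := (ClassGroup.mk0_eq_one_iff _).mpr (hM v hd)
  refine splitsCompletely_of_intermediate (unr_of_ramIdx h) fun F hF => ?_
  by_contra hcon
  refine hv (Set.mem_iUnion.mpr ⟨⟨F, hF⟩, ?_, hcon⟩)
  rw [h0]
  exact one_mem _

end Fermat.Agent.Cor.Ambi
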