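import Fermat.Agent.Corollaries.Ambi.UnrNorm
import Fermat.Agent.Corollaries.Ambi.UnrDens

/-!
# Class field theory of unramified cyclic extensions

`L / K` cyclic, unramified at all places, `n = [L : K]`, `σ` a generator of the Galois group:
`[Cl(K) : N Cl(L)] = n`, every unit of `K` is a norm from `L`, `h(K) = n · #Cl(L)^G`, and the kernel of
the norm on ideal classes is `{σ(c) / c}`.
-/

set_option autoImplicit false
set_option linter.unusedSectionVars false

namespace Fermat.Agent.Cor.Ambi

open IsDedekindDomain NumberField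
open Fermat.Agent.CFT.SUnits Fermat.Agent.CFT.ChevMul
open scoped Pointwise nonZeroDivisors

variable {K L : Type*} [Field K] [NumberField K] [Field L] [NumberField L] [Algebra K L]

/-- the class of a completely split place is a norm -/
theorem mem_range_normC {v : HeightOneSpectrum (𝓞 K)} (hv : ChebK.SplitsCompletely L v) :
    ClassGroup.mk0 ⟨v.asIdeal, mem_nonZeroDivisors_of_ne_zero v.ne_bot⟩ ∈ (normC K L).range := by
  obtain ⟨w, rfl⟩ := under_surjective (K := K) L v
  have h := (ChebK.splitsCompletely_iff.mp hv).2 w rfl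
  have h1 : w.asIdeal.inertiaDeg (𝓞 K) = 1 := (ChebK.absNorm_eq_iff (K := K) w).mp h
  exact ⟨_, normC_place w h1⟩

variable [IsGalois K L]

variable (K L) in
/-- for every Galois extension: the norms have index at most `[L : K]` in the class group -/
theorem index_range_normC_le : (normC K L).range.index ≤ Module.finrank K L :=
  index_le_finrank (normC K L).range fun _ hv => mem_range_normC hv

/-- the three equalities -/
theorem unr_aux {σ : Gal(L/K)} (hσ : ∀ τ, τ ∈ Subgroup.zpowers σ)
    (h : ∀ w : HeightOneSpectrum (𝓞 L), (w.asIdeal.under (𝓞 K)).ramificationIdx' w.asIdeal = 1)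
    [IsUnramifiedAtInfinitePlaces K L] :
    (normC K L).range.index = Module.finrank K L ∧ (normUnits K L).index = 1 ∧
      (normC K L).ker = (dC σ).range := by
  have h1 : (∏ᶠ v : HeightOneSpectrum (𝓞 K), v.asIdeal.ramificationIdxIn (𝓞 L)) = 1 := by
    refine finprod_eq_one_of_forall_eq_one fun v => ?_
    rw [← ramIdx_sec]
    exact h (sec v)
  have h2 : ramInf K L = 0 := by
    rw [ramInf, Nat.card_eq_zero]
    exact Or.inl ⟨fun v => v.2 (InfinitePlace.isUnramifiedIn L v.1)⟩
  have h3 := chevalley_formula_cyclic hσ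
  rw [h1, h2, mul_one, pow_zero, mul_one] at h3
  have hcl : classNumber K = Nat.card (ClassGroup (𝓞 K)) := by
    rw [classNumber, Nat.card_eq_fintype_card]
  have h4 : Nat.card (normC K L).range * (normC K L).range.index = classNumber K := by
    rw [hcl]
    exact Subgroup.card_mul_index _
  have h5 : Nat.card (normC K L).range = (normC K L).ker.index := by
    rw [Subgroup.index_ker]
  have h6 : (normC K L).ker.index * (dC σ).range.relIndex (normC K L).ker =
      Nat.card (ambig σ) := by
    rw [mul_comm, Subgroup.relIndex_mul_index (range_dC_le σ), index_range_dC]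
  have hi := index_range_normC_le K L
  set n := Module.finrank K L with hn'
  set i := (normC K L).range.index with hi'
  set e := (normUnits K L).index with he'
  set r := (dC σ).range.relIndex (normC K L).ker with hr'
  set a := (normC K L).ker.index with ha'
  have hn : 0 < n := Module.finrank_pos
  have hh : classNumber K ≠ 0 := classNumber_ne_zero K
  have key : a * r * n * e = a * i := by
    rw [h6, ← h5, h4, ← h3]
  have ha : 0 < a := Nat.pos_of_ne_zero fun h0 => hh (by rw [← h4, h5, h0, zero_mul])
  have key' : r * n * e = i := by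
    refine Nat.eq_of_mul_eq_mul_left ha ?_
    rw [← key]
    ring
  have hi0 : 0 < i := Nat.pos_of_ne_zero fun h0 => hh (by rw [← h4, h0, mul_zero])
  have hr0 : 0 < r := Nat.pos_of_ne_zero fun h0 => hi0.ne' (by rw [← key', h0, zero_mul, zero_mul])
  have he0 : 0 < e := Nat.pos_of_ne_zero fun h0 => hi0.ne' (by rw [← key', h0, mul_zero])
  have hre : r * e = 1 := by
    have h8 : r * e * n ≤ 1 * n := by
      calc r * e * n = i := by rw [← key']; ring
        _ ≤ 1 * n := by rw [one_mul]; exact hi
    have h9 := Nat.le_of_mul_le_mul_right h8 hn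
    have h10 : 0 < r * e := Nat.mul_pos hr0 he0
    omega
  have hr1 : r = 1 := Nat.eq_one_of_mul_eq_one_right hre
  have he1 : e = 1 := Nat.eq_one_of_mul_eq_one_left hre
  refine ⟨?_, he1, ?_⟩
  · rw [← key', hr1, he1, one_mul, mul_one]
  · exact le_antisymm (Subgroup.relIndex_eq_one.mp hr1) (range_dC_le σ)

variable [IsCyclic Gal(L/K)]
  (h : ∀ w : HeightOneSpectrum (𝓞 L), (w.asIdeal.under (𝓞 K)).ramificationIdx' w.asIdeal = 1)
  [IsUnramifiedAtInfinitePlaces K L]

include h in
/-- **the norm index theorem** for unramified cyclic extensions: `[Cl(K) : N Cl(L)] = [L : K]` -/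
theorem index_range_normC : (normC K L).range.index = Module.finrank K L := by
  obtain ⟨σ, hσ⟩ := IsCyclic.exists_generator (α := Gal(L/K))
  exact (unr_aux hσ h).1

include h in
/-- **every unit of `K` is the norm of an element of `L`**, `L / K` cyclic and unramified -/
theorem exists_norm_eq_unit (u : (𝓞 K)ˣ) : ∃ x : L, Algebra.norm K x = ((u : 𝓞 K) : K) := by
  obtain ⟨σ, hσ⟩ := IsCyclic.exists_generator (α := Gal(L/K))
  have h1 := (unr_aux hσ h).2.1
  rw [Subgroup.index_eq_one] at h1
  exact mem_normUnits.mp (h1 ▸ Subgroup.mem_top u)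

include h in
/-- **the principal genus theorem** for unramified cyclic extensions: the norm of an ideal `I` of `L`
is principal if and only if the class of `I` is `σ(c) / c` for an ideal class `c` -/
theorem relNorm_isPrincipal_iff {σ : Gal(L/K)} (hσ : ∀ τ, τ ∈ Subgroup.zpowers σ)
    (I : (Ideal (𝓞 L))⁰) :
    (Ideal.relNorm (𝓞 K) (I : Ideal (𝓞 L))).IsPrincipal ↔ ∃ c : ClassGroup (𝓞 L),
      ClassGroup.mk0 I =
        ClassGroup.mulEquiv (MulSemiringAction.toRingEquiv Gal(L/K) (𝓞 L) σ) c / c := by
  have h1 := (unr_aux hσ h).2.2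
  have h2 : (Ideal.relNorm (𝓞 K) (I : Ideal (𝓞 L))).IsPrincipal ↔
      ClassGroup.mk0 I ∈ (normC K L).ker := by
    rw [MonoidHom.mem_ker, normC_mk0]
    exact (ClassGroup.mk0_eq_one_iff (rnI K I).2).symm
  rw [h2, h1]
  exact ⟨fun ⟨c, hc⟩ => ⟨c, hc.symm⟩, fun ⟨c, hc⟩ => ⟨c, hc.symm⟩⟩

include h in
/-- **the class number of the base**: `h(K) = [L : K] · #Cl(L)^G` -/
theorem classNumber_eq_mul_card {σ : Gal(L/K)} (hσ : ∀ τ, τ ∈ Subgroup.zpowers σ) :
    classNumber K = Module.finrank K L * Nat.card {c : ClassGroup (𝓞 L) //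
      ClassGroup.mulEquiv (MulSemiringAction.toRingEquiv Gal(L/K) (𝓞 L) σ) c = c} := by
  have h0 := (unr_aux hσ h).2.1
  have h1 : (∏ᶠ v : HeightOneSpectrum (𝓞 K), v.asIdeal.ramificationIdxIn (𝓞 L)) = 1 := by
    refine finprod_eq_one_of_forall_eq_one fun v => ?_
    rw [← ramIdx_sec]
    exact h (sec v)
  have h2 : ramInf K L = 0 := by
    rw [ramInf, Nat.card_eq_zero]
    exact Or.inl ⟨fun v => v.2 (InfinitePlace.isUnramifiedIn L v.1)⟩
  have h3 := chevalley_formula_cyclic hσ
  rw [h1, h2, mul_one, pow_zero, mul_one, h0, mul_one, mul_comm] at h3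
  exact h3.symm

end Fermat.Agent.Cor.Ambi
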