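import Fermat.Agent.Corollaries.Ambi.CapitCyc

/-!
# The norm on ideal classes
-/

set_option autoImplicit false
set_option linter.unusedSectionVars false

namespace Fermat.Agent.Cor.Ambi

open IsDedekindDomain NumberField
open Fermat.Agent.CFT.SUnits Fermat.Agent.CFT.ChevMul
open scoped Pointwise nonZeroDivisors

variable {K L : Type*} [Field K] [NumberField K] [Field L] [NumberField L] [Algebra K L]

/-- the relative norm of nonzero ideals -/
noncomputable def rnI (K : Type*) [Field K] [NumberField K] [Algebra K L] (I : (Ideal (𝓞 L))⁰) :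
    (Ideal (𝓞 K))⁰ :=
  ⟨Ideal.relNorm (𝓞 K) (I : Ideal (𝓞 L)), mem_nonZeroDivisors_iff_ne_zero.mpr fun h =>
    nonZeroDivisors.coe_ne_zero I (Ideal.relNorm_eq_bot_iff.mp h)⟩

@[simp]
lemma coe_rnI (I : (Ideal (𝓞 L))⁰) :
    (rnI K I : Ideal (𝓞 K)) = Ideal.relNorm (𝓞 K) (I : Ideal (𝓞 L)) := rfl

lemma rnI_mul (I J : (Ideal (𝓞 L))⁰) : rnI K (I * J) = rnI K I * rnI K J := by
  apply Subtype.ext
  rw [coe_rnI, Submonoid.coe_mul, Submonoid.coe_mul, map_mul]
  rfl

lemma mk0_rnI {I J : (Ideal (𝓞 L))⁰} (h : ClassGroup.mk0 I = ClassGroup.mk0 J) :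
    ClassGroup.mk0 (rnI K I) = ClassGroup.mk0 (rnI K J) := by
  rw [ClassGroup.mk0_eq_mk0_iff] at h ⊢
  obtain ⟨x, y, hx, hy, h⟩ := h
  refine ⟨Algebra.intNorm (𝓞 K) (𝓞 L) x, Algebra.intNorm (𝓞 K) (𝓞 L) y,
    Algebra.intNorm_ne_zero.mpr hx, Algebra.intNorm_ne_zero.mpr hy, ?_⟩
  rw [← Ideal.relNorm_singleton, ← Ideal.relNorm_singleton, coe_rnI, coe_rnI, ← map_mul, ← map_mul,
    h]

/-- **the norm of ideal classes** -/
noncomputable def normC (K L : Type*) [Field K] [NumberField K] [Field L] [NumberField L]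
    [Algebra K L] : ClassGroup (𝓞 L) →* ClassGroup (𝓞 K) :=
  MonoidHom.mk' (fun c => ClassGroup.mk0 (rnI K (ClassGroup.mk0_surjective c).choose))
    fun c d => by
      rw [← map_mul, ← rnI_mul]
      apply mk0_rnI
      rw [map_mul, (ClassGroup.mk0_surjective c).choose_spec,
        (ClassGroup.mk0_surjective d).choose_spec, (ClassGroup.mk0_surjective (c * d)).choose_spec]

/-- the norm of the class of `I` is the class of the relative norm of `I` -/
theorem normC_mk0 (I : (Ideal (𝓞 L))⁰) :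
    normC K L (ClassGroup.mk0 I) = ClassGroup.mk0 (rnI K I) :=
  mk0_rnI (ClassGroup.mk0_surjective (ClassGroup.mk0 I)).choose_spec

lemma normC_actC (σ : Gal(L/K)) (c : ClassGroup (𝓞 L)) :
    normC K L (actC σ c) = normC K L c := by
  obtain ⟨I, rfl⟩ := ClassGroup.mk0_surjective c
  rw [actC, ClassGroup.mulEquiv_mk0, normC_mk0, normC_mk0]
  congr 1
  apply Subtype.ext
  rw [coe_rnI, coe_rnI, ← Ideal.relNorm_smul (𝓞 K) σ (I : Ideal (𝓞 L))]
  rfl

/-- the place under `w` is the norm of `w` if the residue degree is one -/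
lemma normC_place (w : HeightOneSpectrum (𝓞 L)) (hf : w.asIdeal.inertiaDeg (𝓞 K) = 1) :
    normC K L (ClassGroup.mk0 ⟨w.asIdeal, mem_nonZeroDivisors_of_ne_zero w.ne_bot⟩) =
      ClassGroup.mk0 ⟨(under K w).asIdeal, mem_nonZeroDivisors_of_ne_zero (under K w).ne_bot⟩ := by
  rw [normC_mk0]
  congr 1
  apply Subtype.ext
  rw [coe_rnI]
  change Ideal.relNorm (𝓞 K) w.asIdeal = (under K w).asIdeal
  have : w.asIdeal.LiesOver (under K w).asIdeal := ⟨rfl⟩
  rw [Ideal.relNorm_eq_pow_of_isMaximal w.asIdeal (under K w).asIdeal, hf, pow_one]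

/-- the homomorphism `c ↦ σ(c) / c` -/
noncomputable def dC (σ : Gal(L/K)) : ClassGroup (𝓞 L) →* ClassGroup (𝓞 L) where
  toFun c := actC σ c / c
  map_one' := by rw [map_one, _root_.div_one]
  map_mul' x y := by
    rw [map_mul]
    exact mul_div_mul_comm _ _ _ _

lemma dC_apply (σ : Gal(L/K)) (c : ClassGroup (𝓞 L)) : dC σ c = actC σ c / c := rfl

lemma ker_dC (σ : Gal(L/K)) : (dC σ).ker = ambig σ := by
  ext c
  rw [MonoidHom.mem_ker, dC_apply, div_eq_one, mem_ambig]

/-- the number of classes modulo `σ(c) / c` is the number of ambiguous classes -/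
lemma index_range_dC (σ : Gal(L/K)) : (dC σ).range.index = Nat.card (ambig σ) := by
  have h1 := Subgroup.card_mul_index (dC σ).range
  have h2 := Subgroup.card_mul_index (dC σ).ker
  rw [Subgroup.index_ker, ker_dC, mul_comm] at h2
  have h3 : 0 < Nat.card (dC σ).range := Nat.card_pos
  exact Nat.eq_of_mul_eq_mul_left h3 (h1.trans h2.symm)

lemma range_dC_le (σ : Gal(L/K)) : (dC σ).range ≤ (normC K L).ker := by
  rintro _ ⟨c, rfl⟩
  rw [MonoidHom.mem_ker, dC_apply, map_div, normC_actC, div_self']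

end Fermat.Agent.Cor.Ambi
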